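import Fermat.Agent.SiegelKlingen.Form
import Fermat.Agent.HeckeFE.Extension

/-!
# The values

The factor is a rational multiple of `π^(k n) √|d|`; so are the partial zeta values at `k`, and the
functional equation carries this to rational values of the zeta function at `1 - k`.
-/

set_option autoImplicit false
set_option linter.unusedSectionVars false
set_option linter.style.haveILetI false

noncomputable section

open NumberField InfinitePlace Module Filter Complex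
open scoped Real nonZeroDivisors Classical Topology Nat

namespace FA.SiegelKlingen

open FA.HeckeFE

variable {K : Type*} [Field K] [NumberField K] [IsTotallyReal K]
variable (J : (FractionalIdeal (𝓞 K)⁰ K)ˣ)

/-- `√|d|`. -/
def rootDiscr (K : Type*) [Field K] [NumberField K] : ℝ := √|((discr K : ℤ) : ℝ)|

theorem rootDiscr_pos : 0 < rootDiscr K :=
  Real.sqrt_pos.2 (abs_pos.2 (Int.cast_ne_zero.2 (discr_ne_zero K)))

theorem factor_eq (t : ℕ) : ∃ q : ℚ,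
    factor J (2 * t) = (q : ℂ) * ((π : ℂ) ^ (2 * t * finrank ℚ K) * (rootDiscr K : ℂ)) := by
  refine ⟨(-4) ^ (t * finrank ℚ K) / (((2 * t - 1)! : ℚ) ^ finrank ℚ K *
    (FractionalIdeal.absNorm (J : FractionalIdeal (𝓞 K)⁰ K) * |(discr K : ℚ)|)), ?_⟩
  have hd : (rootDiscr K : ℂ) * (rootDiscr K : ℂ) = ((|(discr K : ℚ)| : ℚ) : ℂ) := by
    rw [← ofReal_mul, rootDiscr, Real.mul_self_sqrt (abs_nonneg _), ← ofReal_ratCast]
    congr 1
    push_cast
    rfl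
  have hd0 : (rootDiscr K : ℂ) ≠ 0 := ofReal_ne_zero.2 rootDiscr_pos.ne'
  have hN : (FractionalIdeal.absNorm (J : FractionalIdeal (𝓞 K)⁰ K) : ℂ) ≠ 0 := by
    rw [← ofReal_ratCast]
    exact ofReal_ne_zero.2 (normR_pos J).ne'
  have hp : (-(2 * (π : ℂ) * I)) ^ (2 * t * finrank ℚ K) =
      (-4) ^ (t * finrank ℚ K) * (π : ℂ) ^ (2 * t * finrank ℚ K) := by
    rw [mul_assoc 2 t, pow_mul, pow_mul (π : ℂ), ← mul_pow]
    congr 1
    linear_combination (4 * (π : ℂ) ^ 2) * I_sq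
  rw [factor, ← rootDiscr, hp, normR, ofReal_mul, ofReal_ratCast]
  simp only [Rat.cast_div, Rat.cast_mul, Rat.cast_pow, Rat.cast_neg, Rat.cast_ofNat,
    Rat.cast_natCast]
  rw [← hd]
  have hf : ((2 * t - 1)! : ℂ) ≠ 0 := Nat.cast_ne_zero.2 (Nat.factorial_ne_zero _)
  field_simp

/-- **Klingen's theorem for a class.** -/
theorem classZ_mem {k : ℕ} (hk : Even k) (hk2 : 2 ≤ k) (C : ClassGroup (𝓞 K))
    (hS : SummableTerms (repIdeal K C) k) (hI : IsInvariant (repIdeal K C) k) : ∃ r : ℚ,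
    FA.PrimeIdeal.classZ C (k : ℂ) = (r : ℂ) * ((π : ℂ) ^ (k * finrank ℚ K) * rootDiscr K) := by
  obtain ⟨t, rfl⟩ := hk.two_dvd
  obtain ⟨r, hr⟩ := constSum_mem (repIdeal K C) hk hk2 hS hI
  obtain ⟨q, hq⟩ := factor_eq (repIdeal K C) t
  refine ⟨r * q * FractionalIdeal.absNorm (repIdeal K C : FractionalIdeal (𝓞 K)⁰ K) ^ (2 * t) /
    (Units.torsionOrder K : ℚ), ?_⟩
  have hs : 1 < ((2 * t : ℕ) : ℂ).re := by
    rw [natCast_re]
    exact_mod_cast (by omega : 1 < 2 * t)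
  have hcone : coneSum (repIdeal K C) ((2 * t : ℕ) : ℂ) =
      (normR (repIdeal K C) : ℂ) ^ (2 * t) * constSum (repIdeal K C) (2 * t) := by
    rw [coneSum, constSum, ofReal_tsum, ← tsum_mul_left]
    refine tsum_congr fun d => ?_
    rw [← normR_mul_ratio (repIdeal K C), cpow_neg, cpow_natCast]
    have h1 : (normR (repIdeal K C) : ℂ) ≠ 0 := ofReal_ne_zero.2 (normR_pos _).ne'
    push_cast
    rw [mul_pow, mul_inv, ← mul_assoc, mul_inv_cancel₀ (pow_ne_zero _ h1), one_mul]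
  have h := coneSum_eq (repIdeal K C) hs
  rw [mk_repIdeal, hcone, hr, hq, normR, ofReal_ratCast] at h
  have hw : (Units.torsionOrder K : ℂ) ≠ 0 := Nat.cast_ne_zero.2 (NeZero.ne _)
  simp only [Rat.cast_div, Rat.cast_mul, Rat.cast_pow, Rat.cast_natCast]
  rw [div_mul_eq_mul_div, eq_div_iff hw, mul_comm _ (Units.torsionOrder K : ℂ), ← h]
  ring

/-- **The value at `k`.** -/
theorem dedekindZeta_mem {k : ℕ} (hk : Even k) (hk2 : 2 ≤ k) (hC : ∀ C : ClassGroup (𝓞 K),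
    ∃ r : ℚ, FA.PrimeIdeal.classZ C (k : ℂ) =
      (r : ℂ) * ((π : ℂ) ^ (k * finrank ℚ K) * rootDiscr K)) : ∃ r : ℚ, r ≠ 0 ∧
    dedekindZeta K (k : ℂ) = (r : ℂ) * ((π : ℂ) ^ (k * finrank ℚ K) * rootDiscr K) := by
  have hs : 1 < (k : ℂ).re := by
    rw [natCast_re]
    exact_mod_cast (by omega : 1 < k)
  choose f hf using hC
  have e : dedekindZeta K (k : ℂ) =
      ((∑ C, f C : ℚ) : ℂ) * ((π : ℂ) ^ (k * finrank ℚ K) * rootDiscr K) := by
    rw [FA.PrimeIdeal.dedekindZeta_eq_sum_classZ hs, Finset.sum_congr rfl fun C _ => hf C,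
      ← Finset.sum_mul, Rat.cast_sum]
  refine ⟨∑ C, f C, fun h0 => ?_, e⟩
  rw [h0, Rat.cast_zero, zero_mul, FA.AbelianZeta.dedekindZeta_eq_tsum hs] at e
  have hreal : ∀ I : (Ideal (𝓞 K))⁰, FA.AbelianZeta.normPow (k : ℂ) I =
      (((((Ideal.absNorm (I : Ideal (𝓞 K)) : ℕ) : ℝ) ^ k)⁻¹ : ℝ) : ℂ) := fun I => by
    show ((Ideal.absNorm (I : Ideal (𝓞 K)) : ℕ) : ℂ) ^ (-(k : ℂ)) = _
    rw [cpow_neg, cpow_natCast]
    push_cast
    rfl
  have hsum : Summable fun I : (Ideal (𝓞 K))⁰ =>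
      ((((Ideal.absNorm (I : Ideal (𝓞 K)) : ℕ) : ℝ) ^ k)⁻¹) := by
    refine Complex.summable_ofReal.1 ?_
    exact (FA.AbelianZeta.summable_norm_normPow hs).of_norm.congr hreal
  rw [tsum_congr hreal, ← ofReal_tsum, ofReal_eq_zero] at e
  refine (hsum.tsum_pos (fun I => by positivity) 1 ?_).ne' e
  simp

theorem classZ_mem_four {k : ℕ} (hk : Even k) (hk4 : 4 ≤ k) (C : ClassGroup (𝓞 K)) : ∃ r : ℚ,
    FA.PrimeIdeal.classZ C (k : ℂ) = (r : ℂ) * ((π : ℂ) ^ (k * finrank ℚ K) * rootDiscr K) :=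
  classZ_mem hk (by omega) C (summableTerms_of_four _ hk hk4) (isInvariant_of_four _ hk hk4)

theorem completed_continuousAt {Z : ℂ → ℂ} {s : ℂ} (hR : Gammaℝ s ≠ 0) (hZ : ContinuousAt Z s) :
    ContinuousAt (FA.Summary.completedDedekind K Z) s := by
  have hG : ContinuousAt Gammaℝ s := by
    have h := (differentiable_Gammaℝ_inv s).continuousAt.inv₀ (inv_ne_zero hR)
    simpa only [Pi.inv_def, inv_inv] using h
  have h0 : nrComplexPlaces K = 0 := IsTotallyReal.nrComplexPlaces_eq_zero K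
  unfold FA.Summary.completedDedekind
  rw [h0]
  simp only [pow_zero, mul_one]
  refine ((ContinuousAt.const_cpow (continuousAt_id.div_const 2)
    (Or.inl (discr_natAbs_ne_zero K))).mul (hG.pow _)).mul hZ

/-- **The functional equation between `k` and `1 - k`.** -/
theorem extension_eq {t : ℕ} (ht : 1 ≤ t) {r : ℚ} (hr : dedekindZeta K ((2 * t : ℕ) : ℂ) =
    (r : ℂ) * ((π : ℂ) ^ (2 * t * finrank ℚ K) * rootDiscr K)) :
    extension K (1 - ((2 * t : ℕ) : ℂ)) = (((((discr K).natAbs : ℕ) : ℚ) ^ (2 * t) *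
      ((2 * ((2 * t - 1)! : ℕ)) * (-1) ^ t / 2 ^ (2 * t)) ^ finrank ℚ K * r : ℚ) : ℂ) := by
  obtain ⟨D, hD⟩ : ∃ D : ℕ, D = (discr K).natAbs := ⟨_, rfl⟩
  obtain ⟨n, hn⟩ : ∃ n : ℕ, n = finrank ℚ K := ⟨_, rfl⟩
  rw [← hn] at hr
  have hD0 : D ≠ 0 := hD ▸ Int.natAbs_ne_zero.2 (discr_ne_zero K)
  have hRk : Gammaℝ ((2 * t : ℕ) : ℂ) ≠ 0 :=
    Gammaℝ_ne_zero_of_re_pos (by rw [natCast_re]; exact_mod_cast (by omega : 0 < 2 * t))
  have hR1 : Gammaℝ (1 - ((2 * t : ℕ) : ℂ)) ≠ 0 := fun h => by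
    obtain ⟨j, hj⟩ := Gammaℝ_eq_zero_iff.1 h
    have e : ((1 - (2 * t : ℕ) : ℤ) : ℂ) = ((-(2 * j : ℕ) : ℤ) : ℂ) := by
      push_cast
      push_cast at hj
      exact hj
    have := Int.cast_injective e
    omega
  have hne1 : (1 : ℂ) - ((2 * t : ℕ) : ℂ) ≠ 1 := fun h => by
    have : ((2 * t : ℕ) : ℂ) = 0 := by linear_combination -h
    rw [Nat.cast_eq_zero] at this
    omega
  have hne2 : ((2 * t : ℕ) : ℂ) ≠ 1 := fun h => by
    rw [Nat.cast_eq_one] at h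
    omega
  have hcont : ∀ s : ℂ, s ≠ 1 → ContinuousAt (extension K) s := fun s hs =>
    ((differentiableOn_extension K).differentiableAt
      (isOpen_compl_singleton.mem_nhds hs)).continuousAt
  have heq : FA.Summary.completedDedekind K (extension K) (1 - ((2 * t : ℕ) : ℂ)) =
      FA.Summary.completedDedekind K (extension K) ((2 * t : ℕ) : ℂ) := by
    refine tendsto_nhds_unique_of_eventuallyEq (l := 𝓝[≠] ((2 * t : ℕ) : ℂ))
      ((((completed_continuousAt hR1 (hcont _ hne1)).comp'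
        (continuousAt_const.sub continuousAt_id)).tendsto).mono_left nhdsWithin_le_nhds)
      ((completed_continuousAt hRk (hcont _ hne2)).tendsto.mono_left nhdsWithin_le_nhds) ?_
    filter_upwards [self_mem_nhdsWithin, mem_nhdsWithin_of_mem_nhds
      (Metric.ball_mem_nhds ((2 * t : ℕ) : ℂ) one_pos)] with s hs hs'
    refine completedDedekind_extension_one_sub K fun m hm => hs ?_
    rw [Set.mem_singleton_iff, hm]
    rw [hm, Metric.mem_ball, Complex.dist_eq, ← Int.cast_natCast (2 * t), ← Int.cast_sub,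
      Complex.norm_intCast] at hs'
    have h1 : |m - ((2 * t : ℕ) : ℤ)| < 1 := by exact_mod_cast hs'
    rw [Int.abs_lt_one_iff] at h1
    rw [← Int.cast_natCast (2 * t), sub_eq_zero.1 h1]
  rw [FA.Summary.completedDedekind, FA.Summary.completedDedekind,
    IsTotallyReal.nrComplexPlaces_eq_zero, pow_zero, pow_zero, mul_one, mul_one,
    extension_eq_dedekindZeta K (s := ((2 * t : ℕ) : ℂ))
      (by rw [natCast_re]; exact_mod_cast (by omega : 1 < 2 * t)), hr,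
    ← hD, ← IsTotallyReal.finrank (K := K), ← hn] at heq
  have hG := Gammaℝ_div_Gammaℝ_one_sub (s := ((2 * t : ℕ) : ℂ)) fun j h => by
    have e := congrArg Complex.re h
    simp at e
    linarith [Nat.cast_nonneg (α := ℝ) t, Nat.cast_nonneg (α := ℝ) j]
  have hcos : Complex.cos (π * ((2 * t : ℕ) : ℂ) / 2) = (-1 : ℂ) ^ t := by
    rw [show (π : ℂ) * ((2 * t : ℕ) : ℂ) / 2 = ((t * π : ℝ) : ℂ) by push_cast; ring,
      ← ofReal_cos, Real.cos_nat_mul_pi]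
    push_cast
    rfl
  have hCt : Gammaℂ ((2 * t : ℕ) : ℂ) = 2 * (((2 * t - 1)! : ℕ) : ℂ) / (2 * (π : ℂ)) ^ (2 * t) := by
    rw [Gammaℂ_def, cpow_neg, cpow_natCast]
    obtain ⟨j, hj⟩ : ∃ j, 2 * t = j + 1 := ⟨2 * t - 1, by omega⟩
    rw [hj, Nat.add_sub_cancel, Nat.cast_add, Nat.cast_one, Complex.Gamma_nat_eq_factorial]
    ring
  have hsq : ((D : ℂ) ^ ((1 - ((2 * t : ℕ) : ℂ)) / 2)) * (D : ℂ) ^ (2 * t) =
      (D : ℂ) ^ (((2 * t : ℕ) : ℂ) / 2) * (rootDiscr K : ℂ) := by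
    have hD' : (D : ℂ) ≠ 0 := Nat.cast_ne_zero.2 hD0
    rw [← cpow_natCast (D : ℂ) (2 * t), ← cpow_add _ _ hD',
      show (1 - ((2 * t : ℕ) : ℂ)) / 2 + ((2 * t : ℕ) : ℂ) =
        ((2 * t : ℕ) : ℂ) / 2 + ((1 / 2 : ℝ) : ℂ) by push_cast; ring, cpow_add _ _ hD']
    congr 1
    rw [← ofReal_natCast, ← ofReal_cpow (Nat.cast_nonneg _), rootDiscr, Real.sqrt_eq_rpow, hD,
      Nat.cast_natAbs, Int.cast_abs]
  have hGn : Gammaℝ ((2 * t : ℕ) : ℂ) =
      2 * (((2 * t - 1)! : ℕ) : ℂ) / (2 * (π : ℂ)) ^ (2 * t) * (-1) ^ t *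
        Gammaℝ (1 - ((2 * t : ℕ) : ℂ)) := by
    rw [← hcos, ← hCt, ← hG, div_mul_cancel₀ _ hR1]
  have hD1 : (D : ℂ) ^ ((1 - ((2 * t : ℕ) : ℂ)) / 2) ≠ 0 :=
    cpow_ne_zero_iff.2 (Or.inl (Nat.cast_ne_zero.2 hD0))
  rw [← hD, ← hn]
  refine mul_left_cancel₀ (mul_ne_zero hD1 (pow_ne_zero n hR1)) (heq.trans ?_)
  rw [hGn, mul_pow, mul_pow (2 : ℂ) (π : ℂ)]
  simp only [Rat.cast_mul, Rat.cast_pow, Rat.cast_div, Rat.cast_natCast, Rat.cast_ofNat,
    Rat.cast_neg, Rat.cast_one]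
  have hπ : (π : ℂ) ≠ 0 := ofReal_ne_zero.2 Real.pi_ne_zero
  have key : (2 * (((2 * t - 1)! : ℕ) : ℂ) / (2 ^ (2 * t) * (π : ℂ) ^ (2 * t)) * (-1) ^ t) ^ n *
      (π : ℂ) ^ (2 * t * n) = (2 * (((2 * t - 1)! : ℕ) : ℂ) * (-1) ^ t / 2 ^ (2 * t)) ^ n := by
    rw [pow_mul (π : ℂ) (2 * t), ← mul_pow]
    congr 1
    field_simp
  rw [← key]
  linear_combination
    (-((2 * (((2 * t - 1)! : ℕ) : ℂ) / (2 ^ (2 * t) * (π : ℂ) ^ (2 * t)) * (-1) ^ t) ^ n) *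
      Gammaℝ (1 - ((2 * t : ℕ) : ℂ)) ^ n * (r : ℂ) * (π : ℂ) ^ (2 * t * n)) * hsq

/-- **The theorem of Siegel and Klingen.** -/
theorem extension_mem {k : ℕ} (hk : Even k) (hk2 : 2 ≤ k) (hz : ∃ r : ℚ, r ≠ 0 ∧
    dedekindZeta K (k : ℂ) = (r : ℂ) * ((π : ℂ) ^ (k * finrank ℚ K) * rootDiscr K)) :
    ∃ r : ℚ, r ≠ 0 ∧ extension K (1 - (k : ℂ)) = (r : ℂ) := by
  obtain ⟨r, hr0, hr⟩ := hz
  obtain ⟨t, rfl⟩ := hk.two_dvd
  refine ⟨_, mul_ne_zero (mul_ne_zero (pow_ne_zero _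
    (Nat.cast_ne_zero.2 (Int.natAbs_ne_zero.2 (discr_ne_zero K)))) (pow_ne_zero _ ?_)) hr0,
    extension_eq (by omega) hr⟩
  exact div_ne_zero (mul_ne_zero (mul_ne_zero two_ne_zero
    (Nat.cast_ne_zero.2 (Nat.factorial_ne_zero _))) (pow_ne_zero _ (by norm_num)))
    (pow_ne_zero _ two_ne_zero)

end FA.SiegelKlingen

end
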