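import Fermat.Agent.SiegelKlingen.HeckeTrick
import Fermat.Agent.SiegelKlingen.Values
import Fermat.Agent.Root.SummaryAbelianZeta
import Fermat.Agent.ArtinL.DegreeOne

/-!
# The values at `2` and at `-1`

In degree one the field is `ℚ` and `ζ (2) = π² / 6`; otherwise Hecke's trick applies.
-/

set_option autoImplicit false
set_option linter.unusedSectionVars false
set_option linter.style.haveILetI false

noncomputable section

open NumberField InfinitePlace Module Filter Complex
open scoped Real nonZeroDivisors Classical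

namespace FA.SiegelKlingen

open FA.HeckeFE

variable {K : Type*} [Field K] [NumberField K] [IsTotallyReal K]

/-- Degree one. -/
theorem classZ_mem_rat (h1 : finrank ℚ K = 1) (C : ClassGroup (𝓞 K)) : ∃ r : ℚ,
    FA.PrimeIdeal.classZ C ((2 : ℕ) : ℂ) =
      (r : ℂ) * ((π : ℂ) ^ (2 * finrank ℚ K) * rootDiscr K) := by
  have hb := Module.Free.bijective_algebraMap_of_finrank_eq_one (R := ℚ) (S := K) h1
  obtain ⟨e, -⟩ : ∃ e : K ≃ₐ[ℚ] ℚ, True :=
    ⟨(AlgEquiv.ofBijective (Algebra.ofId ℚ K) hb).symm, trivial⟩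
  let e' : 𝓞 K ≃+* ℤ :=
    (RingOfIntegers.mapRingEquiv e.toRingEquiv).trans Rat.ringOfIntegersEquiv
  haveI : IsPrincipalIdealRing (𝓞 K) :=
    IsPrincipalIdealRing.of_surjective e'.symm.toRingHom e'.symm.surjective
  haveI : Subsingleton (ClassGroup (𝓞 K)) :=
    (Fintype.card_le_one_iff_subsingleton).1 (le_of_eq (classNumber_eq_one_iff.2 inferInstance))
  have hs : 1 < ((2 : ℕ) : ℂ).re := by simp
  have h := FA.PrimeIdeal.dedekindZeta_eq_sum_classZ (K := K) hs
  rw [Fintype.sum_subsingleton _ C, FA.AbelianZeta.dedekindZeta_congr e.toRingEquiv,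
    FA.ArtinL.dedekindZeta_rat hs] at h
  refine ⟨1 / 6, ?_⟩
  rw [← h, rootDiscr, discr_eq_discr_of_algEquiv K e, Rat.numberField_discr, h1, Nat.cast_ofNat,
    riemannZeta_two]
  norm_num
  ring

/-- **The partial zeta values at `2`.** -/
theorem classZ_mem_two (C : ClassGroup (𝓞 K)) : ∃ r : ℚ,
    FA.PrimeIdeal.classZ C ((2 : ℕ) : ℂ) =
      (r : ℂ) * ((π : ℂ) ^ (2 * finrank ℚ K) * rootDiscr K) := by
  rcases Nat.lt_or_ge (finrank ℚ K) 2 with h | h
  · exact classZ_mem_rat (by
      have := finrank_pos (R := ℚ) (M := K)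
      omega) C
  · exact classZ_mem even_two le_rfl C (summableTerms_two _) (isInvariant_two _ h)

/-- **Every positive even argument.** -/
theorem classZ_mem_even {k : ℕ} (hk : Even k) (hk2 : 2 ≤ k) (C : ClassGroup (𝓞 K)) : ∃ r : ℚ,
    FA.PrimeIdeal.classZ C (k : ℂ) = (r : ℂ) * ((π : ℂ) ^ (k * finrank ℚ K) * rootDiscr K) := by
  rcases Nat.lt_or_ge k 4 with h | h
  · obtain rfl : k = 2 := by
      obtain ⟨t, rfl⟩ := hk.two_dvd
      omega
    exact classZ_mem_two C
  · exact classZ_mem_four hk h C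

end FA.SiegelKlingen

end
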