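import Fermat.Agent.SiegelKlingen.HeckeKernel

/-!
# Poisson summation with Hecke's factor

For one `c` the sum over an ideal of `∏ (c_w z + d_w)^(-2) |c_w z + d_w|^(-2 s)` is a series over the
dual ideal; a sum over boxes of sides `a_w` bounds it absolutely by `∏ |c_w|^(-1 - 2 s)`.
-/

set_option autoImplicit false
set_option linter.unusedSectionVars false
set_option linter.style.haveILetI false

noncomputable section

open NumberField InfinitePlace Module MeasureTheory Matrix UnitAddTorus Filter Set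
open Complex (I)
open scoped Real nonZeroDivisors Classical Topology FourierTransform UpperHalfPlane

namespace FA.SiegelKlingen

open FA.HeckeFE

/-- **Poisson summation for a dominated function.** -/
theorem poisson_dominated {n : ℕ} {H : (Fin n → ℝ) → ℂ} (hH : Continuous H)
    (hd : ∀ R : ℝ, ∃ B : (Fin n → ℤ) → ℝ, Summable B ∧
      ∀ x v, (∀ i, |x i| ≤ R) → ‖H (x + ofInt v)‖ ≤ B v)
    {c : (Fin n → ℤ) → ℂ}
    (hc : ∀ m, ∫ x : Fin n → ℝ, mFourier (-m) (toTorus x) * H x = c m) (hcs : Summable c) :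
    ∑' v : Fin n → ℤ, H (ofInt v) = ∑' m : Fin n → ℤ, c m := by
  obtain ⟨F, hF⟩ : ∃ F : (Fin n → ℝ) → ℂ, F = fun x => ∑' v : Fin n → ℤ, H (x + ofInt v) :=
    ⟨_, rfl⟩
  have hFcont : Continuous F := by
    rw [hF]
    refine continuous_iff_continuousAt.2 fun x => ?_
    obtain ⟨B, hB, hb⟩ := hd (‖x‖ + 1)
    refine ContinuousOn.continuousAt (s := Metric.closedBall x 1) ?_
      (Metric.closedBall_mem_nhds x one_pos)
    refine continuousOn_tsum (fun v => (hH.comp (continuous_id.add continuous_const)).continuousOn)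
      hB fun v t ht => hb t v fun i => ?_
    have h1 : ‖t - x‖ ≤ 1 := mem_closedBall_iff_norm.1 ht
    have h2 := norm_le_pi_norm t i
    have h3 := norm_le_norm_add_norm_sub' t x
    rw [Real.norm_eq_abs] at h2
    linarith
  let sec : UnitAddTorus (Fin n) → Fin n → ℝ := fun θ i => (AddCircle.equivIoc 1 0 (θ i) : ℝ)
  have hq : Topology.IsQuotientMap (toTorus (ι := Fin n)) :=
    (IsOpenQuotientMap.piMap (f := fun (_ : Fin n) (x : ℝ) => (x : UnitAddCircle))
      fun _ => QuotientAddGroup.isOpenQuotientMap_mk).isQuotientMap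
  have hper : ∀ x, F (sec (toTorus x)) = F x := fun x => by
    obtain ⟨k, hk⟩ : ∃ k : Fin n → ℤ, sec (toTorus x) = x + ofInt k := by
      have : ∀ i, ∃ k : ℤ, sec (toTorus x) i = x i + k := fun i => by
        have h1 : ((sec (toTorus x) i : ℝ) : UnitAddCircle) = (x i : UnitAddCircle) :=
          (AddCircle.equivIoc 1 0).symm_apply_apply _
        rw [QuotientAddGroup.eq_iff_sub_mem, AddSubgroup.mem_zmultiples_iff] at h1
        obtain ⟨k, hk⟩ := h1
        refine ⟨k, ?_⟩
        rw [zsmul_one] at hk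
        linarith
      choose k hk using this
      exact ⟨k, funext hk⟩
    simp only [hF, hk]
    rw [← (Equiv.addLeft k).tsum_eq fun v => H (x + ofInt v)]
    refine tsum_congr fun v => ?_
    congr 1
    funext i
    simp [ofInt, add_assoc]
  let G : C(UnitAddTorus (Fin n), ℂ) := ⟨fun θ => F (sec θ), hq.continuous_iff.2 (by
    have : (fun θ => F (sec θ)) ∘ toTorus = F := funext hper
    rw [this]; exact hFcont)⟩
  have hcoef : mFourierCoeff G = c := funext fun m => by
    rw [mFourierCoeff_eq_integral _ m 0, ← hc m]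
    obtain ⟨P, hP⟩ : ∃ P : (Fin n → ℝ) → ℂ, P = fun x => mFourier (-m) (toTorus x) * H x :=
      ⟨_, rfl⟩
    have hnorm : ∀ x, ‖P x‖ = ‖H x‖ := fun x => by
      simp only [hP, norm_mul, mFourier_toTorus, Complex.norm_exp]
      simp
    have hbox : {x : Fin n → ℝ | ∀ i, x i ∈ Ioc ((0 : Fin n → ℝ) i) ((0 : Fin n → ℝ) i + 1)} =
        box 0 := by
      simp [box]
    rw [hbox]
    have hpt : EqOn (fun x : Fin n → ℝ => mFourier (-m) (fun i => (x i : UnitAddCircle)) •
        G (fun i => (x i : UnitAddCircle))) (fun x => ∑' v : Fin n → ℤ, P (x + ofInt v)) (box 0) :=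
      fun x _ => by
      show mFourier (-m) (toTorus x) • F (sec (toTorus x)) = _
      rw [hper, hF, smul_eq_mul, ← tsum_mul_left]
      exact tsum_congr fun v => by simp only [hP, mFourier_toTorus_add]
    rw [setIntegral_congr_fun (measurableSet_box 0) hpt]
    have hPc : Continuous P := hP ▸ ((mFourier (-m)).continuous.comp hq.continuous).mul hH
    have hint : ∀ v, IntegrableOn (fun x => P (x + ofInt v)) (box 0) := fun v =>
      ((hPc.comp (continuous_id.add continuous_const)).continuousOn.integrableOn_compact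
        (isCompact_univ_pi fun _ : Fin n => isCompact_Icc (a := (0 : ℝ)) (b := 1))).mono_set
        (fun x hx i _ => by
          have h := hx i
          simp only [Pi.zero_apply, Int.cast_zero, zero_add, mem_Ioc] at h
          exact ⟨h.1.le, h.2⟩)
    obtain ⟨B, hB, hb⟩ := hd 1
    have hbd : ∀ v, ∫ x in box 0, ‖P (x + ofInt v)‖ ≤
        volume.real (box (0 : Fin n → ℤ)) * B v := fun v => by
      rw [← smul_eq_mul, ← setIntegral_const]
      refine setIntegral_mono_on (hint v).norm (integrableOn_const volume_box_zero_lt_top.ne)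
        (measurableSet_box 0) fun x hx => ?_
      rw [hnorm]
      refine hb x v fun i => ?_
      have h := hx i
      simp only [Pi.zero_apply, Int.cast_zero, zero_add, mem_Ioc] at h
      rw [abs_le]
      constructor <;> linarith
    have hsum : Summable fun v => ∫ x in box 0, ‖P (x + ofInt v)‖ :=
      Summable.of_nonneg_of_le (fun v => integral_nonneg fun _ => norm_nonneg _) hbd
        (hB.mul_left _)
    rw [← integral_tsum_of_summable_integral_norm hint hsum]
    have htr : ∀ (f : (Fin n → ℝ) → ℂ) v,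
        ∫ x in box 0, f (x + ofInt v) = ∫ x in box v, f x := fun f v => by
      rw [← (measurePreserving_add_right volume (ofInt v)).setIntegral_preimage_emb
        (measurableEmbedding_addRight _) f (box v)]
      congr 2
      ext x
      exact (add_mem_box_iff x v).symm
    have htr' : ∀ v, ∫ x in box 0, ‖P (x + ofInt v)‖ = ∫ x in box v, ‖P x‖ := fun v => by
      rw [← (measurePreserving_add_right volume (ofInt v)).setIntegral_preimage_emb
        (measurableEmbedding_addRight _) (fun x => ‖P x‖) (box v)]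
      congr 2
      ext x
      exact (add_mem_box_iff x v).symm
    simp only [htr]
    have hon : ∀ v, IntegrableOn P (box v) := fun v =>
      (hPc.continuousOn.integrableOn_compact (isCompact_univ_pi fun i : Fin n =>
        isCompact_Icc (a := (v i : ℝ)) (b := (v i : ℝ) + 1))).mono_set
        (fun x hx i _ => ⟨(hx i).1.le, (hx i).2⟩)
    have hPi : IntegrableOn P (⋃ v : Fin n → ℤ, box v) :=
      integrableOn_iUnion_of_summable_integral_norm hon (hsum.congr htr')
    have hu := hasSum_integral_iUnion (fun v : Fin n → ℤ => measurableSet_box v)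
      pairwise_disjoint_box (f := P) hPi
    rw [iUnion_box, setIntegral_univ] at hu
    rw [hP] at hu ⊢
    exact hu.tsum_eq
  have hval := (hasSum_mFourier_series_apply_of_summable (f := G) (by rw [hcoef]; exact hcs)
    (toTorus 0)).tsum_eq
  rw [show G (toTorus (0 : Fin n → ℝ)) = F 0 from hper 0, hcoef, hF] at hval
  simp only [zero_add] at hval
  rw [← hval]
  refine tsum_congr fun m => ?_
  simp [mFourier_toTorus]

variable {K : Type*} [Field K] [NumberField K] [IsTotallyReal K]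

/-- Hecke's term. -/
def heckeTerm (s : ℝ) (z : ℂ) (c d : K) : ℂ :=
  ∏ w : InfinitePlace K, (((remb w c : ℂ) * z + (remb w d : ℂ)) ^ 2)⁻¹ *
    ((Complex.normSq ((remb w c : ℂ) * z + (remb w d : ℂ)) ^ (-s) : ℝ) : ℂ)

/-- The dual term. -/
def dualTerm (s : ℝ) (τ : ℍ) (c ν : K) : ℂ :=
  ∏ w : InfinitePlace K, ((((|remb w c| * τ.im) ^ 2) ^ (-s) / (|remb w c| * τ.im) : ℝ) : ℂ) *
    Complex.exp (2 * π * I * (remb w c * remb w ν * τ.re : ℝ)) *
      𝓕 (heckeKernel s) (remb w c * remb w ν * τ.im)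

/-- The factor at one place through the kernel. -/
theorem placeTerm_eq (s : ℝ) (τ : ℍ) {γ δ σ : ℝ} (hσ : σ = 1 ∨ σ = -1) (hγ : σ * γ = |γ|)
    (hγ0 : γ ≠ 0) :
    (((γ : ℂ) * τ + (δ : ℂ)) ^ 2)⁻¹ *
        ((Complex.normSq ((γ : ℂ) * τ + (δ : ℂ)) ^ (-s) : ℝ) : ℂ) =
      ((((|γ| * τ.im) ^ 2) ^ (-s) / (|γ| * τ.im) ^ 2 : ℝ) : ℂ) *
        heckeKernel s ((|γ| * τ.re + σ * δ) / (|γ| * τ.im)) := by
  obtain ⟨a, ha⟩ : ∃ a, a = |γ| * τ.im := ⟨_, rfl⟩
  have ha0 : 0 < a := ha ▸ mul_pos (abs_pos.2 hγ0) τ.im_pos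
  obtain ⟨b, hb⟩ : ∃ b, b = (|γ| * τ.re + σ * δ) / a := ⟨_, rfl⟩
  have hu : (γ : ℂ) * τ + (δ : ℂ) = (σ * a : ℝ) * ((b : ℂ) + I) := by
    have hσ2 : σ * σ = 1 := by rcases hσ with h | h <;> simp [h]
    have e1 : σ * a * b = γ * τ.re + δ := by
      rw [hb, mul_assoc, mul_div_cancel₀ _ ha0.ne', ← hγ]
      linear_combination (γ * τ.re + δ) * hσ2
    have e2 : σ * a = γ * τ.im := by
      rw [ha, ← hγ]
      linear_combination (γ * τ.im) * hσ2
    refine Complex.ext ?_ ?_
    · simp [e1.symm]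
    · simp [e2.symm]
  have hn : Complex.normSq ((γ : ℂ) * τ + (δ : ℂ)) = a ^ 2 * (b ^ 2 + 1) := by
    rw [hu, Complex.normSq_mul, Complex.normSq_ofReal, normSq_add_I]
    rcases hσ with h | h <;> rw [h] <;> ring
  rw [hn, hu, ← ha, ← hb, heckeKernel, Real.mul_rpow (sq_nonneg a) (by positivity), mul_pow]
  rcases hσ with h | h <;> rw [h] <;> push_cast <;> field_simp

theorem norm_placeTerm (s : ℝ) (τ : ℍ) {γ : ℝ} (δ : ℝ) (hγ0 : γ ≠ 0) :
    ‖(((γ : ℂ) * τ + (δ : ℂ)) ^ 2)⁻¹ *
        ((Complex.normSq ((γ : ℂ) * τ + (δ : ℂ)) ^ (-s) : ℝ) : ℂ)‖ =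
      ((|γ| * τ.im) ^ 2) ^ (-s) / (|γ| * τ.im) ^ 2 *
        (((γ * τ.re + δ) / (|γ| * τ.im)) ^ 2 + 1)⁻¹ *
        (((γ * τ.re + δ) / (|γ| * τ.im)) ^ 2 + 1) ^ (-s) := by
  obtain ⟨σ, hσ, hγ⟩ : ∃ σ : ℝ, (σ = 1 ∨ σ = -1) ∧ σ * γ = |γ| := by
    rcases le_total 0 γ with h | h
    · exact ⟨1, Or.inl rfl, by rw [one_mul, abs_of_nonneg h]⟩
    · exact ⟨-1, Or.inr rfl, by rw [neg_one_mul, abs_of_nonpos h]⟩
  have hsq : ((|γ| * τ.re + σ * δ) / (|γ| * τ.im)) ^ 2 =
      ((γ * τ.re + δ) / (|γ| * τ.im)) ^ 2 := by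
    rw [← hγ, div_pow, div_pow]
    congr 1
    rcases hσ with h | h <;> rw [h] <;> ring
  have := τ.im_pos
  rw [placeTerm_eq s τ hσ hγ hγ0, norm_mul, Complex.norm_real,
    Real.norm_of_nonneg (by positivity), norm_heckeKernel, hsq, mul_assoc]

/-- An affine change of variable in the Fourier integral. -/
theorem integral_kernel_affine (s : ℝ) {a σ : ℝ} (ha : 0 < a) (hσ : σ = 1 ∨ σ = -1) (b ξ : ℝ) :
    ∫ t : ℝ, heckeKernel s ((b + σ * t) / a) * Complex.exp (-(2 * π * I) * ξ * t) =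
      (a : ℂ) * Complex.exp (2 * π * I * (σ * ξ * b : ℝ)) * 𝓕 (heckeKernel s) (σ * a * ξ) := by
  obtain ⟨F, hF⟩ : ∃ F : ℝ → ℂ, ∀ u, F u =
      heckeKernel s u * Complex.exp (-(2 * π * I) * ξ * ((σ * (a * u - b) : ℝ) : ℂ)) :=
    ⟨_, fun _ => rfl⟩
  have hσ2 : σ * σ = 1 := by rcases hσ with h | h <;> simp [h]
  have e1 : ∀ t : ℝ, heckeKernel s ((b + σ * t) / a) * Complex.exp (-(2 * π * I) * ξ * t) =
      F ((σ * t + b) / a) := fun t => by
    rw [hF, mul_div_cancel₀ _ ha.ne', add_sub_cancel_right, ← mul_assoc, hσ2, one_mul,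
      add_comm (σ * t)]
  have e2 : ∫ t : ℝ, F ((σ * t + b) / a) = ∫ t : ℝ, F ((t + b) / a) := by
    rcases hσ with h | h
    · simp only [h, one_mul]
    · simp only [h, neg_one_mul]
      exact integral_neg_eq_self (fun t => F ((t + b) / a)) volume
  simp only [e1]
  rw [e2, integral_add_right_eq_self (fun t => F (t / a)) b, Measure.integral_comp_div F a,
    abs_of_pos ha, Complex.real_smul, mul_assoc, Real.fourier_real_eq_integral_exp_smul]
  congr 1
  rw [← integral_const_mul]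
  refine integral_congr_ae (Eventually.of_forall fun u => ?_)
  simp only [hF, smul_eq_mul]
  rw [← mul_assoc, ← Complex.exp_add, mul_comm]
  congr 2
  push_cast
  ring

variable (J : (FractionalIdeal (𝓞 K)⁰ K)ˣ)

/-- The covolume. -/
def covol : ℝ := normR J * √|((discr K : ℤ) : ℝ)|

theorem covol_pos : 0 < covol J :=
  mul_pos (normR_pos J) (Real.sqrt_pos.2 (abs_pos.2 (Int.cast_ne_zero.2 (discr_ne_zero K))))

/-- Matrices of the ideal and of its dual. -/
theorem exists_lattice_pair : ∃ (n : ℕ) (e : Fin n ≃ InfinitePlace K)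
    (N M : Matrix (Fin n) (Fin n) ℝ) (EI : (Fin n → ℤ) ≃ (J : Set K))
    (EJ : (Fin n → ℤ) ≃ (dualIdeal J : Set K)),
    Mᵀ * N = 1 ∧ |N.det| = covol J ∧
    (∀ m j, (N *ᵥ ofInt m) j = remb (e j) (EI m : K)) ∧
    (∀ v j, (M *ᵥ ofInt v) j = remb (e j) (EJ v : K)) := by
  obtain ⟨n, b, e, hI, hI', hdisc⟩ := exists_fin_data J
  obtain ⟨M, hM⟩ : ∃ M : Matrix (Fin n) (Fin n) ℝ,
      M = Matrix.of fun j i => remb (e j) (b.traceDual i) := ⟨_, rfl⟩
  obtain ⟨N, hNdef⟩ : ∃ N : Matrix (Fin n) (Fin n) ℝ, N = Matrix.of fun j i => remb (e j) (b i) :=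
    ⟨_, rfl⟩
  have htr : ∀ x y : K, ∑ j, remb (e j) x * remb (e j) y =
      ((Algebra.trace ℚ K (x * y) : ℚ) : ℝ) := fun x y => by
    rw [← sum_remb, ← e.sum_comp fun w => remb w (x * y)]
    simp only [map_mul]
  have hMN : Mᵀ * N = 1 := by
    ext i l
    rw [Matrix.mul_apply, Matrix.one_apply, hM, hNdef]
    simp only [Matrix.transpose_apply, Matrix.of_apply]
    rw [htr, b.trace_traceDual_mul i l]
    by_cases h : i = l <;> simp [h, eq_comm]
  have hdetN : |N.det| = covol J := by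
    have e1 : Nᵀ * N = (Algebra.traceMatrix ℚ b).map (algebraMap ℚ ℝ) := by
      ext i l
      rw [Matrix.mul_apply, hNdef]
      simp only [Matrix.transpose_apply, Matrix.of_apply, Matrix.map_apply,
        Algebra.traceMatrix_apply, Algebra.traceForm_apply, eq_ratCast]
      exact htr _ _
    have e2 := congrArg Matrix.det e1
    rw [det_mul, det_transpose, ← RingHom.mapMatrix_apply, ← RingHom.map_det, eq_ratCast,
      ← Algebra.discr_def] at e2
    rw [← Real.sqrt_mul_self_eq_abs N.det, e2, ← abs_of_nonneg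
      (e2 ▸ mul_self_nonneg N.det : (0 : ℝ) ≤ ((Algebra.discr ℚ b : ℚ) : ℝ)), hdisc, covol,
      Real.sqrt_mul (sq_nonneg _), Real.sqrt_sq (normR_pos J).le]
  refine ⟨n, e, N, M, latticeEquiv b hI, latticeEquiv b.traceDual hI', hMN, hdetN,
    fun m j => ?_, fun v j => ?_⟩
  · rw [coe_latticeEquiv, hNdef, map_sum]
    simp only [Matrix.mulVec, dotProduct, Matrix.of_apply, ofInt, zsmul_eq_mul, map_mul,
      map_intCast]
    exact Finset.sum_congr rfl fun i _ => mul_comm _ _
  · rw [coe_latticeEquiv, hM, map_sum]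
    simp only [Matrix.mulVec, dotProduct, Matrix.of_apply, ofInt, zsmul_eq_mul, map_mul,
      map_intCast]
    exact Finset.sum_congr rfl fun i _ => mul_comm _ _

/-- The absolute bound on the translates at scale `a`. -/
theorem exists_scaled_bound {δ : ℝ} (hδ : 0 < δ) :
    ∃ C : ℝ, 0 ≤ C ∧ ∀ a t : InfinitePlace K → ℝ, (∀ w, δ ≤ a w) →
      (Summable fun x : (J : Set K) => placeWeight fun w => (t w + remb w (x : K)) / a w) ∧
        ∑' x : (J : Set K), placeWeight (fun w => (t w + remb w (x : K)) / a w) ≤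
          C * ∏ w, a w := by
  obtain ⟨B, hB⟩ : ∃ B : Finset K, ∀ x, x ∈ B ↔ x ∈ (J : Set K) ∧
      ∀ w : InfinitePlace K, w x < 1 :=
    ⟨(finite_small J).toFinset, fun x => (finite_small J).mem_toFinset⟩
  obtain ⟨S, hS⟩ : ∃ S : ℝ, S = ∑' j : InfinitePlace K → ℤ, placeWeight fun w => (j w : ℝ) :=
    ⟨_, rfl⟩
  have hS0 : 0 ≤ S := hS ▸ tsum_nonneg fun j => placeWeight_nonneg _
  refine ⟨(3 * (1 + 2 / δ)) ^ Fintype.card (InfinitePlace K) * B.card * S, by positivity,
    fun a t ha => ?_⟩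
  have ha0 : ∀ w, 0 < a w := fun w => hδ.trans_le (ha w)
  have hbd : ∀ s : Finset (J : Set K),
      ∑ x ∈ s, placeWeight (fun w => (t w + remb w (x : K)) / a w) ≤
        (3 * (1 + 2 / δ)) ^ Fintype.card (InfinitePlace K) * B.card * S * ∏ w, a w := fun s => by
    obtain ⟨g, hg⟩ : ∃ g : ↥(J : Set K) → InfinitePlace K → ℤ,
        ∀ x w, g x w = ⌊(t w + remb w (x : K)) / a w⌋ := ⟨_, fun _ _ => rfl⟩
    obtain ⟨h, hh⟩ : ∃ h : ↥(J : Set K) → InfinitePlace K → ℤ,
        ∀ x w, h x w = ⌊t w + remb w (x : K)⌋ := ⟨_, fun _ _ => rfl⟩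
    have hsmall : ∀ (j : InfinitePlace K → ℤ) (u : Finset (J : Set K)),
        (u.filter fun x => h x = j).card ≤ B.card := fun j u => by
      rcases (u.filter fun x => h x = j).eq_empty_or_nonempty with e | ⟨x₀, h₀⟩
      · rw [e, Finset.card_empty]
        exact Nat.zero_le _
      refine Finset.card_le_card_of_injOn (fun x => (x : K) - (x₀ : K)) (fun x hx => ?_) ?_
      · rw [Finset.mem_coe, hB]
        refine ⟨((J : FractionalIdeal (𝓞 K)⁰ K) : Submodule (𝓞 K) K).sub_mem x.2 x₀.2,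
          fun w => ?_⟩
        rw [← abs_remb, map_sub]
        have e : h x w = h x₀ w := by
          rw [(Finset.mem_filter.1 hx).2, (Finset.mem_filter.1 h₀).2]
        rw [hh, hh] at e
        have := Int.abs_sub_lt_one_of_floor_eq_floor e
        rwa [add_sub_add_left_eq_sub] at this
      · intro x _ y _ e
        exact Subtype.ext (sub_left_injective e)
    have hfib : ∀ j, ((s.filter fun x => g x = j).card : ℝ) ≤
        B.card * ((1 + 2 / δ) ^ Fintype.card (InfinitePlace K) * ∏ w, a w) := fun j => by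
      obtain ⟨u, hu⟩ : ∃ u, u = s.filter fun x => g x = j := ⟨_, rfl⟩
      have h1 : u.card ≤ B.card * (Fintype.piFinset fun w =>
          Finset.Icc ⌊a w * j w⌋ ⌊a w * j w + a w⌋).card := by
        refine le_trans (Finset.card_le_mul_card_image u B.card fun k _ => hsmall k u) ?_
        refine Nat.mul_le_mul_left _ (Finset.card_le_card fun k hk => ?_)
        obtain ⟨x, hx, rfl⟩ := Finset.mem_image.1 hk
        rw [hu, Finset.mem_filter] at hx
        refine Fintype.mem_piFinset.2 fun w => ?_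
        have e := congrFun hx.2 w
        rw [hg, Int.floor_eq_iff, le_div_iff₀ (ha0 w), div_lt_iff₀ (ha0 w)] at e
        rw [hh, Finset.mem_Icc]
        refine ⟨Int.floor_mono ?_, Int.floor_mono ?_⟩
        · linarith [e.1]
        · linarith [e.2]
      rw [← hu]
      refine (Nat.cast_le.2 h1).trans ?_
      rw [Nat.cast_mul, ← Finset.card_univ, ← Finset.prod_const, ← Finset.prod_mul_distrib,
        Fintype.card_piFinset, Nat.cast_prod]
      refine mul_le_mul_of_nonneg_left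
        (Finset.prod_le_prod (fun w _ => Nat.cast_nonneg _) fun w _ => ?_) (Nat.cast_nonneg _)
      have hle : ⌊a w * j w⌋ ≤ ⌊a w * j w + a w⌋ := Int.floor_mono (by linarith [(ha0 w).le])
      rw [Int.card_Icc, show ((⌊a w * (j w : ℝ) + a w⌋ + 1 - ⌊a w * j w⌋).toNat : ℝ) =
        (((⌊a w * (j w : ℝ) + a w⌋ + 1 - ⌊a w * j w⌋ : ℤ)) : ℝ) by
          rw [← Int.cast_natCast, Int.toNat_of_nonneg (by omega)]]
      push_cast
      have h2 : a w + 2 ≤ (1 + 2 / δ) * a w := by
        rw [add_mul, one_mul, div_mul_eq_mul_div, add_le_add_iff_left, le_div_iff₀ hδ]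
        linarith [ha w]
      linarith [Int.floor_le (a w * j w + a w), Int.lt_floor_add_one (a w * j w)]
    have hterm : ∀ x : ↥(J : Set K), placeWeight (fun w => (t w + remb w (x : K)) / a w) ≤
        3 ^ Fintype.card (InfinitePlace K) * placeWeight (fun w => (g x w : ℝ)) := fun x => by
      rw [placeWeight, placeWeight, ← Finset.card_univ, ← Finset.prod_const,
        ← Finset.prod_mul_distrib]
      refine Finset.prod_le_prod (fun w _ => by positivity) fun w _ => ?_
      rw [hg]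
      generalize (t w + remb w (x : K)) / a w = v
      rw [← div_eq_mul_inv, le_div_iff₀ (by positivity), inv_mul_le_iff₀ (by positivity)]
      nlinarith [Int.floor_le v, Int.lt_floor_add_one v, sq_nonneg v,
        sq_nonneg (2 * v - (⌊v⌋ : ℝ))]
    calc ∑ x ∈ s, placeWeight (fun w => (t w + remb w (x : K)) / a w)
        ≤ ∑ x ∈ s, 3 ^ Fintype.card (InfinitePlace K) * placeWeight (fun w => (g x w : ℝ)) :=
          Finset.sum_le_sum fun x _ => hterm x
      _ = 3 ^ Fintype.card (InfinitePlace K) * ∑ j ∈ s.image g,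
            ((s.filter fun x => g x = j).card : ℝ) * placeWeight fun w => (j w : ℝ) := by
          rw [← Finset.mul_sum]
          congr 1
          rw [← Finset.sum_fiberwise_of_maps_to (t := s.image g)
            fun x hx => Finset.mem_image_of_mem g hx]
          refine Finset.sum_congr rfl fun j _ => ?_
          rw [Finset.sum_congr rfl fun x hx => show placeWeight (fun w => (g x w : ℝ)) =
            placeWeight fun w => (j w : ℝ) by rw [(Finset.mem_filter.1 hx).2],
            Finset.sum_const, nsmul_eq_mul]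
      _ ≤ 3 ^ Fintype.card (InfinitePlace K) * ∑ j ∈ s.image g,
            B.card * ((1 + 2 / δ) ^ Fintype.card (InfinitePlace K) * ∏ w, a w) *
              placeWeight fun w => (j w : ℝ) := by
          gcongr with j
          · exact placeWeight_nonneg _
          · exact hfib j
      _ ≤ 3 ^ Fintype.card (InfinitePlace K) *
            (B.card * ((1 + 2 / δ) ^ Fintype.card (InfinitePlace K) * ∏ w, a w) * S) := by
          rw [← Finset.mul_sum]
          have : 0 ≤ ∏ w, a w := Finset.prod_nonneg fun w _ => (ha0 w).le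
          gcongr
          rw [hS]
          exact summable_floor_weight.sum_le_tsum _ fun j _ => placeWeight_nonneg _
      _ = _ := by rw [mul_pow]; ring
  exact ⟨summable_of_sum_le (fun x => placeWeight_nonneg _) hbd,
    Real.tsum_le_of_sum_le (fun x => placeWeight_nonneg _) hbd⟩

/-- The absolute bound on the inner sum. -/
theorem heckeTerm_inner_bound {s : ℝ} (hs : 0 ≤ s) (τ : ℍ) {δ : ℝ} (hδ : 0 < δ) :
    ∃ C : ℝ, 0 ≤ C ∧ ∀ c : K, (∀ w, δ ≤ |remb w c|) →
      (Summable fun d : ↥(J : Set K) => ‖heckeTerm s τ c d‖) ∧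
        ∑' d : ↥(J : Set K), ‖heckeTerm s τ c d‖ ≤
          C * ∏ w, ((|remb w c| * τ.im) ^ 2) ^ (-s) / (|remb w c| * τ.im) := by
  obtain ⟨C, hC0, hC⟩ := exists_scaled_bound J (mul_pos hδ τ.im_pos)
  refine ⟨C, hC0, fun c hc => ?_⟩
  have hpos : ∀ w, 0 < |remb w c| * τ.im := fun w => mul_pos (hδ.trans_le (hc w)) τ.im_pos
  obtain ⟨A, hA⟩ : ∃ A : ℝ, A = ∏ w, ((|remb w c| * τ.im) ^ 2) ^ (-s) / (|remb w c| * τ.im) ^ 2 :=
    ⟨_, rfl⟩
  have hA0 : 0 ≤ A := hA ▸ Finset.prod_nonneg fun w _ => by positivity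
  obtain ⟨hsum, hle⟩ := hC (fun w => |remb w c| * τ.im) (fun w => remb w c * τ.re)
    fun w => mul_le_mul_of_nonneg_right (hc w) τ.im_pos.le
  have hb : ∀ d : ↥(J : Set K), ‖heckeTerm s τ c d‖ ≤
      A * placeWeight fun w => (remb w c * τ.re + remb w (d : K)) / (|remb w c| * τ.im) :=
    fun d => by
    rw [heckeTerm, norm_prod, hA, placeWeight, ← Finset.prod_mul_distrib]
    refine Finset.prod_le_prod (fun w _ => norm_nonneg _) fun w _ => ?_
    have hne : remb w c ≠ 0 := abs_pos.1 (hδ.trans_le (hc w))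
    rw [norm_placeTerm s τ _ hne, add_comm (1 : ℝ)]
    exact mul_le_of_le_one_right (by positivity) (rpow_neg_le_one hs _)
  have hs' : Summable fun d : ↥(J : Set K) => ‖heckeTerm s τ c d‖ :=
    Summable.of_nonneg_of_le (fun d => norm_nonneg _) hb (hsum.mul_left A)
  refine ⟨hs', (hs'.tsum_le_tsum hb (hsum.mul_left A)).trans ?_⟩
  rw [tsum_mul_left]
  refine (mul_le_mul_of_nonneg_left hle hA0).trans (le_of_eq ?_)
  rw [hA, mul_left_comm, ← Finset.prod_mul_distrib]
  congr 1
  refine Finset.prod_congr rfl fun w _ => ?_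
  have := (hpos w).ne'
  field_simp

/-- The size of a dual term. -/
theorem norm_dualTerm_le {C : ℝ} (hC : ∀ s : ℝ, 0 ≤ s → s ≤ 1 → ∀ ξ : ℝ,
    ‖𝓕 (heckeKernel s) ξ‖ ≤ C * ((1 + |ξ|) ^ 3)⁻¹) {s : ℝ} (hs : 0 ≤ s) (hs1 : s ≤ 1)
    (τ : ℍ) (c ν : K) :
    ‖dualTerm s τ c ν‖ ≤ ∏ w : InfinitePlace K,
      ((|remb w c| * τ.im) ^ 2) ^ (-s) / (|remb w c| * τ.im) *
        (C * ((1 + |remb w c| * |remb w ν| * τ.im) ^ 3)⁻¹) := by
  rw [dualTerm, norm_prod]
  refine Finset.prod_le_prod (fun w _ => norm_nonneg _) fun w _ => ?_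
  have hy := τ.im_pos
  rw [norm_mul, norm_mul, Complex.norm_real, Real.norm_of_nonneg (by positivity),
    show (2 * π * I * ((remb w c * remb w ν * τ.re : ℝ) : ℂ)) =
      ((2 * π * (remb w c * remb w ν * τ.re) : ℝ) : ℂ) * I by push_cast; ring,
    Complex.norm_exp_ofReal_mul_I, mul_one]
  refine mul_le_mul_of_nonneg_left ((hC s hs hs1 _).trans (le_of_eq ?_)) (by positivity)
  rw [abs_mul, abs_mul, abs_of_pos hy]

/-- **Poisson summation for one `c`.** -/
theorem inner_poisson {s : ℝ} (hs : 0 ≤ s) (hs1 : s ≤ 1) (τ : ℍ) {c : K} (hc : c ≠ 0) :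
    Summable (fun ν : ↥(dualIdeal J : Set K) => dualTerm s τ c ν) ∧
      ∑' d : ↥(J : Set K), heckeTerm s τ c d =
        ((covol J : ℝ) : ℂ)⁻¹ * ∑' ν : ↥(dualIdeal J : Set K), dualTerm s τ c ν := by
  obtain ⟨n, e, N, M, EI, EJ, hMN, hdetN, hNint, hMint⟩ := exists_lattice_pair J
  have hy := τ.im_pos
  have hdet : N.det ≠ 0 := fun h => by
    rw [h, abs_zero] at hdetN
    exact (covol_pos J).ne hdetN
  obtain ⟨σ, hσ, hσc⟩ : ∃ σ : Fin n → ℝ, (∀ j, σ j = 1 ∨ σ j = -1) ∧
      ∀ j, σ j * remb (e j) c = |remb (e j) c| := by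
    refine ⟨fun j => if 0 < remb (e j) c then 1 else -1, fun j => ?_, fun j => ?_⟩ <;> simp only
    · split_ifs <;> simp
    · split_ifs with h
      · rw [one_mul, abs_of_pos h]
      · rw [neg_one_mul, abs_of_nonpos (not_lt.1 h)]
  obtain ⟨a, ha⟩ : ∃ a : Fin n → ℝ, ∀ j, a j = |remb (e j) c| * τ.im := ⟨_, fun _ => rfl⟩
  have ha0 : ∀ j, 0 < a j := fun j => ha j ▸ mul_pos (abs_pos.2 (remb_ne_zero _ hc)) hy
  obtain ⟨g, hg⟩ : ∃ g : Fin n → ℝ → ℂ, ∀ j t, g j t = ((((a j) ^ 2) ^ (-s) / (a j) ^ 2 : ℝ) : ℂ) *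
      heckeKernel s ((|remb (e j) c| * τ.re + σ j * t) / a j) := ⟨_, fun _ _ => rfl⟩
  obtain ⟨H, hH⟩ : ∃ H : (Fin n → ℝ) → ℂ, ∀ x, H x = ∏ j, g j ((N *ᵥ x) j) := ⟨_, fun _ => rfl⟩
  have hgc : ∀ j, Continuous (g j) := fun j => by
    rw [funext (hg j)]
    exact continuous_const.mul ((continuous_heckeKernel s).comp (by fun_prop))
  have hHc : Continuous H := by
    rw [funext hH]
    refine continuous_finsetProd _ fun j _ => (hgc j).comp ?_
    unfold Matrix.mulVec dotProduct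
    fun_prop
  -- one coordinate
  have hgb : ∀ j, ∀ R : ℝ, ∃ Cj : ℝ, 0 ≤ Cj ∧ ∀ p q : ℝ, |p| ≤ R →
      ‖g j (p + q)‖ ≤ Cj * (1 + q ^ 2)⁻¹ := fun j R => by
    obtain ⟨A, hA⟩ : ∃ A : ℝ, A = ((a j) ^ 2) ^ (-s) / (a j) ^ 2 := ⟨_, rfl⟩
    obtain ⟨T, hT⟩ : ∃ T : ℝ, T = (|(|remb (e j) c| * τ.re)| + |R|) / a j := ⟨_, rfl⟩
    refine ⟨A * (2 * (1 + T ^ 2) * (1 + a j ^ 2)), hA ▸ by positivity, fun p q hp => ?_⟩
    rw [hg, norm_mul, Complex.norm_real, Real.norm_of_nonneg (by positivity), ← hA, mul_assoc A]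
    refine mul_le_mul_of_nonneg_left ((norm_heckeKernel_le hs _).trans ?_) (hA ▸ by positivity)
    obtain ⟨v, hv⟩ : ∃ v, v = (|remb (e j) c| * τ.re + σ j * (p + q)) / a j := ⟨_, rfl⟩
    rw [← hv, ← div_eq_mul_inv, le_div_iff₀ (by positivity), inv_mul_le_iff₀ (by positivity)]
    have hu : |σ j * q / a j - v| ≤ T := by
      rw [hv, hT, ← sub_div, abs_div, abs_of_pos (ha0 j)]
      refine div_le_div_of_nonneg_right ?_ (ha0 j).le
      have h2 : |σ j * p| ≤ |R| := by
        rw [abs_mul, show |σ j| = 1 by rcases hσ j with h | h <;> simp [h], one_mul]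
        exact hp.trans (le_abs_self R)
      calc |σ j * q - (|remb (e j) c| * τ.re + σ j * (p + q))|
          = |(|remb (e j) c| * τ.re) + σ j * p| := by rw [← abs_neg]; ring_nf
        _ ≤ _ := (abs_add_le _ _).trans (by linarith)
    have h3 : (q / a j) ^ 2 ≤ 2 * (1 + T ^ 2) * (1 + v ^ 2) - 1 := by
      have e1 : (q / a j) ^ 2 = (σ j * q / a j) ^ 2 := by
        rcases hσ j with h | h <;> rw [h] <;> ring
      rw [e1]
      have h4 : (σ j * q / a j - v) ^ 2 ≤ T ^ 2 := by
        rw [← sq_abs (σ j * q / a j - v)]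
        exact pow_le_pow_left₀ (abs_nonneg _) hu 2
      nlinarith [sq_nonneg (σ j * q / a j - v - v), mul_nonneg (sq_nonneg T) (sq_nonneg v)]
    have h5 : q ^ 2 = a j ^ 2 * (q / a j) ^ 2 := by
      have := (ha0 j).ne'
      field_simp
    nlinarith [mul_le_mul_of_nonneg_left h3 (sq_nonneg (a j)), sq_nonneg T, sq_nonneg v,
      mul_nonneg (sq_nonneg T) (sq_nonneg v)]
  obtain ⟨W, hW⟩ : ∃ W : (Fin n → ℤ) → ℝ, ∀ v, W v = placeWeight fun w => remb w (EI v : K) :=
    ⟨_, fun _ => rfl⟩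
  have hWs : Summable W := by
    obtain ⟨C, -, hC⟩ := exists_translate_bound J
    exact ((EI.summable_iff.2 (hC fun _ => 0).1).congr fun v => by simp [hW])
  have hHd : ∀ R : ℝ, ∃ B : (Fin n → ℤ) → ℝ, Summable B ∧
      ∀ x v, (∀ i, |x i| ≤ R) → ‖H (x + ofInt v)‖ ≤ B v := fun R => by
    choose Cj hCj0 hCj using fun j => hgb j (∑ i, |N j i| * R)
    refine ⟨fun v => (∏ j, Cj j) * W v, hWs.mul_left _, fun x v hx => ?_⟩
    show ‖H (x + ofInt v)‖ ≤ (∏ j, Cj j) * W v
    rw [hH, norm_prod, hW, placeWeight, ← e.prod_comp fun w => (1 + remb w (EI v : K) ^ 2)⁻¹,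
      ← Finset.prod_mul_distrib]
    refine Finset.prod_le_prod (fun j _ => norm_nonneg _) fun j _ => ?_
    rw [Matrix.mulVec_add, Pi.add_apply, ← hNint]
    refine hCj j _ _ ?_
    show |∑ i, N j i * x i| ≤ _
    refine (Finset.abs_sum_le_sum_abs _ _).trans (Finset.sum_le_sum fun i _ => ?_)
    rw [abs_mul]
    exact mul_le_mul_of_nonneg_left (hx i) (abs_nonneg _)
  have hcoef : ∀ m : Fin n → ℤ, ∫ x : Fin n → ℝ, mFourier (-m) (toTorus x) * H x =
      ((covol J : ℝ) : ℂ)⁻¹ * dualTerm s τ c (EJ m : K) := fun m => by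
    obtain ⟨G, hG⟩ : ∃ G : (Fin n → ℝ) → ℂ, ∀ u, G u =
        ∏ j, g j (u j) * Complex.exp (-(2 * π * I) * ((M *ᵥ ofInt m) j : ℝ) * u j) :=
      ⟨_, fun _ => rfl⟩
    have hGx : ∀ x, mFourier (-m) (toTorus x) * H x = G (N *ᵥ x) := fun x => by
      have hlin : ∑ i, (M *ᵥ ofInt m) i * (N *ᵥ x) i = ∑ i, (m i : ℝ) * x i := by
        show (M *ᵥ ofInt m) ⬝ᵥ (N *ᵥ x) = ofInt m ⬝ᵥ x
        rw [← Matrix.vecMul_transpose, ← Matrix.dotProduct_mulVec, Matrix.mulVec_mulVec, hMN,
          Matrix.one_mulVec]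
      rw [hG, hH, Finset.prod_mul_distrib, ← Complex.exp_sum, mul_comm, mFourier_toTorus]
      congr 2
      have hlin' := congrArg (fun r : ℝ => (r : ℂ)) hlin
      push_cast at hlin'
      simp only [Pi.neg_apply, Int.cast_neg, neg_mul, mul_assoc, Finset.sum_neg_distrib,
        ← Finset.mul_sum, hlin']
      ring
    have hmeas : Measurable fun x : Fin n → ℝ => N *ᵥ x := by
      unfold Matrix.mulVec dotProduct; fun_prop
    have hmap := Real.map_matrix_volume_pi_eq_smul_volume_pi hdet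
    have hcont : Continuous G := by
      rw [funext hG]
      exact continuous_finsetProd _ fun j _ => ((hgc j).comp (by fun_prop)).mul (by fun_prop)
    simp only [hGx]
    rw [← integral_map hmeas.aemeasurable hcont.aestronglyMeasurable,
      show (fun x => N *ᵥ x) = ⇑(Matrix.toLin' N) from rfl, hmap, integral_smul_measure,
      ENNReal.toReal_ofReal (abs_nonneg _), abs_inv, hdetN, funext hG,
      MeasureTheory.integral_fintype_prod_volume_eq_prod
        (f := fun j r => g j r * Complex.exp (-(2 * π * I) * ((M *ᵥ ofInt m) j : ℝ) * r)),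
      Complex.real_smul, Complex.ofReal_inv, dualTerm,
      ← e.prod_comp fun w => ((((|remb w c| * τ.im) ^ 2) ^ (-s) / (|remb w c| * τ.im) : ℝ) : ℂ) *
        Complex.exp (2 * π * I * (remb w c * remb w (EJ m : K) * τ.re : ℝ)) *
          𝓕 (heckeKernel s) (remb w c * remb w (EJ m : K) * τ.im)]
    congr 1
    refine Finset.prod_congr rfl fun j _ => ?_
    simp only [hg, mul_assoc ((((a j) ^ 2) ^ (-s) / (a j) ^ 2 : ℝ) : ℂ)]
    rw [integral_const_mul, integral_kernel_affine s (ha0 j) (hσ j), hMint, ← ha j]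
    have hσ2 : σ j * σ j = 1 := by rcases hσ j with h | h <;> simp [h]
    have e1 : σ j * remb (e j) (EJ m : K) * (|remb (e j) c| * τ.re) =
        remb (e j) c * remb (e j) (EJ m : K) * τ.re := by
      rw [← hσc j]
      linear_combination (remb (e j) (EJ m : K) * remb (e j) c * τ.re) * hσ2
    have e2 : σ j * a j * remb (e j) (EJ m : K) =
        remb (e j) c * remb (e j) (EJ m : K) * τ.im := by
      rw [ha, ← hσc j]
      linear_combination (remb (e j) c * remb (e j) (EJ m : K) * τ.im) * hσ2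
    rw [e1, e2]
    have := (ha0 j).ne'
    push_cast
    field_simp
  have hds : Summable fun ν : ↥(dualIdeal J : Set K) => dualTerm s τ c ν := by
    obtain ⟨C, hC0, hC⟩ := exists_fourier_heckeKernel_le
    obtain ⟨D, -, hD⟩ := exists_translate_bound (dualIdeal J)
    refine Summable.of_norm_bounded (((hD fun _ => 0).1.mul_left (∏ w : InfinitePlace K,
      ((|remb w c| * τ.im) ^ 2) ^ (-s) / (|remb w c| * τ.im) *
        (C * (1 + ((|remb w c| * τ.im) ^ 2)⁻¹))))) fun ν => ?_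
    refine (norm_dualTerm_le hC hs hs1 τ c ν).trans ?_
    rw [placeWeight, ← Finset.prod_mul_distrib]
    refine Finset.prod_le_prod (fun w _ => by positivity) fun w _ => ?_
    rw [zero_add, mul_assoc _ (C * _) _, mul_assoc C]
    refine mul_le_mul_of_nonneg_left (mul_le_mul_of_nonneg_left ?_ hC0) (by positivity)
    obtain ⟨b, hb⟩ : ∃ b, b = |remb w c| * τ.im := ⟨_, rfl⟩
    have hb0 : 0 < b := hb ▸ mul_pos (abs_pos.2 (remb_ne_zero _ hc)) hy
    rw [← hb, mul_right_comm, ← hb, ← sq_abs (remb w (ν : K)), ← div_eq_mul_inv,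
      le_div_iff₀ (by positivity), inv_mul_le_iff₀ (by positivity)]
    have hx := abs_nonneg (remb w (ν : K))
    have h2 : 1 + (b * |remb w (ν : K)|) ^ 2 ≤ (1 + b * |remb w (ν : K)|) ^ 3 := by
      nlinarith [mul_nonneg hb0.le hx, pow_nonneg (mul_nonneg hb0.le hx) 3,
        sq_nonneg (b * |remb w (ν : K)|)]
    have h3 : (b * |remb w (ν : K)|) ^ 2 * (b ^ 2)⁻¹ = |remb w (ν : K)| ^ 2 := by field_simp
    nlinarith [mul_le_mul_of_nonneg_right h2 (show (0 : ℝ) ≤ 1 + (b ^ 2)⁻¹ by positivity),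
      inv_nonneg.2 (sq_nonneg b)]
  refine ⟨hds, ?_⟩
  have hp := poisson_dominated hHc hHd hcoef ((EJ.summable_iff.2 hds).mul_left _)
  rw [← tsum_mul_left, ← EI.tsum_eq, ← EJ.tsum_eq, ← hp]
  refine tsum_congr fun v => ?_
  rw [hH, heckeTerm, ← e.prod_comp fun w => (((remb w c : ℂ) * τ + (remb w (EI v : K) : ℂ)) ^ 2)⁻¹ *
    ((Complex.normSq ((remb w c : ℂ) * τ + (remb w (EI v : K) : ℂ)) ^ (-s) : ℝ) : ℂ)]
  refine Finset.prod_congr rfl fun j _ => ?_
  rw [hg, hNint, placeTerm_eq s τ (hσ j) (hσc j) (remb_ne_zero _ hc), ← ha j]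

end FA.SiegelKlingen

end
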