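import Fermat.Agent.Tau.LevelOneRing

/-!
# Rational higher coefficients give a rational constant term

A `ℚ`-linear functional vanishing on `ℚ`, applied to the coordinates of a level one form in the
monomials `E₄ᵃ E₆ᵇ`, gives a form of the same weight with constant expansion, so zero.
-/

set_option autoImplicit false

noncomputable section

namespace FA.SiegelKlingen

open UpperHalfPlane hiding I
open ModularForm FA.Eis FA.Tau
open scoped MatrixGroups

/-- The integral series of `E₄ᵃ E₆ᵇ`. -/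
def monoInt (p : ℕ × ℕ) : PowerSeries ℤ := eFourInt ^ p.1 * eSixInt ^ p.2

theorem hasQ_monomial (w : ℤ) (i : {p : ℕ × ℕ // 4 * (p.1 : ℤ) + 6 * p.2 = w}) :
    HasQ 1 (LevelOneRing.monomials w i) ((monoInt i.1).map (Int.castRingHom ℂ)) := by
  rw [monoInt, map_mul, map_pow, map_pow]
  exact (hasQ_eFour.pow one_pos i.1.1).mul one_pos (hasQ_eSix.pow one_pos i.1.2)

theorem monomial_smul (w : ℤ) (i : {p : ℕ × ℕ // 4 * (p.1 : ℤ) + 6 * p.2 = w}) (g : SL(2, ℤ))
    (z : ℍ) : LevelOneRing.monomials w i (g • z) =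
      denom g z ^ w * LevelOneRing.monomials w i z := by
  obtain ⟨⟨a, b⟩, rfl⟩ := i
  simp only [LevelOneRing.monomials, Pi.mul_apply, Pi.pow_apply]
  rw [FA.ModField.E4_smul, LevelOneRing.E6_smul, mul_pow, mul_pow]
  conv_rhs => rw [zpow_add₀ (denom_ne_zero _ _), zpow_mul, zpow_mul, zpow_natCast,
    zpow_natCast]
  ring

/-- A level one form with rational higher coefficients has a rational constant term. -/
theorem rational_constant {w : ℤ} (hw : w ≠ 0) (f : ModularForm 𝒮ℒ w)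
    (h : ∀ m : ℕ, m ≠ 0 → ∃ r : ℚ, (qExpansion 1 f).coeff m = r) :
    ∃ r : ℚ, (qExpansion 1 f).coeff 0 = r := by
  classical
  obtain ⟨x, hx⟩ := Finsupp.mem_span_range_iff_exists_finsupp.1
    (LevelOneRing.mem_span (w.toNat + 1) w (by omega) f)
  rw [Finsupp.sum] at hx
  obtain ⟨A, hA⟩ : ∃ A, A = qExpansion 1 f := ⟨_, rfl⟩
  rw [← hA] at h ⊢
  by_contra hne
  push Not at hne
  obtain ⟨φ, hφ, hφ1⟩ := Submodule.exists_dual_map_eq_bot_of_notMem
    (p := Submodule.span ℚ ({1} : Set ℂ)) (x := A.coeff 0) (fun hm => by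
      obtain ⟨r, hr⟩ := Submodule.mem_span_singleton.1 hm
      exact hne r (by rw [← hr, Rat.smul_def, mul_one])) inferInstance
  have hone : ∀ r : ℚ, φ (r : ℂ) = 0 := fun r => by
    have hm : φ (1 : ℂ) ∈ Submodule.map φ (Submodule.span ℚ ({1} : Set ℂ)) :=
      Submodule.mem_map_of_mem (Submodule.mem_span_singleton_self _)
    rw [hφ1, Submodule.mem_bot] at hm
    rw [show (r : ℂ) = r • (1 : ℂ) by rw [Rat.smul_def, mul_one], map_smul, hm, smul_zero]
  have hAq : A = ∑ i ∈ x.support, x i • (monoInt i.1).map (Int.castRingHom ℂ) := by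
    rw [hA]
    refine (hasQ_form f).unique one_pos ?_
    rw [← hx]
    exact HasQ.sum _ fun i _ => (hasQ_monomial w i).smul (x i)
  obtain ⟨G, hG⟩ : ∃ G : ℍ → ℂ,
      G = ∑ i ∈ x.support, ((φ (x i) : ℚ) : ℂ) • LevelOneRing.monomials w i :=
    ⟨_, rfl⟩
  have hGq : HasQ 1 G
      (∑ i ∈ x.support, ((φ (x i) : ℚ) : ℂ) • (monoInt i.1).map (Int.castRingHom ℂ)) := by
    rw [hG]
    exact HasQ.sum _ fun i _ => (hasQ_monomial w i).smul _
  have hc : ∀ m,
      (∑ i ∈ x.support, ((φ (x i) : ℚ) : ℂ) • (monoInt i.1).map (Int.castRingHom ℂ)).coeff m =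
      ((φ (A.coeff m) : ℚ) : ℂ) := fun m => by
    rw [hAq]
    simp only [map_sum, PowerSeries.coeff_smul, PowerSeries.coeff_map, eq_intCast, smul_eq_mul,
      Rat.cast_sum]
    refine Finset.sum_congr rfl fun i _ => ?_
    rw [show x i * ((PowerSeries.coeff m (monoInt i.1) : ℤ) : ℂ) =
      (PowerSeries.coeff m (monoInt i.1) : ℤ) • x i by rw [zsmul_eq_mul, mul_comm], map_zsmul,
      zsmul_eq_mul]
    push_cast
    ring
  have hconst : ∀ z, G z = ((φ (A.coeff 0) : ℚ) : ℂ) := fun z => by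
    refine (hGq z).unique ?_
    convert hasSum_ite_eq 0 (((φ (A.coeff 0) : ℚ) : ℂ)) using 2 with m
    rcases eq_or_ne m 0 with rfl | hm
    · simp [hc]
    · obtain ⟨r, hr⟩ := h m hm
      simp [hc, hr, hone, hm]
  obtain ⟨z, hz⟩ : ∃ z : ℍ, z = ⟨⟨0, 2⟩, two_pos⟩ := ⟨_, rfl⟩
  have hS : G (ModularGroup.S • z) = denom ModularGroup.S z ^ w * G z := by
    simp only [hG, Finset.sum_apply, Pi.smul_apply, smul_eq_mul, monomial_smul, Finset.mul_sum]
    exact Finset.sum_congr rfl fun i _ => by ring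
  rw [hconst, hconst, ModularGroup.denom_S] at hS
  have h1 : (z : ℂ) ^ w = 1 := mul_right_cancel₀ (Rat.cast_ne_zero.2 hφ)
    (hS.symm.trans (one_mul _).symm)
  have h2 := congrArg norm h1
  rw [norm_zpow, norm_one, hz] at h2
  rw [show ‖((⟨⟨0, 2⟩, two_pos⟩ : ℍ) : ℂ)‖ = 2 by
    simp [Complex.norm_def, Complex.normSq]] at h2
  exact hw ((zpow_eq_one_iff_right₀ two_pos.le (by norm_num)).1 h2)

end FA.SiegelKlingen

end
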