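import Fermat.Agent.SiegelKlingen.Eisenstein
import Fermat.Agent.SiegelKlingen.RationalConstant

/-!
# The expansion of the diagonal Eisenstein series

The higher coefficients are rational multiples of one factor; by the rationality of constant terms
so is the sum of `|N d| ^ (-k)` over representatives.
-/

set_option autoImplicit false
set_option linter.unusedSectionVars false
set_option linter.style.haveILetI false

noncomputable section

open NumberField InfinitePlace Module Filter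
open UpperHalfPlane hiding I
open Complex (I)
open scoped Real nonZeroDivisors Classical MatrixGroups ModularForm

namespace FA.SiegelKlingen

open FA.HeckeFE FA.Eis

variable {K : Type*} [Field K] [NumberField K] [IsTotallyReal K]
variable (J : (FractionalIdeal (𝓞 K)⁰ K)ˣ)

/-- The constant term. -/
def constSum (k : ℕ) : ℝ := ∑' d : Rep J, (((|Algebra.norm ℚ d.1| : ℚ) : ℝ) ^ k)⁻¹

theorem summable_constSum {k : ℕ} (hk : 2 ≤ k) :
    Summable fun d : Rep J => (((|Algebra.norm ℚ d.1| : ℚ) : ℝ) ^ k)⁻¹ := by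
  refine ((summable_ratio J (x := (k : ℝ)) (by exact_mod_cast hk)).mul_left
    ((normR J ^ k)⁻¹)).congr fun d => ?_
  rw [← normR_mul_ratio J, mul_pow, mul_inv,
    Real.rpow_neg (zero_le_one.trans (one_le_ratio_rep J d)), Real.rpow_natCast]

theorem eisTerm_zero {k : ℕ} (hk : Even k) (z : ℂ) (d : K) :
    eisTerm k z 0 d = (((((|Algebra.norm ℚ d| : ℚ) : ℝ) ^ k)⁻¹ : ℝ) : ℂ) := by
  rw [eisTerm, ← prod_abs_remb, ← Finset.prod_pow]
  push_cast
  congr 1
  refine Finset.prod_congr rfl fun w _ => ?_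
  rw [map_zero, Complex.ofReal_zero, zero_mul, zero_add, ← Complex.ofReal_pow,
    ← Complex.ofReal_pow, hk.pow_abs]

/-- The inner sums decrease like the square of the norm. -/
theorem exists_inner_bound {k : ℕ} (hk : 4 ≤ k) {z : ℂ} (hz : 0 < z.im) :
    ∃ D : ℝ, 0 ≤ D ∧ ∀ c : Rep J,
      (Summable fun d : ↥(J : Set K) => ‖eisTerm k z c.1 d‖) ∧
        ∑' d : ↥(J : Set K), ‖eisTerm k z c.1 d‖ ≤ D * ratio J c.1 ^ (-((k - 2 : ℕ) : ℝ)) := by
  obtain ⟨δ, hδ, hδc⟩ := exists_rep_lower_bound J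
  obtain ⟨C, hC0, hC⟩ := exists_translate_bound J
  obtain ⟨μ, hμ⟩ : ∃ μ, μ = min 1 ((δ * z.im) ^ 2) := ⟨_, rfl⟩
  have hμ0 : 0 < μ := hμ ▸ lt_min one_pos (by positivity)
  refine ⟨C * (((normR J * z.im ^ finrank ℚ K) ^ (k - 2) * μ ^ finrank ℚ K)⁻¹), by
    have := normR_pos J
    positivity, fun c => ?_⟩
  have hb := fun d => norm_eisTerm_le (by omega : 2 ≤ k) hz hδ (hδc c) d
  obtain ⟨hs, hle⟩ := hC fun w => remb w c.1 * z.re
  have hsum : Summable fun d : ↥(J : Set K) => ‖eisTerm k z c.1 d‖ :=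
    Summable.of_nonneg_of_le (fun d => norm_nonneg _) (fun d => hb d) (hs.mul_left _)
  refine ⟨hsum, (Summable.tsum_le_tsum (f := fun d : ↥(J : Set K) => ‖eisTerm k z c.1 d‖)
    (fun d => hb d) hsum (hs.mul_left _)).trans ?_⟩
  have hr := zero_lt_one.trans_le (one_le_ratio_rep J c)
  rw [tsum_mul_left, ← hμ]
  refine (mul_le_mul_of_nonneg_left hle (by positivity)).trans (le_of_eq ?_)
  rw [← normR_mul_ratio J, Real.rpow_neg hr.le, Real.rpow_natCast, mul_pow (normR J * _),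
    mul_pow, mul_pow, mul_inv, mul_inv, mul_inv, mul_inv, mul_inv]
  ring

theorem summable_ratio_sub {k : ℕ} (hk : 4 ≤ k) :
    Summable fun c : Rep J => ratio J c.1 ^ (-((k - 2 : ℕ) : ℝ)) :=
  summable_ratio J (by
    have : (2 : ℝ) ≤ ((k - 2 : ℕ) : ℝ) := by exact_mod_cast (by omega : 2 ≤ k - 2)
    linarith)

theorem summable_eisTerm_prod {k : ℕ} (hk : 4 ≤ k) {z : ℂ} (hz : 0 < z.im) :
    Summable fun p : Rep J × ↥(J : Set K) => eisTerm k z p.1.1 p.2 := by
  obtain ⟨D, -, hD⟩ := exists_inner_bound J hk hz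
  refine Summable.of_norm ((summable_prod_of_nonneg fun p => norm_nonneg _).2
    ⟨fun c => (hD c).1, ?_⟩)
  exact Summable.of_nonneg_of_le (fun c => tsum_nonneg fun d => norm_nonneg _)
    (fun c => (hD c).2) ((summable_ratio_sub J hk).mul_left D)

/-- Totally positive products of a representative and a dual element. -/
abbrev PosPairs : Type _ :=
  {p : Rep J × ↥(dualIdeal J : Set K) //
    ∀ w : InfinitePlace K, 0 < remb w p.1.1 * remb w (p.2 : K)}

/-- The trace of the product. -/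
def level (y : PosPairs J) : ℕ := (Algebra.trace ℚ K (y.1.1.1 * (y.1.2 : K))).num.toNat

theorem level_spec (y : PosPairs J) :
    (level J y : ℚ) = Algebra.trace ℚ K (y.1.1.1 * (y.1.2 : K)) ∧ level J y ≠ 0 := by
  have hpos : 0 < Algebra.trace ℚ K (y.1.1.1 * (y.1.2 : K)) := by
    refine Rat.cast_pos.1 (?_ : (0 : ℝ) < _)
    rw [← sum_remb]
    exact Finset.sum_pos (fun w _ => by rw [map_mul]; exact y.2 w) Finset.univ_nonempty
  obtain ⟨z, hz⟩ : ∃ z : ℤ, (z : ℚ) = Algebra.trace ℚ K (y.1.1.1 * (y.1.2 : K)) := by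
    have h := (FractionalIdeal.mem_dual (A := ℤ) (K := ℚ) J.ne_zero).1 y.1.2.2 y.1.1.1 y.1.1.2.1
    obtain ⟨z, hz⟩ := h
    exact ⟨z, by rw [← eq_intCast (algebraMap ℤ ℚ), hz, Algebra.traceForm_apply, mul_comm]⟩
  rw [← hz, Int.cast_pos] at hpos
  rw [level, ← hz, Rat.num_intCast]
  refine ⟨?_, by omega⟩
  rw [← Int.cast_natCast, Int.toNat_of_nonneg hpos.le]

/-- The term of the expansion. -/
def posTerm (k : ℕ) (z : ℂ) (y : PosPairs J) : ℂ :=
  (((|Algebra.norm ℚ (y.1.2 : K)| : ℚ) ^ (k - 1) : ℚ) : ℂ) *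
    Complex.exp (2 * π * I * z * ((Algebra.trace ℚ K (y.1.1.1 * (y.1.2 : K)) : ℚ) : ℂ))

theorem norm_expansion_term (k : ℕ) (c ν : K) (z : ℂ) :
    ‖(coef k c ν : ℂ) * Complex.exp (2 * π * I * z * ((Algebra.trace ℚ K (c * ν) : ℚ) : ℂ))‖ =
      (coef k c ν : ℝ) *
        Real.exp (-(2 * π * z.im * ((Algebra.trace ℚ K (c * ν) : ℚ) : ℝ))) := by
  have hnn : (0 : ℚ) ≤ coef k c ν := by
    rw [coef]
    split_ifs <;> positivity
  rw [norm_mul, Complex.norm_exp, ← Complex.ofReal_ratCast, Complex.norm_real,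
    Real.norm_of_nonneg (Rat.cast_nonneg.2 hnn), ← Complex.ofReal_ratCast]
  congr 2
  simp

theorem factor_ne_zero (k : ℕ) : factor J k ≠ 0 := by
  rw [factor]
  refine div_ne_zero (pow_ne_zero _ (by simp [Real.pi_ne_zero])) (mul_ne_zero
    (pow_ne_zero _ (Nat.cast_ne_zero.2 (Nat.factorial_ne_zero _))) ?_)
  exact Complex.ofReal_ne_zero.2 (mul_ne_zero (normR_pos J).ne'
    (Real.sqrt_ne_zero'.2 (abs_pos.2 (Int.cast_ne_zero.2 (NumberField.discr_ne_zero K)))))

/-- The terms of the expansion are summable. -/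
def SummableTerms (k : ℕ) : Prop :=
  ∀ τ : ℍ, Summable fun p : Rep J × ↥(dualIdeal J : Set K) =>
    (coef k p.1.1 (p.2 : K) : ℂ) *
      Complex.exp (2 * π * I * τ * ((Algebra.trace ℚ K (p.1.1 * (p.2 : K)) : ℚ) : ℂ))

theorem summableTerms_of_four {k : ℕ} (hk : Even k) (hk4 : 4 ≤ k) : SummableTerms J k := fun τ => by
  obtain ⟨σ, hσ⟩ : ∃ σ : ℍ, σ = ⟨τ.im * I, by simpa using τ.im_pos⟩ := ⟨_, rfl⟩
  obtain ⟨D, -, hD⟩ := exists_inner_bound J hk4 σ.im_pos
  have hin := fun (z : ℍ) (c : Rep J) =>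
    (lipschitz_ideal J hk (by omega : 2 ≤ k) (Rep.ne_zero J c) z).2
  refine Summable.of_norm ((summable_prod_of_nonneg fun p => norm_nonneg _).2
    ⟨fun c => summable_norm_iff.2 (hin τ c).summable, ?_⟩)
  refine Summable.of_nonneg_of_le (fun c => tsum_nonneg fun d => norm_nonneg _) (fun c => ?_)
    ((summable_ratio_sub J hk4).mul_left (‖(factor J k)⁻¹‖ * D))
  obtain ⟨f, hf⟩ : ∃ f : ↥(dualIdeal J : Set K) → ℝ, ∀ ν, f ν =
      ‖(coef k c.1 (ν : K) : ℂ) *
        Complex.exp (2 * π * I * τ * ((Algebra.trace ℚ K (c.1 * (ν : K)) : ℚ) : ℂ))‖ :=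
    ⟨_, fun _ => rfl⟩
  have e : ((∑' ν, f ν : ℝ) : ℂ) =
      (factor J k)⁻¹ * ∑' d : ↥(J : Set K), eisTerm k σ c.1 d := by
    rw [Complex.ofReal_tsum, ← (hin σ c).tsum_eq]
    refine tsum_congr fun ν => ?_
    rw [hf, norm_expansion_term, hσ]
    push_cast
    rw [UpperHalfPlane.coe_im]
    congr 2
    linear_combination
      (-2 * (π : ℂ) * τ.im * ((Algebra.trace ℚ K (c.1 * (ν : K)) : ℚ) : ℂ)) * Complex.I_sq
  have e2 := congrArg norm e
  rw [Complex.norm_real, Real.norm_of_nonneg (tsum_nonneg fun d => hf d ▸ norm_nonneg _), norm_mul]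
    at e2
  rw [← tsum_congr hf, e2, mul_assoc]
  exact mul_le_mul_of_nonneg_left ((norm_tsum_le_tsum_norm (hD c).1).trans (hD c).2)
    (norm_nonneg _)

/-- **The expansion of the sum over pairs with non-zero first entry.** -/
theorem hasSum_posTerm {k : ℕ} (hk : Even k) (hk2 : 2 ≤ k) (hS : SummableTerms J k) (τ : ℍ) :
    HasSum (posTerm J k (τ : ℂ)) ((factor J k)⁻¹ *
      ∑' c : Rep J, ∑' d : ↥(J : Set K), eisTerm k (τ : ℂ) c.1 d) := by
  obtain ⟨F, hF⟩ : ∃ F : ℂ → Rep J × ↥(dualIdeal J : Set K) → ℂ, ∀ z p, F z p =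
      (coef k p.1.1 (p.2 : K) : ℂ) *
        Complex.exp (2 * π * I * z * ((Algebra.trace ℚ K (p.1.1 * (p.2 : K)) : ℚ) : ℂ)) :=
    ⟨_, fun _ _ => rfl⟩
  have hin : ∀ c : Rep J, HasSum (fun ν => F τ (c, ν))
      ((factor J k)⁻¹ * ∑' d : ↥(J : Set K), eisTerm k τ c.1 d) := fun c => by
    simp only [hF]
    exact (lipschitz_ideal J hk hk2 (Rep.ne_zero J c) τ).2
  have hsum : Summable (F τ) := (hS τ).congr fun p => (hF _ _).symm
  have htot : HasSum (F τ) ((factor J k)⁻¹ *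
      ∑' c : Rep J, ∑' d : ↥(J : Set K), eisTerm k (τ : ℂ) c.1 d) := by
    have h := hsum.hasSum
    rw [hsum.tsum_prod, tsum_congr fun c => (hin c).tsum_eq, tsum_mul_left] at h
    exact h
  have hsub : HasSum (F τ ∘ (Subtype.val : PosPairs J → _)) ((factor J k)⁻¹ *
      ∑' c : Rep J, ∑' d : ↥(J : Set K), eisTerm k (τ : ℂ) c.1 d) :=
    (hasSum_subtype_iff_of_support_subset
      (s := {p | ∀ w : InfinitePlace K, 0 < remb w p.1.1 * remb w (p.2 : K)}) fun p hp => by
        by_contra hcon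
        refine hp ?_
        rw [Set.mem_ofPred_eq] at hcon
        rw [hF, coef, if_neg hcon, Rat.cast_zero, zero_mul]).2 htot
  refine hsub.congr_fun fun y => ?_
  rw [Function.comp_apply, posTerm, hF, coef, if_pos y.2]

theorem finite_level {k : ℕ} (hk : Even k) (hk2 : 2 ≤ k) (hS : SummableTerms J k) (m : ℕ) :
    {y : PosPairs J | level J y = m}.Finite := by
  obtain ⟨b, hb⟩ : ∃ b : ℝ,
      b = normR (dualIdeal J) ^ (k - 1) * Real.exp (-(2 * π * (m : ℝ))) := ⟨_, rfl⟩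
  have hb0 : 0 < b := by
    rw [hb]
    have := normR_pos (dualIdeal J)
    positivity
  have h := (summable_norm_iff.2 (hasSum_posTerm J hk hk2 hS UpperHalfPlane.I).summable)
    |>.tendsto_cofinite_zero.eventually (gt_mem_nhds hb0)
  rw [Filter.eventually_cofinite] at h
  refine h.subset fun y (hy : level J y = m) => ?_
  show ¬ _ < _
  have hne : (y.1.2 : K) ≠ 0 := fun h0 => by
    simpa [h0] using y.2 (Classical.arbitrary _)
  rw [not_lt, hb, posTerm, norm_mul, Complex.norm_exp, ← (level_spec J y).1, hy,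
    ← Complex.ofReal_ratCast, Complex.norm_real,
    Real.norm_of_nonneg (Rat.cast_nonneg.2 (pow_nonneg (abs_nonneg _) _)), Rat.cast_pow]
  refine mul_le_mul ?_ (le_of_eq ?_) (Real.exp_pos _).le (pow_nonneg (Rat.cast_nonneg.2
    (abs_nonneg _)) _)
  · exact pow_le_pow_left₀ (normR_pos _).le (normR_le_norm _ y.1.2.2 hne) _
  · congr 1
    simp

/-- The coefficient of `q ^ m`, up to the factor. -/
def traceSum (k m : ℕ) : ℚ :=
  ∑' y : {y : PosPairs J // level J y = m}, |Algebra.norm ℚ ((y.1 : PosPairs J).1.2 : K)| ^ (k - 1)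

theorem hasSum_traceSum {k : ℕ} (hk : Even k) (hk2 : 2 ≤ k) (hS : SummableTerms J k) (τ : ℍ) :
    HasSum (fun m => (traceSum J k m : ℂ) * Function.Periodic.qParam (1 : ℝ) (τ : ℂ) ^ m)
      ((factor J k)⁻¹ * ∑' c : Rep J, ∑' d : ↥(J : Set K), eisTerm k (τ : ℂ) c.1 d) := by
  have h := hasSum_posTerm J hk hk2 hS τ
  rw [← (Equiv.sigmaFiberEquiv (level J)).hasSum_iff] at h
  refine h.sigma fun m => ?_
  have : Fintype {y : PosPairs J // level J y = m} := (finite_level J hk hk2 hS m).fintype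
  convert hasSum_fintype _ using 1
  rw [traceSum, tsum_fintype, Rat.cast_sum, Finset.sum_mul]
  refine Finset.sum_congr rfl fun y _ => ?_
  simp only [Function.comp_apply, Equiv.sigmaFiberEquiv_apply, posTerm]
  rw [← (level_spec J y.1).1, y.2, Function.Periodic.qParam, ← Complex.exp_nat_mul,
    Complex.ofReal_one, div_one]
  push_cast
  congr 2
  ring

theorem traceSum_zero (k : ℕ) : traceSum J k 0 = 0 := by
  have : IsEmpty {y : PosPairs J // level J y = 0} := ⟨fun y => (level_spec J y.1).2 y.2⟩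
  exact tsum_empty

/-- The constant term plus the iterated sum. -/
def eisFun (k : ℕ) (τ : ℍ) : ℂ :=
  (constSum J k : ℂ) + ∑' c : Rep J, ∑' d : ↥(J : Set K), eisTerm k (τ : ℂ) c.1 d

/-- The transformation law. -/
def IsInvariant (k : ℕ) : Prop :=
  ∀ (g : SL(2, ℤ)) (τ : ℍ), eisFun J k (g • τ) = denom g τ ^ (k * finrank ℚ K) * eisFun J k τ

theorem eisFun_eq_eisSum {k : ℕ} (hk : Even k) (hk4 : 4 ≤ k) (τ : ℍ) :
    eisFun J k τ = eisSum J k (τ : ℂ) := by
  have hS := summable_eisTerm_prod J hk4 τ.im_pos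
  have hz : Summable fun d : Rep J => eisTerm k (τ : ℂ) 0 d.1 := by
    simp only [eisTerm_zero hk]
    exact Complex.summable_ofReal.2 (summable_constSum J (by omega))
  rw [eisSum, Summable.tsum_sum (f := fun x : Orb J =>
    eisTerm k (τ : ℂ) (repPair J x).1 (repPair J x).2) hS hz, eisFun, add_comm, constSum,
    Complex.ofReal_tsum, ← hS.tsum_prod]
  congr 1
  exact tsum_congr fun d => (eisTerm_zero hk _ _).symm

theorem isInvariant_of_four {k : ℕ} (hk : Even k) (hk4 : 4 ≤ k) : IsInvariant J k := fun g τ => by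
  rw [eisFun_eq_eisSum J hk hk4, eisFun_eq_eisSum J hk hk4, eisSum_smul J hk g τ]

/-- **The q-series.** -/
theorem hasQ_eisFun {k : ℕ} (hk : Even k) (hk2 : 2 ≤ k) (hS : SummableTerms J k) :
    HasQ 1 (eisFun J k) (PowerSeries.mk fun m =>
      if m = 0 then (constSum J k : ℂ) else factor J k * (traceSum J k m : ℂ)) := fun τ => by
  have e : eisFun J k τ = (constSum J k : ℂ) + factor J k * ((factor J k)⁻¹ *
      ∑' c : Rep J, ∑' d : ↥(J : Set K), eisTerm k (τ : ℂ) c.1 d) := by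
    rw [eisFun, ← mul_assoc, mul_inv_cancel₀ (factor_ne_zero J k), one_mul]
  rw [e]
  refine ((hasSum_ite_eq 0 (constSum J k : ℂ)).add
    ((hasSum_traceSum J hk hk2 hS τ).mul_left (factor J k))).congr_fun fun m => ?_
  rw [PowerSeries.coeff_mk]
  rcases eq_or_ne m 0 with rfl | hm
  · simp [traceSum_zero]
  · simp [hm]
    ring

/-- **The Eisenstein series as a level one form.** -/
def eisForm {k : ℕ} (hk : Even k) (hk2 : 2 ≤ k) (hS : SummableTerms J k) (hI : IsInvariant J k) :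
    ModularForm 𝒮ℒ ((k * finrank ℚ K : ℕ) : ℤ) where
  toFun := eisFun J k
  slash_action_eq' := by
    rintro _ ⟨g, rfl⟩
    refine (FA.ModField.slash_eq_iff_smul g).2 fun z => ?_
    rw [hI g z, zpow_natCast]
  holo' := (hasQ_eisFun J hk hk2 hS).mdiff one_pos
  bdd_at_cusps' hc := by
    rw [Subgroup.IsArithmetic.isCusp_iff_isCusp_SL2Z] at hc
    refine (OnePoint.isBoundedAt_iff_forall_SL2Z hc).2 fun g _ => ?_
    have h : eisFun J k ∣[((k * finrank ℚ K : ℕ) : ℤ)] g = eisFun J k :=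
      (FA.ModField.slash_eq_iff_smul g).2 fun z => by rw [hI g z, zpow_natCast]
    rw [h]
    exact (hasQ_eisFun J hk hk2 hS).bdd one_pos

theorem coeff_eisForm {k : ℕ} (hk : Even k) (hk2 : 2 ≤ k) (hS : SummableTerms J k)
    (hI : IsInvariant J k) (m : ℕ) :
    (qExpansion 1 (eisForm J hk hk2 hS hI)).coeff m =
      if m = 0 then (constSum J k : ℂ) else factor J k * (traceSum J k m : ℂ) := by
  have h : HasQ 1 ⇑(eisForm J hk hk2 hS hI) _ := hasQ_eisFun J hk hk2 hS
  rw [h.qExpansion_eq one_pos, PowerSeries.coeff_mk]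

/-- **The constant term is a rational multiple of the factor.** -/
theorem constSum_mem {k : ℕ} (hk : Even k) (hk2 : 2 ≤ k) (hS : SummableTerms J k)
    (hI : IsInvariant J k) : ∃ r : ℚ, (constSum J k : ℂ) = (r : ℂ) * factor J k := by
  have hw : ((k * finrank ℚ K : ℕ) : ℤ) ≠ 0 := by
    exact_mod_cast (Nat.mul_ne_zero (by omega) finrank_pos.ne')
  have hq : qExpansion 1 ⇑((factor J k)⁻¹ • eisForm J hk hk2 hS hI) =
      (factor J k)⁻¹ • qExpansion 1 ⇑(eisForm J hk hk2 hS hI) := by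
    rw [FunLike.coe_smul]
    exact ((FA.Tau.hasQ_form (eisForm J hk hk2 hS hI)).smul _).qExpansion_eq one_pos
  obtain ⟨r, hr⟩ := rational_constant hw ((factor J k)⁻¹ • eisForm J hk hk2 hS hI) fun m hm => by
    refine ⟨traceSum J k m, ?_⟩
    rw [hq, PowerSeries.coeff_smul, coeff_eisForm, if_neg hm, smul_eq_mul, ← mul_assoc,
      inv_mul_cancel₀ (factor_ne_zero J k), one_mul]
  refine ⟨r, ?_⟩
  rw [hq, PowerSeries.coeff_smul, coeff_eisForm, if_pos rfl, smul_eq_mul] at hr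
  rw [← hr, mul_comm, ← mul_assoc, mul_inv_cancel₀ (factor_ne_zero J k), one_mul]

end FA.SiegelKlingen

end
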