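import Fermat.Agent.HeckeFE.Extension
import Fermat.Agent.SiegelKlingen.Form
import Fermat.Agent.SiegelKlingen.HeckePoisson

/-!
# Hecke's trick

With the factor `|c z + d|^(-2 s)` the series of weight two converges absolutely and transforms;
as `s → 0` it tends to the iterated sum, provided the degree is at least two.
-/

set_option autoImplicit false
set_option linter.unusedSectionVars false
set_option linter.style.haveILetI false

noncomputable section

open NumberField InfinitePlace Module Filter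
open UpperHalfPlane hiding I
open Complex (I)
open scoped Real nonZeroDivisors Classical Topology MatrixGroups FourierTransform

namespace FA.SiegelKlingen

open FA.HeckeFE

variable {K : Type*} [Field K] [NumberField K] [IsTotallyReal K]
variable (J : (FractionalIdeal (𝓞 K)⁰ K)ˣ)

/-- The term at `c = 0`. -/
theorem heckeTerm_zero (s : ℝ) (z : ℂ) (d : K) :
    heckeTerm s z 0 d = ((((((|Algebra.norm ℚ d| : ℚ) : ℝ)) ^ 2) ^ (-s) *
      ((((|Algebra.norm ℚ d| : ℚ) : ℝ)) ^ 2)⁻¹ : ℝ) : ℂ) := by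
  rw [heckeTerm, ← prod_abs_remb, ← Finset.prod_pow,
    ← Real.finsetProd_rpow _ _ (fun w _ => sq_nonneg _), ← Finset.prod_inv_distrib,
    ← Finset.prod_mul_distrib, Complex.ofReal_prod]
  refine Finset.prod_congr rfl fun w _ => ?_
  rw [map_zero, Complex.ofReal_zero, zero_mul, zero_add, Complex.normSq_ofReal, sq_abs, sq]
  push_cast
  ring_nf

/-- Units do not change a term. -/
theorem heckeTerm_unit (s : ℝ) (z : ℂ) (m : RestPlace K → ℤ) (c d : K) :
    heckeTerm s z (unitVal m * c) (unitVal m * d) = heckeTerm s z c d := by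
  have h : ∀ w : InfinitePlace K,
      (((remb w (unitVal m * c) : ℂ) * z + (remb w (unitVal m * d) : ℂ)) ^ 2)⁻¹ *
        ((Complex.normSq ((remb w (unitVal m * c) : ℂ) * z + (remb w (unitVal m * d) : ℂ)) ^ (-s) :
          ℝ) : ℂ) =
      (((remb w (unitVal m) ^ 2) ^ (-1 - s) : ℝ) : ℂ) *
        ((((remb w c : ℂ) * z + (remb w d : ℂ)) ^ 2)⁻¹ *
          ((Complex.normSq ((remb w c : ℂ) * z + (remb w d : ℂ)) ^ (-s) : ℝ) : ℂ)) := fun w => by
    obtain ⟨u, hu⟩ : ∃ u, u = remb w (unitVal (K := K) m) := ⟨_, rfl⟩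
    have hu0 : 0 < u ^ 2 := by
      have : u ≠ 0 := hu ▸ remb_ne_zero _ (unitVal_ne_zero m)
      positivity
    rw [map_mul, map_mul, ← hu, Complex.ofReal_mul, Complex.ofReal_mul,
      show (u : ℂ) * (remb w c : ℂ) * z + (u : ℂ) * (remb w d : ℂ) =
        (u : ℂ) * ((remb w c : ℂ) * z + (remb w d : ℂ)) by ring,
      Complex.normSq_mul, Complex.normSq_ofReal, Real.mul_rpow (mul_self_nonneg _)
        (Complex.normSq_nonneg _), mul_pow, mul_inv, sub_eq_add_neg, Real.rpow_add hu0,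
      Real.rpow_neg_one, ← sq]
    push_cast
    ring
  rw [heckeTerm, heckeTerm, Finset.prod_congr rfl fun w _ => h w, Finset.prod_mul_distrib,
    ← Complex.ofReal_prod, Real.finsetProd_rpow _ _ (fun w _ => sq_nonneg _)]
  have e : ∏ w : InfinitePlace K, remb w (unitVal (K := K) m) ^ 2 = 1 := by
    rw [Finset.prod_congr rfl fun w _ => (sq_abs (remb w (unitVal (K := K) m))).symm,
      Finset.prod_pow, prod_abs_remb,
      show |Algebra.norm ℚ (unitVal (K := K) m)| = 1 from unit_norm (unitPow m)]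
    simp
  rw [e, Real.one_rpow, Complex.ofReal_one, one_mul]

/-- Hecke's series. -/
def heckeSum (s : ℝ) (τ : ℍ) : ℂ :=
  ∑' x : Orb J, heckeTerm s τ (repPair J x).1 (repPair J x).2

/-- **The transformation law.** -/
theorem heckeSum_smul (s : ℝ) (g : SL(2, ℤ)) (τ : ℍ) :
    heckeSum J s (g • τ) = denom g τ ^ (2 * finrank ℚ K) *
      ((((Complex.normSq (denom g τ)) ^ s) ^ finrank ℚ K : ℝ) : ℂ) * heckeSum J s τ := by
  obtain ⟨den, hden⟩ : ∃ den : ℂ, den = (g 1 0 : ℂ) * τ + (g 1 1 : ℂ) := ⟨_, rfl⟩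
  have hd : denom g τ = den := by rw [ModularGroup.denom_apply, hden]
  have hden0 : den ≠ 0 := hd ▸ denom_ne_zero _ _
  rw [hd, heckeSum, heckeSum, ← (orbPerm J g).tsum_eq fun x : Orb J =>
    heckeTerm s (τ : ℂ) (repPair J x).1 (repPair J x).2, ← tsum_mul_left]
  refine tsum_congr fun x => ?_
  obtain ⟨⟨y, m⟩, hy⟩ : ∃ q, q = (pairEquiv J).symm (pairAct J g (pairEquiv J (x, 0))) := ⟨_, rfl⟩
  have hy' : pairEquiv J (y, m) = pairAct J g (pairEquiv J (x, 0)) := by
    rw [hy, Equiv.apply_symm_apply]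
  rw [show orbPerm J g x = y from (congrArg Prod.fst hy).symm,
    ← heckeTerm_unit s (τ : ℂ) m (repPair J y).1 (repPair J y).2]
  have e1 := congrArg (fun p : Pairs J => p.1.1) hy'
  have e2 := congrArg (fun p : Pairs J => p.1.2) hy'
  simp only [pairAct, pairEquiv_eq, unitVal_zero, one_mul] at e1 e2
  rw [e1, e2, heckeTerm, heckeTerm, ← card_places, pow_mul, ← Finset.card_univ,
    Complex.ofReal_pow, ← Finset.prod_const, ← Finset.prod_const, ← Finset.prod_mul_distrib,
    ← Finset.prod_mul_distrib]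
  refine Finset.prod_congr rfl fun w _ => ?_
  obtain ⟨L, hL⟩ : ∃ L : ℂ, L = (remb w ((repPair J x).1 * (g 0 0 : K) +
      (repPair J x).2 * (g 1 0 : K)) : ℂ) * τ + (remb w ((repPair J x).1 * (g 0 1 : K) +
      (repPair J x).2 * (g 1 1 : K)) : ℂ) := ⟨_, rfl⟩
  have hL' : (remb w (repPair J x).1 : ℂ) * ((g • τ : ℍ) : ℂ) + (remb w (repPair J x).2 : ℂ) =
      L / den := by
    rw [eq_div_iff hden0, hL, UpperHalfPlane.specialLinearGroup_apply]
    simp only [algebraMap_int_eq, eq_intCast, Complex.ofReal_intCast, map_add, map_mul, map_intCast,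
      Complex.ofReal_add, Complex.ofReal_mul]
    rw [← hden]
    field_simp
    rw [hden]
    ring
  rw [← hL, hL', div_pow, inv_div, div_eq_mul_inv, Complex.normSq_div,
    Real.div_rpow (Complex.normSq_nonneg _) (Complex.normSq_nonneg _),
    Real.rpow_neg (Complex.normSq_nonneg den), div_inv_eq_mul]
  push_cast
  ring

/-- The real factor of a dual term. -/
theorem prod_scale (s : ℝ) (τ : ℍ) (c : Rep J) :
    ∏ w : InfinitePlace K, ((|remb w c.1| * τ.im) ^ 2) ^ (-s) / (|remb w c.1| * τ.im) =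
      ((normR J * τ.im ^ finrank ℚ K) ^ 2) ^ (-s) / (normR J * τ.im ^ finrank ℚ K) *
        ratio J c.1 ^ (-(1 + 2 * s)) := by
  have hy := τ.im_pos
  have hM : 0 < normR J * τ.im ^ finrank ℚ K := mul_pos (normR_pos J) (pow_pos hy _)
  have hr := zero_lt_one.trans_le (one_le_ratio_rep J c)
  have e : ∏ w : InfinitePlace K, |remb w c.1| * τ.im =
      normR J * τ.im ^ finrank ℚ K * ratio J c.1 := by
    rw [Finset.prod_mul_distrib, prod_abs_remb, Finset.prod_const, Finset.card_univ, card_places,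
      ← normR_mul_ratio J]
    ring
  rw [Finset.prod_div_distrib, Real.finsetProd_rpow _ _ (fun w _ => sq_nonneg _),
    Finset.prod_pow, e, mul_pow _ (ratio J c.1), Real.mul_rpow (sq_nonneg _) (sq_nonneg _),
    ← Real.rpow_natCast (ratio J c.1) 2, ← Real.rpow_mul hr.le, neg_add, Real.rpow_add hr,
    Real.rpow_neg_one, Nat.cast_ofNat, mul_neg]
  field_simp

/-- `∑ ratio^(-x)`. -/
def ratioSum (x : ℝ) : ℝ := ∑' a : Rep J, ratio J a.1 ^ (-x)

theorem ratioSum_nonneg (x : ℝ) : 0 ≤ ratioSum J x :=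
  tsum_nonneg fun a => Real.rpow_nonneg (zero_le_one.trans (one_le_ratio_rep J a)) _

theorem coneSum_ofReal (x : ℝ) : coneSum J (x : ℂ) = (ratioSum J x : ℂ) := by
  rw [coneSum, ratioSum, Complex.ofReal_tsum]
  refine tsum_congr fun a => ?_
  rw [Complex.ofReal_cpow (zero_le_one.trans (one_le_ratio_rep J a)), Complex.ofReal_neg]

/-- The partial sum is at most the whole zeta function. -/
theorem ratioSum_le {x : ℝ} (hx : 1 < x) :
    ratioSum J x ≤ Units.torsionOrder K * ‖dedekindZeta K (x : ℂ)‖ := by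
  have hs : 1 < (x : ℂ).re := by simpa using hx
  obtain ⟨f, hf⟩ : ∃ f : ClassGroup (𝓞 K) → ℝ, ∀ C, f C = ratioSum (repIdeal K C) x :=
    ⟨_, fun _ => rfl⟩
  have hC : ∀ C, (f C : ℂ) = Units.torsionOrder K * FA.PrimeIdeal.classZ C (x : ℂ) := fun C => by
    rw [hf, ← coneSum_ofReal, coneSum_eq _ hs, mk_repIdeal]
  have h1 : (ratioSum J x : ℂ) = (f (ClassGroup.mk K J)⁻¹ : ℂ) := by
    rw [hC, ← coneSum_ofReal, coneSum_eq _ hs]
  have h2 : ((∑ C, f C : ℝ) : ℂ) = Units.torsionOrder K * dedekindZeta K (x : ℂ) := by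
    rw [Complex.ofReal_sum, FA.PrimeIdeal.dedekindZeta_eq_sum_classZ hs, Finset.mul_sum]
    exact Finset.sum_congr rfl fun C _ => hC C
  have h0 : ∀ C, 0 ≤ f C := fun C => hf C ▸ ratioSum_nonneg _ x
  rw [Complex.ofReal_injective h1]
  refine (Finset.single_le_sum (fun C _ => h0 C) (Finset.mem_univ _)).trans (le_of_eq ?_)
  rw [← Real.norm_of_nonneg (Finset.sum_nonneg fun C _ => h0 C), ← Complex.norm_real, h2, norm_mul,
    Complex.norm_natCast]

/-- In degree two or more the term at `ν = 0` disappears. -/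
theorem tendsto_pow_ratioSum (hn : 2 ≤ finrank ℚ K) :
    Tendsto (fun s : ℝ => s ^ finrank ℚ K * ratioSum J (1 + 2 * s)) (𝓝[>] 0) (𝓝 0) := by
  have hmap : Tendsto (fun s : ℝ => 1 + 2 * s) (𝓝[>] 0) (𝓝[>] 1) := by
    refine tendsto_nhdsWithin_iff.2 ⟨(Continuous.tendsto' (by fun_prop) 0 1 (by simp)).mono_left
      nhdsWithin_le_nhds, ?_⟩
    filter_upwards [self_mem_nhdsWithin] with s (hs : 0 < s)
    exact (by linarith : (1 : ℝ) < 1 + 2 * s)
  have hres := ((tendsto_sub_one_mul_dedekindZeta_nhdsGT K).comp hmap).norm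
  have h0 : Tendsto (fun s : ℝ => s ^ (finrank ℚ K - 1)) (𝓝[>] 0) (𝓝 0) :=
    ((continuous_pow (finrank ℚ K - 1)).tendsto' (0 : ℝ) 0 (zero_pow (by omega))).mono_left
      nhdsWithin_le_nhds
  have hb := h0.mul (hres.const_mul ((Units.torsionOrder K : ℝ) / 2))
  rw [zero_mul] at hb
  refine squeeze_zero' ?_ ?_ hb
  · filter_upwards [self_mem_nhdsWithin] with s (hs : 0 < s)
    exact mul_nonneg (pow_nonneg hs.le _) (ratioSum_nonneg J _)
  · filter_upwards [self_mem_nhdsWithin] with s (hs : 0 < s)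
    rw [Function.comp_apply, norm_mul]
    have h1 := ratioSum_le J (x := 1 + 2 * s) (by linarith)
    have h2 : ‖((1 + 2 * s : ℝ) : ℂ) - 1‖ = 2 * s := by
      rw [← Complex.ofReal_one, ← Complex.ofReal_sub, Complex.norm_real, Real.norm_eq_abs,
        abs_of_pos (by linarith)]
      ring
    rw [h2]
    refine (mul_le_mul_of_nonneg_left h1 (pow_nonneg hs.le _)).trans (le_of_eq ?_)
    obtain ⟨j, hj⟩ : ∃ j, finrank ℚ K = j + 1 := ⟨finrank ℚ K - 1, by omega⟩
    rw [hj, Nat.add_sub_cancel, pow_succ]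
    ring

theorem summable_hecke_prod {s : ℝ} (hs : 0 < s) (τ : ℍ) :
    Summable fun p : Rep J × ↥(J : Set K) => heckeTerm s τ p.1.1 p.2 := by
  obtain ⟨δ, hδ, hδc⟩ := exists_rep_lower_bound J
  obtain ⟨C, -, hC⟩ := heckeTerm_inner_bound J hs.le τ hδ
  refine Summable.of_norm ((summable_prod_of_nonneg fun p => norm_nonneg _).2
    ⟨fun c => (hC c.1 (hδc c)).1, ?_⟩)
  refine Summable.of_nonneg_of_le (fun c => tsum_nonneg fun d => norm_nonneg _) (fun c => ?_)
    ((summable_ratio J (x := 1 + 2 * s) (by linarith)).mul_left (C *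
      (((normR J * τ.im ^ finrank ℚ K) ^ 2) ^ (-s) / (normR J * τ.im ^ finrank ℚ K))))
  refine ((hC c.1 (hδc c)).2).trans (le_of_eq ?_)
  rw [prod_scale, mul_assoc]

/-- The sum over `c = 0` is dominated. -/
theorem norm_heckeTerm_zero_le {s : ℝ} (hs : 0 ≤ s) (hs1 : s ≤ 1) (z : ℂ) (d : Rep J) :
    ‖heckeTerm s z 0 d.1‖ ≤
      max 1 (normR J ^ 2)⁻¹ * (((|Algebra.norm ℚ d.1| : ℚ) : ℝ) ^ 2)⁻¹ := by
  rw [heckeTerm_zero, Complex.norm_real, Real.norm_of_nonneg (by positivity)]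
  refine mul_le_mul_of_nonneg_right ?_ (by positivity)
  obtain ⟨N, hN⟩ : ∃ N : ℝ, N = ((|Algebra.norm ℚ d.1| : ℚ) : ℝ) := ⟨_, rfl⟩
  have hNle : normR J ≤ N := hN ▸ normR_le_norm J d.2.1 (Rep.ne_zero J d)
  have hN0 : 0 < N := (normR_pos J).trans_le hNle
  rw [← hN]
  rcases le_total 1 (N ^ 2) with h | h
  · exact (Real.rpow_le_one_of_one_le_of_nonpos h (by linarith)).trans (le_max_left _ _)
  · refine (Real.rpow_le_rpow_of_exponent_ge (by positivity) h (by linarith : (-1 : ℝ) ≤ -s)).trans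
      (le_trans ?_ (le_max_right _ _))
    rw [Real.rpow_neg_one]
    exact inv_anti₀ (pow_pos (normR_pos J) 2) (pow_le_pow_left₀ (normR_pos J).le hNle 2)

theorem summable_hecke_zero {s : ℝ} (hs : 0 ≤ s) (hs1 : s ≤ 1) (z : ℂ) :
    Summable fun d : Rep J => heckeTerm s z 0 d.1 :=
  Summable.of_norm_bounded ((summable_constSum J le_rfl).mul_left _)
    fun d => norm_heckeTerm_zero_le J hs hs1 z d

theorem tendsto_hecke_zero (z : ℂ) :
    Tendsto (fun s : ℝ => ∑' d : Rep J, heckeTerm s z 0 d.1) (𝓝[>] 0)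
      (𝓝 (constSum J 2 : ℂ)) := by
  rw [constSum, Complex.ofReal_tsum]
  refine tendsto_tsum_of_dominated_convergence
    ((summable_constSum J le_rfl).mul_left (max 1 (normR J ^ 2)⁻¹)) (fun d => ?_) ?_
  · simp only [heckeTerm_zero]
    refine (Complex.continuous_ofReal.tendsto _).comp ?_
    have hN : 0 < ((|Algebra.norm ℚ d.1| : ℚ) : ℝ) ^ 2 :=
      pow_pos ((normR_pos J).trans_le (normR_le_norm J d.2.1 (Rep.ne_zero J d))) 2
    have h := (((Real.continuousAt_const_rpow hN.ne' (b := -(0 : ℝ))).tendsto.comp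
      (tendsto_neg (0 : ℝ))).mono_left (nhdsWithin_le_nhds (s := Set.Ioi 0))).mul_const
        (((|Algebra.norm ℚ d.1| : ℚ) : ℝ) ^ 2)⁻¹
    rw [neg_zero, Real.rpow_zero, one_mul] at h
    exact h
  · filter_upwards [self_mem_nhdsWithin, Ioc_mem_nhdsGT zero_lt_one] with s (hs : 0 < s) hs1
    exact fun d => norm_heckeTerm_zero_le J hs.le hs1.2 z d

/-- **The uniform bound on the dual terms.** -/
theorem exists_dual_bound (τ : ℍ) : ∃ D : ℝ, 0 ≤ D ∧ ∀ s : ℝ, 0 ≤ s → s ≤ 1 →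
    ∀ (c : Rep J) (ν : ↥(dualIdeal J : Set K)), (ν : K) ≠ 0 → ‖dualTerm s τ c.1 ν‖ ≤
      D * (ratio J c.1 ^ (-(2 : ℝ)) * placeWeight fun w => remb w (ν : K)) := by
  obtain ⟨δ, hδ, hδc⟩ := exists_rep_lower_bound J
  obtain ⟨C, hC0, hC⟩ := exists_fourier_heckeKernel_le
  have hy := τ.im_pos
  obtain ⟨η, hη⟩ : ∃ η, η = δ * τ.im := ⟨_, rfl⟩
  have hη0 : 0 < η := hη ▸ mul_pos hδ hy
  obtain ⟨μ, hμ⟩ : ∃ μ, μ = min 1 (η ^ 2) := ⟨_, rfl⟩
  have hμ0 : 0 < μ := hμ ▸ lt_min one_pos (by positivity)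
  obtain ⟨A, hA⟩ : ∃ A : ℝ, A = max 1 (η ^ 2)⁻¹ * C / (τ.im ^ 2 * μ) := ⟨_, rfl⟩
  have hA0 : 0 ≤ A := hA ▸ div_nonneg (mul_nonneg (zero_le_one.trans (le_max_left _ _)) hC0)
    (by positivity)
  refine ⟨A ^ Fintype.card (InfinitePlace K) *
    ((normR J ^ 2)⁻¹ * (normR (dualIdeal J))⁻¹), by
      have := normR_pos J
      have := normR_pos (dualIdeal J)
      positivity, fun s hs hs1 c ν hν => ?_⟩
  have hb : ∀ w : InfinitePlace K,
      ((|remb w c.1| * τ.im) ^ 2) ^ (-s) / (|remb w c.1| * τ.im) *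
        (C * ((1 + |remb w c.1| * |remb w (ν : K)| * τ.im) ^ 3)⁻¹) ≤
      A * ((|remb w c.1| ^ 2)⁻¹ * |remb w (ν : K)|⁻¹ * (1 + remb w (ν : K) ^ 2)⁻¹) := fun w => by
    obtain ⟨γ, hγ⟩ : ∃ γ, γ = |remb w c.1| := ⟨_, rfl⟩
    obtain ⟨x, hx⟩ : ∃ x, x = |remb w (ν : K)| := ⟨_, rfl⟩
    have hγ0 : 0 < γ := hγ ▸ hδ.trans_le (hδc c w)
    have hx0 : 0 < x := hx ▸ abs_pos.2 (remb_ne_zero _ hν)
    have hγη : η ≤ γ * τ.im := hη ▸ mul_le_mul_of_nonneg_right (hγ ▸ hδc c w) hy.le
    have hP : ((γ * τ.im) ^ 2) ^ (-s) ≤ max 1 (η ^ 2)⁻¹ := by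
      rcases le_total 1 ((γ * τ.im) ^ 2) with h | h
      · exact (Real.rpow_le_one_of_one_le_of_nonpos h (by linarith)).trans (le_max_left _ _)
      · refine (Real.rpow_le_rpow_of_exponent_ge (by positivity) h
          (by linarith : (-1 : ℝ) ≤ -s)).trans (le_trans ?_ (le_max_right _ _))
        rw [Real.rpow_neg_one]
        exact inv_anti₀ (pow_pos hη0 2) (pow_le_pow_left₀ hη0.le hγη 2)
    rw [← hγ, ← sq_abs (remb w (ν : K)), ← hx]
    have hkey : γ * τ.im * x * μ * (1 + x ^ 2) ≤ (1 + γ * x * τ.im) ^ 3 := by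
      obtain ⟨t, ht⟩ : ∃ t, t = γ * x * τ.im := ⟨_, rfl⟩
      have ht0 : 0 ≤ t := ht ▸ by positivity
      have h1 : μ * (1 + x ^ 2) ≤ (1 + t) ^ 2 := by
        have h2 : μ * x ^ 2 ≤ t ^ 2 := by
          rw [ht, show (γ * x * τ.im) ^ 2 = (γ * τ.im) ^ 2 * x ^ 2 by ring]
          exact mul_le_mul_of_nonneg_right ((hμ ▸ min_le_right _ _).trans
            (pow_le_pow_left₀ hη0.le hγη 2)) (sq_nonneg x)
        nlinarith [(hμ ▸ min_le_left _ _ : μ ≤ 1)]
      rw [← ht, show γ * τ.im * x * μ * (1 + x ^ 2) = t * (μ * (1 + x ^ 2)) by rw [ht]; ring,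
        pow_succ' _ 2]
      exact mul_le_mul (by linarith) h1 (by positivity) (by positivity)
    calc ((γ * τ.im) ^ 2) ^ (-s) / (γ * τ.im) * (C * ((1 + γ * x * τ.im) ^ 3)⁻¹)
        ≤ max 1 (η ^ 2)⁻¹ / (γ * τ.im) * (C * (γ * τ.im * x * μ * (1 + x ^ 2))⁻¹) := by
          gcongr
      _ = A * ((γ ^ 2)⁻¹ * x⁻¹ * (1 + x ^ 2)⁻¹) := by
          rw [hA]
          field_simp
  refine (norm_dualTerm_le hC hs hs1 τ c.1 (ν : K)).trans
    ((Finset.prod_le_prod (fun w _ => by positivity) fun w _ => hb w).trans ?_)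
  rw [Finset.prod_mul_distrib, Finset.prod_const, Finset.card_univ, Finset.prod_mul_distrib,
    Finset.prod_mul_distrib, Finset.prod_inv_distrib, Finset.prod_inv_distrib, Finset.prod_pow,
    prod_abs_remb, prod_abs_remb, ← normR_mul_ratio J, placeWeight,
    Real.rpow_neg (zero_le_one.trans (one_le_ratio_rep J c)), Real.rpow_two, mul_pow, mul_inv,
    mul_assoc (A ^ _)]
  refine mul_le_mul_of_nonneg_left ?_ (by positivity)
  have hn := inv_anti₀ (normR_pos _) (normR_le_norm (dualIdeal J) ν.2 hν)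
  have hp : 0 ≤ (normR J ^ 2)⁻¹ * (ratio J c.1 ^ 2)⁻¹ *
      ∏ w : InfinitePlace K, (1 + remb w (ν : K) ^ 2)⁻¹ :=
    mul_nonneg (by positivity) (Finset.prod_nonneg fun w _ => by positivity)
  nlinarith [mul_le_mul_of_nonneg_left hn hp]

theorem summable_dual_weight : Summable fun p : Rep J × ↥(dualIdeal J : Set K) =>
    ratio J p.1.1 ^ (-(2 : ℝ)) * placeWeight fun w => remb w (p.2 : K) := by
  obtain ⟨C, -, hC⟩ := exists_translate_bound (dualIdeal J)
  have h : Summable fun x : ↥(dualIdeal J : Set K) => placeWeight fun w => remb w (x : K) :=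
    (hC fun _ => 0).1.congr fun x => by simp only [zero_add]
  exact Summable.mul_of_nonneg (f := fun c : Rep J => ratio J c.1 ^ (-(2 : ℝ)))
    (g := fun x : ↥(dualIdeal J : Set K) => placeWeight fun w => remb w (x : K))
    (summable_ratio J one_lt_two) h
    (fun c => Real.rpow_nonneg (zero_le_one.trans (one_le_ratio_rep J c)) _)
    fun x => placeWeight_nonneg _

/-- The dual terms without the one at `0`. -/
def dualTail (s : ℝ) (τ : ℍ) (p : Rep J × ↥(dualIdeal J : Set K)) : ℂ :=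
  if (p.2 : K) = 0 then 0 else dualTerm s τ p.1.1 p.2

theorem exists_tail_bound (τ : ℍ) : ∃ B : Rep J × ↥(dualIdeal J : Set K) → ℝ, Summable B ∧
    ∀ s : ℝ, 0 ≤ s → s ≤ 1 → ∀ p, ‖dualTail J s τ p‖ ≤ B p := by
  obtain ⟨D, hD0, hD⟩ := exists_dual_bound J τ
  refine ⟨_, (summable_dual_weight J).mul_left D, fun s hs hs1 p => ?_⟩
  rw [dualTail]
  split_ifs with h
  · rw [norm_zero]
    exact mul_nonneg hD0 (mul_nonneg
      (Real.rpow_nonneg (zero_le_one.trans (one_le_ratio_rep J p.1)) _) (placeWeight_nonneg _))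
  · exact hD s hs hs1 p.1 p.2 h

/-- **The dual terms at `s = 0`.** -/
theorem dualTerm_limit (τ : ℍ) {c : K} (hc : c ≠ 0) (ν : K) :
    dualTerm 0 τ c ν = (covol J : ℂ) * factor J 2 * ((coef 2 c ν : ℂ) *
      Complex.exp (2 * π * I * τ * ((Algebra.trace ℚ K (c * ν) : ℚ) : ℂ))) := by
  have hy := τ.im_pos
  have hf : (covol J : ℂ) * factor J 2 = (-4 * (π : ℂ) ^ 2) ^ Fintype.card (InfinitePlace K) := by
    have hcv : ((covol J : ℝ) : ℂ) ≠ 0 := Complex.ofReal_ne_zero.2 (covol_pos J).ne'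
    rw [factor, ← covol, show ((2 : ℕ) - 1).factorial = 1 from rfl, Nat.cast_one, one_pow, one_mul,
      mul_div_cancel₀ _ hcv, pow_mul, card_places]
    congr 1
    linear_combination (4 * (π : ℂ) ^ 2) * Complex.I_sq
  rw [hf, dualTerm, coef]
  simp only [fourier_heckeKernel_limit, neg_zero, Real.rpow_zero]
  by_cases hp : ∀ w : InfinitePlace K, 0 < remb w c * remb w ν
  · rw [if_pos hp, Rat.cast_pow, ← Complex.ofReal_ratCast, ← prod_abs_remb,
      ← Complex.ofReal_ratCast (Algebra.trace ℚ K (c * ν)), ← sum_remb, Complex.ofReal_prod,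
      ← Finset.prod_pow, Complex.ofReal_sum, Finset.mul_sum, Complex.exp_sum,
      ← Finset.prod_mul_distrib, ← Finset.card_univ, ← Finset.prod_const,
      ← Finset.prod_mul_distrib]
    refine Finset.prod_congr rfl fun w _ => ?_
    rw [ramp_of_nonneg 1 _ (mul_pos (hp w) hy).le, map_mul]
    have habs : |remb w c| * |remb w ν| = remb w c * remb w ν := by
      rw [← abs_mul, abs_of_pos (hp w)]
    have hγ : |remb w c| ≠ 0 := abs_ne_zero.2 (remb_ne_zero _ hc)
    have e : Complex.exp (2 * π * I * (τ : ℂ) * ((remb w c * remb w ν : ℝ) : ℂ)) =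
        Complex.exp (2 * π * I * ((remb w c * remb w ν * τ.re : ℝ) : ℂ)) *
          Complex.exp (-((2 * π : ℝ) : ℂ) * ((remb w c * remb w ν * τ.im : ℝ) : ℂ)) := by
      rw [← Complex.exp_add]
      congr 1
      conv_lhs => rw [← Complex.re_add_im (τ : ℂ), UpperHalfPlane.coe_re, UpperHalfPlane.coe_im]
      push_cast
      linear_combination (2 * (π : ℂ) * remb w c * remb w ν * τ.im) * Complex.I_sq
    rw [e]
    simp only [pow_one]
    have hγ' : ((|remb w c| : ℝ) : ℂ) ≠ 0 := Complex.ofReal_ne_zero.2 hγ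
    have hy' : ((τ.im : ℝ) : ℂ) ≠ 0 := Complex.ofReal_ne_zero.2 hy.ne'
    rw [← habs]
    push_cast
    field_simp
  · rw [if_neg hp, Rat.cast_zero, zero_mul, mul_zero]
    push Not at hp
    obtain ⟨w, hw⟩ := hp
    refine Finset.prod_eq_zero (Finset.mem_univ w) ?_
    rw [ramp_of_nonpos one_ne_zero _ (mul_nonpos_of_nonpos_of_nonneg hw hy.le), mul_zero, mul_zero]

theorem dualTail_zero (τ : ℍ) (p : Rep J × ↥(dualIdeal J : Set K)) :
    dualTail J 0 τ p = (covol J : ℂ) * factor J 2 * ((coef 2 p.1.1 (p.2 : K) : ℂ) *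
      Complex.exp (2 * π * I * τ * ((Algebra.trace ℚ K (p.1.1 * (p.2 : K)) : ℚ) : ℂ))) := by
  rw [dualTail, ← dualTerm_limit J τ (Rep.ne_zero J p.1)]
  split_ifs with h
  · rw [dualTerm_limit J τ (Rep.ne_zero J p.1), coef, if_neg fun hp => by
      simpa [h] using hp (Classical.arbitrary _), Rat.cast_zero, zero_mul, mul_zero]
  · rfl

/-- **The terms of weight two are summable.** -/
theorem summableTerms_two : SummableTerms J 2 := fun τ => by
  obtain ⟨B, hB, hb⟩ := exists_tail_bound J τ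
  have h : Summable (dualTail J 0 τ) :=
    Summable.of_norm_bounded hB fun p => hb 0 le_rfl zero_le_one p
  simp only [funext fun p => dualTail_zero J τ p] at h
  exact (summable_mul_left_iff (mul_ne_zero (Complex.ofReal_ne_zero.2 (covol_pos J).ne')
    (factor_ne_zero J 2))).1 h

/-- **The limit of Hecke's series.** -/
theorem tendsto_heckeSum (hn : 2 ≤ finrank ℚ K) (τ : ℍ) :
    Tendsto (fun s : ℝ => heckeSum J s τ) (𝓝[>] 0) (𝓝 (eisFun J 2 τ)) := by
  have hy := τ.im_pos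
  have hev : ∀ᶠ s : ℝ in 𝓝[>] 0, 0 < s ∧ s ≤ 1 := by
    filter_upwards [Ioc_mem_nhdsGT zero_lt_one] with s hs using hs
  obtain ⟨B, hB, hb⟩ := exists_tail_bound J τ
  have hcv : ((covol J : ℝ) : ℂ) ≠ 0 := Complex.ofReal_ne_zero.2 (covol_pos J).ne'
  -- the terms at `ν ≠ 0`
  have htail : Tendsto (fun s : ℝ => ∑' p, dualTail J s τ p) (𝓝[>] 0)
      (𝓝 (∑' p, dualTail J 0 τ p)) := by
    refine tendsto_tsum_of_dominated_convergence hB (fun p => ?_) ?_
    · simp only [dualTail]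
      split_ifs with h
      · exact tendsto_const_nhds
      · refine tendsto_finsetProd _ fun w _ => ((Tendsto.mul_const _ ?_).mul
          (tendsto_fourier_heckeKernel _))
        refine (Complex.continuous_ofReal.tendsto _).comp (Tendsto.div_const ?_ _)
        refine ((Real.continuousAt_const_rpow ?_).tendsto.comp
          (tendsto_neg (0 : ℝ))).mono_left nhdsWithin_le_nhds
        exact pow_ne_zero _ (mul_ne_zero (abs_ne_zero.2 (remb_ne_zero _ (Rep.ne_zero J p.1)))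
          hy.ne')
    · filter_upwards [hev] with s hs using hb s hs.1.le hs.2
  have hval : ∑' p, dualTail J 0 τ p =
      (covol J : ℂ) * ∑' c : Rep J, ∑' d : ↥(J : Set K), eisTerm 2 (τ : ℂ) c.1 d := by
    have hS := summableTerms_two J τ
    rw [tsum_congr (dualTail_zero J τ), tsum_mul_left, hS.tsum_prod,
      tsum_congr fun c : Rep J =>
        (lipschitz_ideal J even_two le_rfl (Rep.ne_zero J c) τ).2.tsum_eq,
      tsum_mul_left, mul_assoc _ (factor J 2), ← mul_assoc (factor J 2),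
      mul_inv_cancel₀ (factor_ne_zero J 2), one_mul]
  -- the terms at `ν = 0`
  obtain ⟨M, hM⟩ : ∃ M : ℝ, M = normR J * τ.im ^ finrank ℚ K := ⟨_, rfl⟩
  have hM0 : 0 < M := hM ▸ mul_pos (normR_pos J) (pow_pos hy _)
  have hdz : ∀ (s : ℝ) (c : Rep J), dualTerm s τ c.1 0 =
      (((M ^ 2) ^ (-s) / M * ratio J c.1 ^ (-(1 + 2 * s)) : ℝ) : ℂ) *
        𝓕 (heckeKernel s) 0 ^ finrank ℚ K := fun s c => by
    rw [hM, ← prod_scale, dualTerm, Complex.ofReal_prod, ← card_places, ← Finset.card_univ,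
      ← Finset.prod_const, ← Finset.prod_mul_distrib]
    refine Finset.prod_congr rfl fun w _ => ?_
    simp
  have hzero : Tendsto (fun s : ℝ => ∑' c : Rep J, dualTerm s τ c.1 0) (𝓝[>] 0) (𝓝 0) := by
    have hg := ((Real.continuousAt_const_rpow (pow_ne_zero 2 hM0.ne') (b := -(0 : ℝ))).tendsto.comp
      (tendsto_neg (0 : ℝ))).mono_left (nhdsWithin_le_nhds (s := Set.Ioi 0))
    have hlim := ((hg.div_const M).mul_const ((2 * π) ^ finrank ℚ K)).mul
      (tendsto_pow_ratioSum J hn)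
    rw [mul_zero] at hlim
    refine squeeze_zero_norm' ?_ hlim
    filter_upwards [hev] with s hs
    simp only [Function.comp_apply, hdz]
    rw [tsum_mul_right, norm_mul, ← Complex.ofReal_tsum, tsum_mul_left, ← ratioSum,
      Complex.norm_real, Real.norm_of_nonneg (mul_nonneg (by positivity) (ratioSum_nonneg J _)),
      norm_pow]
    refine le_trans (mul_le_mul_of_nonneg_left (pow_le_pow_left₀ (norm_nonneg _)
      (norm_fourier_heckeKernel_zero hs.1.le) _)
        (mul_nonneg (by positivity) (ratioSum_nonneg J _))) (le_of_eq ?_)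
    rw [mul_pow]
    ring
  have hsum := (tendsto_hecke_zero J (τ : ℂ)).add ((hzero.add htail).const_mul ((covol J : ℂ))⁻¹)
  rw [zero_add, hval, ← mul_assoc, inv_mul_cancel₀ hcv, one_mul, ← eisFun] at hsum
  refine hsum.congr' ?_
  filter_upwards [hev] with s hs
  have hsI := summable_hecke_prod J hs.1 τ
  have hsT : Summable (dualTail J s τ) := Summable.of_norm_bounded hB (hb s hs.1.le hs.2)
  have hsZ : Summable fun c : Rep J => dualTerm s τ c.1 0 := by
    simp only [hdz]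
    exact (Complex.summable_ofReal.2 ((summable_ratio J (by linarith)).mul_left _)).mul_right _
  rw [heckeSum, Summable.tsum_sum (f := fun x : Orb J =>
    heckeTerm s (τ : ℂ) (repPair J x).1 (repPair J x).2) hsI (summable_hecke_zero J hs.1.le hs.2 _),
    add_comm]
  congr 1
  show _ = ∑' p : Rep J × ↥(J : Set K), heckeTerm s (τ : ℂ) p.1.1 p.2
  rw [hsI.tsum_prod, tsum_congr fun c : Rep J =>
      (inner_poisson J hs.1.le hs.2 τ (Rep.ne_zero J c)).2, tsum_mul_left, hsT.tsum_prod,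
    ← hsZ.tsum_add hsT.prod]
  congr 1
  refine tsum_congr fun c => ?_
  rw [(inner_poisson J hs.1.le hs.2 τ (Rep.ne_zero J c)).1.tsum_eq_add_tsum_ite
    ⟨0, zero_mem_ideal _⟩]
  congr 1
  refine tsum_congr fun ν => ?_
  simp only [dualTail, Subtype.ext_iff]

/-- **The transformation law in weight two.** -/
theorem isInvariant_two (hn : 2 ≤ finrank ℚ K) : IsInvariant J 2 := fun g τ => by
  refine tendsto_nhds_unique ((tendsto_heckeSum J hn (g • τ)).congr fun s => heckeSum_smul J s g τ)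
    ?_
  have h1 : Tendsto (fun s : ℝ => ((((Complex.normSq (denom g τ)) ^ s) ^ finrank ℚ K : ℝ) : ℂ))
      (𝓝[>] 0) (𝓝 1) := by
    refine ((Complex.continuous_ofReal.comp ((Real.continuous_const_rpow
      (Complex.normSq_pos.2 (denom_ne_zero _ _)).ne').pow _)).tendsto' 0 1 ?_).mono_left
        nhdsWithin_le_nhds
    simp
  have h := (h1.const_mul (denom g τ ^ (2 * finrank ℚ K))).mul (tendsto_heckeSum J hn τ)
  rwa [mul_one] at h

end FA.SiegelKlingen

end
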