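import Fermat.Agent.SiegelKlingen.QuadraticData
import Fermat.Agent.SiegelKlingen.ValuesTwo
import Fermat.Agent.ThreeTorsion.Fields
import Mathlib.NumberTheory.ModularForms.LevelOne.DimensionFormula

/-!
# Siegel's formulas for real quadratic fields

In degree two the diagonal series of weights `4` and `8` are multiples of `E₄` and `E₈`, so the
coefficient of `q` gives the constant term.
-/

set_option autoImplicit false
set_option linter.unusedSectionVars false
set_option linter.style.haveILetI false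

noncomputable section

open NumberField InfinitePlace Module Filter Complex
open UpperHalfPlane (qExpansion)
open scoped Real nonZeroDivisors Classical MatrixGroups ArithmeticFunction.sigma

namespace FA.SiegelKlingen

open FA.HeckeFE FA.ThreeTorsion

/-- Below weight twelve the first coefficient determines the constant term. -/
theorem coeff_one_eq {w : ℕ} (hw : 3 ≤ w) (hw12 : w < 12) (hev : Even w)
    (f : ModularForm 𝒮ℒ (w : ℤ)) : (qExpansion 1 f).coeff 1 =
      -(2 * w / bernoulli w : ℂ) * (qExpansion 1 f).coeff 0 := by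
  obtain ⟨c, hc⟩ : ∃ c, c = (qExpansion 1 f).coeff 0 := ⟨_, rfl⟩
  have hq : qExpansion 1 ⇑(f - c • ModularForm.E hw) =
      qExpansion 1 ⇑f - c • qExpansion 1 ⇑(ModularForm.E hw) := by
    rw [FunLike.coe_sub, ModularForm.qExpansion_sub, FunLike.coe_smul,
      ModularForm.qExpansion_smul]
    all_goals simp
  have hzero : f - c • ModularForm.E hw = 0 := by
    refine ModularForm.sturm_bound_levelOne_nat ?_
    rw [Nat.div_eq_of_lt hw12, Nat.cast_zero]
    refine lt_of_lt_of_le zero_lt_one (PowerSeries.nat_le_order _ 1 fun i hi => ?_)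
    obtain rfl : i = 0 := by omega
    rw [hq, map_sub, PowerSeries.coeff_smul, EisensteinSeries.E_qExpansion_coeff_zero hw hev,
      smul_eq_mul, mul_one, hc, sub_self]
  have h1 := congrArg (fun g : ModularForm 𝒮ℒ (w : ℤ) => (qExpansion 1 g).coeff 1) hzero
  simp only [hq] at h1
  rw [FunLike.coe_zero, UpperHalfPlane.qExpansion_zero, map_sub, PowerSeries.coeff_smul,
    EisensteinSeries.E_qExpansion_coeff hw hev, map_zero, sub_eq_zero] at h1
  rw [h1, hc, if_neg one_ne_zero, smul_eq_mul]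
  simp [mul_comm]

variable {K : Type*} [Field K] [NumberField K] [IsTotallyReal K]

/-- The constant terms and the partial zeta values. -/
theorem normR_pow_constSum {k : ℕ} (hk2 : 2 ≤ k) (C : ClassGroup (𝓞 K)) :
    ((normR (repIdeal K C) : ℂ)) ^ k * (constSum (repIdeal K C) k : ℂ) =
      Units.torsionOrder K * FA.PrimeIdeal.classZ C (k : ℂ) := by
  have hs : 1 < (k : ℂ).re := by
    rw [natCast_re]
    exact_mod_cast (by omega : 1 < k)
  have h := coneSum_eq (repIdeal K C) hs
  rw [mk_repIdeal] at h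
  rw [← h, coneSum, constSum, ofReal_tsum, ← tsum_mul_left]
  refine tsum_congr fun d => ?_
  rw [← normR_mul_ratio (repIdeal K C), cpow_neg, cpow_natCast]
  have h1 : (normR (repIdeal K C) : ℂ) ≠ 0 := ofReal_ne_zero.2 (normR_pos _).ne'
  push_cast
  rw [mul_pow, mul_inv, ← mul_assoc, mul_inv_cancel₀ (pow_ne_zero _ h1), one_mul]

/-- **The zeta value through the trace one coefficient.** -/
theorem dedekindZeta_eq_traceSum {k : ℕ} (hk : Even k) (hk2 : 2 ≤ k)
    (hI : ∀ C : ClassGroup (𝓞 K), IsInvariant (repIdeal K C) k)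
    (hS : ∀ C : ClassGroup (𝓞 K), SummableTerms (repIdeal K C) k)
    (h12 : k * finrank ℚ K < 12) (h3 : 3 ≤ k * finrank ℚ K) :
    -(2 * (k * finrank ℚ K : ℕ) / bernoulli (k * finrank ℚ K) : ℂ) *
        (Units.torsionOrder K * dedekindZeta K (k : ℂ)) =
      (-(2 * π * I)) ^ (k * finrank ℚ K) /
        (((k - 1).factorial : ℂ) ^ finrank ℚ K * (rootDiscr K : ℂ)) *
        ((∑ C : ClassGroup (𝓞 K), FractionalIdeal.absNorm
          (repIdeal K C : FractionalIdeal (𝓞 K)⁰ K) ^ (k - 1) *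
            traceSum (repIdeal K C) k 1 : ℚ) : ℂ) := by
  have hs : 1 < (k : ℂ).re := by
    rw [natCast_re]
    exact_mod_cast (by omega : 1 < k)
  rw [FA.PrimeIdeal.dedekindZeta_eq_sum_classZ hs, Finset.mul_sum, Finset.mul_sum, Rat.cast_sum,
    Finset.mul_sum]
  refine Finset.sum_congr rfl fun C _ => ?_
  have h := coeff_one_eq h3 h12 (hk.mul_right _) (eisForm (repIdeal K C) hk hk2 (hS C) (hI C))
  rw [coeff_eisForm, coeff_eisForm, if_neg one_ne_zero, if_pos rfl] at h
  rw [← normR_pow_constSum hk2, mul_left_comm, ← h, factor, ← rootDiscr]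
  obtain ⟨j, rfl⟩ : ∃ j, k = j + 1 := ⟨k - 1, by omega⟩
  rw [normR, Rat.cast_mul, Rat.cast_pow, ofReal_ratCast, ofReal_mul, ofReal_ratCast,
    Nat.add_sub_cancel, pow_succ]
  have h1 : ((FractionalIdeal.absNorm (repIdeal K C : FractionalIdeal (𝓞 K)⁰ K) : ℚ) : ℂ) ≠ 0 := by
    rw [← ofReal_ratCast]
    exact ofReal_ne_zero.2 (normR_pos _).ne'
  have h2 : (j.factorial : ℂ) ≠ 0 := Nat.cast_ne_zero.2 (Nat.factorial_ne_zero _)
  have h3 : (rootDiscr K : ℂ) ≠ 0 := ofReal_ne_zero.2 rootDiscr_pos.ne'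
  field_simp

/-- Siegel's sum. -/
def siegelSum (j : ℕ) (D : ℤ) : ℕ := ∑ b ∈ bRange D, σ j ((D - b * b) / 4).toNat

variable {K : Type} [Field K] [NumberField K]

/-- A quadratic field of positive discriminant is totally real. -/
theorem isTotallyReal_of_discr_pos (hK : finrank ℚ K = 2) (hd : 0 < discr K) :
    IsTotallyReal K := by
  rw [← nrComplexPlaces_eq_zero_iff]
  have h := card_add_two_mul_card_eq_rank K
  have hs := sign_discr K
  rw [Int.sign_eq_one_of_pos hd] at hs
  have hle : nrComplexPlaces K ≤ 1 := by omega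
  interval_cases hc : nrComplexPlaces K
  · rfl
  · norm_num at hs

variable [IsTotallyReal K]

/-- **The value at `2`.** -/
theorem dedekindZeta_two_quadratic (hK : finrank ℚ K = 2) (hd : 0 < discr K) :
    dedekindZeta K ((2 : ℕ) : ℂ) = (((siegelSum 1 (discr K) : ℚ) / (15 * (discr K : ℚ) ^ 2) : ℚ) : ℂ) *
      ((π : ℂ) ^ (2 * finrank ℚ K) * rootDiscr K) := by
  obtain ⟨Q⟩ := exists_qdata hK
  have hD : 0 < Q.disc := Q.disc_eq_discr ▸ hd
  have h := dedekindZeta_eq_traceSum (K := K) (k := 2) even_two le_rfl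
    (fun C => isInvariant_two _ (by omega)) (fun C => summableTerms_two _) (by omega) (by omega)
  have hsum := (sum_traceSum (isDifferentGen_rootD Q) 1 2 fun C =>
    finite_level _ even_two le_rfl (summableTerms_two _) 1).2
  rw [hsum, tsum_tracePoint Q hK hD, Q.disc_eq_discr, hK,
    show bernoulli (2 * 2) = -1 / 30 by decide +kernel] at h
  have hw : (Units.torsionOrder K : ℂ) ≠ 0 := Nat.cast_ne_zero.2 (NeZero.ne _)
  have hr : (rootDiscr K : ℂ) ≠ 0 := ofReal_ne_zero.2 rootDiscr_pos.ne'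
  have hdC : ((discr K : ℤ) : ℂ) ≠ 0 := Int.cast_ne_zero.2 (discr_ne_zero K)
  have hrr : (rootDiscr K : ℂ) * rootDiscr K = ((discr K : ℤ) : ℂ) := by
    rw [← ofReal_mul, rootDiscr, Real.mul_self_sqrt (abs_nonneg _),
      abs_of_pos (Int.cast_pos.2 hd : (0 : ℝ) < _), ofReal_intCast]
  have hp : (-(2 * (π : ℂ) * I)) ^ 4 = 16 * (π : ℂ) ^ 4 := by
    linear_combination (16 * (π : ℂ) ^ 4) * Complex.I_pow_four
  rw [siegelSum, hK]
  rw [show 2 * 2 = 4 from rfl, hp, show ((2 : ℕ) - 1).factorial = 1 from rfl] at h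
  push_cast at h ⊢
  field_simp at h ⊢
  linear_combination ((rootDiscr K : ℂ) / 16) * h -
    (15 * dedekindZeta K 2 * (discr K : ℂ)) * hrr

/-- **The value at `4`.** -/
theorem dedekindZeta_four_quadratic (hK : finrank ℚ K = 2) (hd : 0 < discr K) :
    dedekindZeta K ((4 : ℕ) : ℂ) =
      (((siegelSum 3 (discr K) : ℚ) * 2 / (135 * (discr K : ℚ) ^ 4) : ℚ) : ℂ) *
        ((π : ℂ) ^ (4 * finrank ℚ K) * rootDiscr K) := by
  obtain ⟨Q⟩ := exists_qdata hK
  have hD : 0 < Q.disc := Q.disc_eq_discr ▸ hd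
  have h4 : Even 4 := by decide
  have h := dedekindZeta_eq_traceSum (K := K) (k := 4) h4 (by norm_num)
    (fun C => isInvariant_of_four _ h4 le_rfl) (fun C => summableTerms_of_four _ h4 le_rfl)
    (by omega) (by omega)
  have hsum := (sum_traceSum (isDifferentGen_rootD Q) 1 4 fun C =>
    finite_level _ h4 (by norm_num) (summableTerms_of_four _ h4 le_rfl) 1).2
  rw [hsum, tsum_tracePoint Q hK hD, Q.disc_eq_discr, hK,
    show bernoulli (4 * 2) = -1 / 30 by decide +kernel] at h
  have hw : (Units.torsionOrder K : ℂ) ≠ 0 := Nat.cast_ne_zero.2 (NeZero.ne _)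
  have hr : (rootDiscr K : ℂ) ≠ 0 := ofReal_ne_zero.2 rootDiscr_pos.ne'
  have hdC : ((discr K : ℤ) : ℂ) ≠ 0 := Int.cast_ne_zero.2 (discr_ne_zero K)
  have hrr : (rootDiscr K : ℂ) * rootDiscr K = ((discr K : ℤ) : ℂ) := by
    rw [← ofReal_mul, rootDiscr, Real.mul_self_sqrt (abs_nonneg _),
      abs_of_pos (Int.cast_pos.2 hd : (0 : ℝ) < _), ofReal_intCast]
  have hp : (-(2 * (π : ℂ) * I)) ^ 8 = 256 * (π : ℂ) ^ 8 := by
    linear_combination (256 * (π : ℂ) ^ 8 * (I ^ 4 + 1)) * Complex.I_pow_four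
  rw [siegelSum, hK]
  rw [show 4 * 2 = 8 from rfl, hp, show ((4 : ℕ) - 1).factorial = 6 from rfl] at h
  push_cast at h ⊢
  field_simp at h ⊢
  linear_combination ((rootDiscr K : ℂ) / 128) * h -
    (135 * dedekindZeta K 4 * (discr K : ℂ) ^ 3) * hrr

/-- **Siegel's formula at `-1`.** -/
theorem extension_neg_one_quadratic (hK : finrank ℚ K = 2) (hd : 0 < discr K) :
    extension K (-1) = (((siegelSum 1 (discr K) : ℚ) / 60 : ℚ) : ℂ) := by
  have h := extension_eq (t := 1) le_rfl (dedekindZeta_two_quadratic hK hd)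
  rw [show (1 : ℂ) - ((2 * 1 : ℕ) : ℂ) = -1 by norm_num, hK, Nat.cast_natAbs, Int.cast_abs,
    abs_of_pos (Int.cast_pos.2 hd : (0 : ℚ) < _)] at h
  rw [h]
  congr 1
  have : (discr K : ℚ) ≠ 0 := Int.cast_ne_zero.2 (discr_ne_zero K)
  norm_num
  field_simp
  ring

/-- **Siegel's formula at `-3`.** -/
theorem extension_neg_three_quadratic (hK : finrank ℚ K = 2) (hd : 0 < discr K) :
    extension K (-3) = (((siegelSum 3 (discr K) : ℚ) / 120 : ℚ) : ℂ) := by
  have h := extension_eq (t := 2) (by norm_num) (dedekindZeta_four_quadratic hK hd)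
  rw [show (1 : ℂ) - ((2 * 2 : ℕ) : ℂ) = -3 by norm_num, hK, Nat.cast_natAbs, Int.cast_abs,
    abs_of_pos (Int.cast_pos.2 hd : (0 : ℚ) < _)] at h
  rw [h]
  congr 1
  have : (discr K : ℚ) ≠ 0 := Int.cast_ne_zero.2 (discr_ne_zero K)
  norm_num [Nat.factorial]
  field_simp
  ring

end FA.SiegelKlingen

end
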