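import Fermat.Agent.HeckeFE.Extension
import Fermat.Agent.SiegelKlingen.Form

/-!
# The coefficients summed over the classes

When the different is principal, `(δ)`, the pairs of trace `m` of all classes together are the
pairs of a totally positive `X / δ` of trace `m` and an ideal dividing `X`, up to roots of unity.
-/

set_option autoImplicit false
set_option linter.unusedSectionVars false
set_option linter.style.haveILetI false

noncomputable section

open NumberField InfinitePlace Module NumberField.mixedEmbedding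
open scoped nonZeroDivisors Classical

namespace FA.SiegelKlingen

open FA.HeckeFE

variable {K : Type*} [Field K] [NumberField K] [IsTotallyReal K]

variable (K) in
/-- The integral ideal behind `repIdeal`. -/
def repInt (C : ClassGroup (𝓞 K)) : (Ideal (𝓞 K))⁰ :=
  Classical.choose (ClassGroup.mk0_surjective C⁻¹)

theorem mk0_repInt (C : ClassGroup (𝓞 K)) : ClassGroup.mk0 (repInt K C) = C⁻¹ :=
  Classical.choose_spec (ClassGroup.mk0_surjective C⁻¹)

theorem mem_repIdeal {C : ClassGroup (𝓞 K)} {x : K} : x ∈ (repIdeal K C : Set K) ↔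
    ∃ y : 𝓞 K, y ∈ (repInt K C : Ideal (𝓞 K)) ∧ (y : K) = x :=
  FractionalIdeal.mem_coeIdeal (𝓞 K)⁰

/-- The absolute norm of the representative ideal. -/
theorem absNorm_repIdeal (C : ClassGroup (𝓞 K)) :
    FractionalIdeal.absNorm (repIdeal K C : FractionalIdeal (𝓞 K)⁰ K) =
      (Ideal.absNorm (repInt K C : Ideal (𝓞 K)) : ℚ) :=
  FractionalIdeal.coeIdeal_absNorm _

theorem coe_mul_int (a b : 𝓞 K) : ((a * b : 𝓞 K) : K) = (a : K) * (b : K) :=
  map_mul (algebraMap (𝓞 K) K) a b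

theorem coe_zero_int : ((0 : 𝓞 K) : K) = 0 := map_zero (algebraMap (𝓞 K) K)

theorem coe_one_int : ((1 : 𝓞 K) : K) = 1 := map_one (algebraMap (𝓞 K) K)

/-- A representative generates `J b`. -/
theorem exists_generator (b : (Ideal (𝓞 K))⁰) :
    ∃ c : Rep (repIdeal K (ClassGroup.mk0 b)), ∃ x : 𝓞 K, (x : K) = c.1 ∧
      Ideal.span {x} = (repInt K (ClassGroup.mk0 b) : Ideal (𝓞 K)) * b := by
  obtain ⟨J, hJ⟩ : ∃ J, J = repInt K (ClassGroup.mk0 b) := ⟨_, rfl⟩
  have h1 : ClassGroup.mk0 (J * b) = 1 := by rw [map_mul, hJ, mk0_repInt, inv_mul_cancel]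
  obtain ⟨y, hy⟩ := ((ClassGroup.mk0_eq_one_iff (SetLike.coe_mem (J * b))).1 h1).principal
  rw [Submonoid.coe_mul, ← Ideal.span] at hy
  have hy0 : y ≠ 0 := fun h => nonZeroDivisors.coe_ne_zero (J * b)
    (by rw [Submonoid.coe_mul, hy, h, Ideal.span_singleton_eq_bot.2 rfl]; rfl)
  have hyJ : y ∈ (J : Ideal (𝓞 K)) :=
    Ideal.mul_le_left (hy.symm ▸ Ideal.mem_span_singleton_self y : y ∈ (J : Ideal (𝓞 K)) * b)
  obtain ⟨⟨c, m⟩, hcm⟩ := (unfoldMap_bijective (repIdeal K (ClassGroup.mk0 b))).2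
    ⟨(y : K), mem_repIdeal.2 ⟨y, hJ ▸ hyJ, rfl⟩, RingOfIntegers.coe_ne_zero_iff.2 hy0⟩
  obtain ⟨x, hx, hxc⟩ := mem_repIdeal.1 c.2.1
  refine ⟨c, x, hxc, ?_⟩
  have e : y = (unitPow m : 𝓞 K) * x := RingOfIntegers.ext (by
    rw [coe_mul_int, hxc]
    exact (congrArg Subtype.val hcm).symm)
  rw [← hJ, hy, e, Ideal.span_singleton_mul_left_unit (unitPow m).isUnit]

/-- A representative for an ideal and a root of unity. -/
def repOf (p : (Ideal (𝓞 K))⁰ × Units.torsion K) : Σ C : ClassGroup (𝓞 K), Rep (repIdeal K C) :=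
  ⟨ClassGroup.mk0 p.1, ⟨(((p.2 : (𝓞 K)ˣ) : 𝓞 K) : K) * (exists_generator p.1).choose.1,
    (unitPerm (repIdeal K (ClassGroup.mk0 p.1)) (p.2 : (𝓞 K)ˣ)
      ⟨_, (exists_generator p.1).choose.2.1⟩).2, by
      rw [← unit_smul_mixedEmbedding]
      exact fundamentalCone.torsion_smul_mem_of_mem (exists_generator p.1).choose.2.2 p.2.2⟩⟩

theorem repOf_spec (p : (Ideal (𝓞 K))⁰ × Units.torsion K) : ∃ x : 𝓞 K,
    (x : K) = (repOf p).2.1 ∧
      Ideal.span {x} = (repInt K (repOf p).1 : Ideal (𝓞 K)) * (p.1 : Ideal (𝓞 K)) := by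
  obtain ⟨x, hx, hspan⟩ := (exists_generator p.1).choose_spec
  refine ⟨((p.2 : (𝓞 K)ˣ) : 𝓞 K) * x, by rw [coe_mul_int, hx]; rfl, ?_⟩
  rw [Ideal.span_singleton_mul_left_unit (p.2 : (𝓞 K)ˣ).isUnit]
  exact hspan

theorem repOf_bijective : Function.Bijective (repOf (K := K)) := by
  refine ⟨fun p q h => ?_, ?_⟩
  · obtain ⟨x, hx, hxs⟩ := repOf_spec p
    obtain ⟨y, hy, hys⟩ := repOf_spec q
    have e : x = y := RingOfIntegers.ext (by rw [hx, hy, h])
    have hb : p.1 = q.1 := by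
      refine Subtype.ext (mul_left_cancel₀ (nonZeroDivisors.coe_ne_zero (repInt K (repOf p).1)) ?_)
      rw [← hxs, e, hys, h]
    obtain ⟨b, ζ⟩ := p
    obtain ⟨b', ζ'⟩ := q
    obtain rfl : b = b' := hb
    have h2 := eq_of_heq (Sigma.mk.inj_iff.1 h).2
    have h3 : (((ζ : (𝓞 K)ˣ) : 𝓞 K) : K) = (((ζ' : (𝓞 K)ˣ) : 𝓞 K) : K) :=
      mul_right_cancel₀ (Rep.ne_zero _ (exists_generator b).choose) (congrArg Subtype.val h2)
    exact Prod.ext rfl (Subtype.ext (Units.ext (RingOfIntegers.coe_injective h3)))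
  · rintro ⟨C, c⟩
    obtain ⟨x, hx, hxc⟩ := mem_repIdeal.1 c.2.1
    have hx0 : x ≠ 0 := fun h => Rep.ne_zero _ c (by rw [← hxc, h, coe_zero_int])
    obtain ⟨b, hb⟩ := Ideal.dvd_iff_le.2
      ((Ideal.span_singleton_le_iff_mem _).2 hx : Ideal.span {x} ≤ (repInt K C : Ideal (𝓞 K)))
    have hb0 : b ≠ 0 := fun h => hx0 (by
      rwa [h, mul_zero, Ideal.zero_eq_bot, Ideal.span_singleton_eq_bot] at hb)
    obtain ⟨b', hb'⟩ : ∃ b' : (Ideal (𝓞 K))⁰, (b' : Ideal (𝓞 K)) = b :=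
      ⟨⟨b, mem_nonZeroDivisors_iff_ne_zero.2 hb0⟩, rfl⟩
    obtain rfl : C = ClassGroup.mk0 b' := by
      have h1 : ClassGroup.mk0 (repInt K C * b') = 1 := by
        refine (ClassGroup.mk0_eq_one_iff (SetLike.coe_mem (repInt K C * b'))).2 ?_
        rw [Submonoid.coe_mul, hb', ← hb]
        exact ⟨⟨x, rfl⟩⟩
      rw [map_mul, mk0_repInt, inv_mul_eq_one] at h1
      exact h1
    obtain ⟨x₀, hx₀, hs⟩ := (exists_generator b').choose_spec
    obtain ⟨u, hu⟩ := Ideal.span_singleton_eq_span_singleton.1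
      (show Ideal.span {x₀} = Ideal.span {x} by rw [hs, hb', ← hb])
    have hcu : ((u : 𝓞 K) : K) * (exists_generator b').choose.1 = c.1 := by
      rw [← hx₀, ← hxc, ← hu, coe_mul_int, mul_comm]
    have htor : u ∈ Units.torsion K := by
      refine (fundamentalCone.unit_smul_mem_iff_mem_torsion
        (exists_generator b').choose.2.2 u).1 ?_
      rw [unit_smul_mixedEmbedding, hcu]
      exact c.2.2
    exact ⟨(b', ⟨u, htor⟩), congrArg (Sigma.mk _) (Subtype.ext hcu)⟩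

/-- The different is `(δ)`. -/
def IsDifferentGen (δ : K) : Prop :=
  δ ≠ 0 ∧ ∀ x : K, (∀ y : 𝓞 K, ∃ z : ℤ, Algebra.trace ℚ K (x * y) = z) ↔
    ∃ u : 𝓞 K, (u : K) = x * δ

variable {δ : K} (hδ : IsDifferentGen δ)

include hδ in
theorem mem_dual_repIdeal {C : ClassGroup (𝓞 K)} {x : K} :
    x ∈ (dualIdeal (repIdeal K C) : Set K) ↔
      ∀ j : 𝓞 K, j ∈ (repInt K C : Ideal (𝓞 K)) → ∃ u : 𝓞 K, (u : K) = x * j * δ := by
  show x ∈ FractionalIdeal.dual ℤ ℚ (repIdeal K C : FractionalIdeal (𝓞 K)⁰ K) ↔ _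
  rw [FractionalIdeal.mem_dual (repIdeal K C).ne_zero]
  constructor
  · intro h j hj
    refine (hδ.2 (x * j)).1 fun y => ?_
    obtain ⟨z, hz⟩ := h ((j * y : 𝓞 K) : K)
      (mem_repIdeal.2 ⟨j * y, Ideal.mul_mem_right y _ hj, rfl⟩)
    refine ⟨z, ?_⟩
    rw [eq_intCast, Algebra.traceForm_apply, coe_mul_int, ← mul_assoc] at hz
    exact hz.symm
  · intro h a ha
    obtain ⟨j, hj, rfl⟩ := mem_repIdeal.1 ha
    obtain ⟨z, hz⟩ := (hδ.2 (x * j)).2 (h j hj) 1
    refine ⟨z, ?_⟩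
    rw [eq_intCast, Algebra.traceForm_apply, ← hz, coe_one_int, mul_one]

include hδ in
theorem mem_dual_iff (p : (Ideal (𝓞 K))⁰ × Units.torsion K) (X : 𝓞 K) :
    (X : K) / (δ * (repOf p).2.1) ∈ (dualIdeal (repIdeal K (repOf p).1) : Set K) ↔
      X ∈ (p.1 : Ideal (𝓞 K)) := by
  obtain ⟨x, hx, hs⟩ := repOf_spec p
  have hx0 : x ≠ 0 := fun h => Rep.ne_zero _ (repOf p).2 (by rw [← hx, h, coe_zero_int])
  have hxK : (x : K) ≠ 0 := RingOfIntegers.coe_ne_zero_iff.2 hx0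
  rw [mem_dual_repIdeal hδ, ← hx]
  have e : ∀ j : 𝓞 K, (X : K) / (δ * x) * j * δ = (X : K) * j / x := fun j => by
    field_simp [hδ.1]
  simp only [e]
  have e2 : ∀ j : 𝓞 K, (∃ u : 𝓞 K, (u : K) = (X : K) * j / x) ↔ X * j ∈ Ideal.span {x} :=
    fun j => by
    rw [Ideal.mem_span_singleton']
    refine exists_congr fun u => ?_
    rw [eq_div_iff hxK, ← map_mul, ← map_mul]
    exact ⟨fun h => RingOfIntegers.coe_injective h, fun h => congrArg (algebraMap (𝓞 K) K) h⟩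
  simp only [e2, hs]
  constructor
  · intro h
    have : Ideal.span {X} * (repInt K (repOf p).1 : Ideal (𝓞 K)) ≤
        (repInt K (repOf p).1 : Ideal (𝓞 K)) * (p.1 : Ideal (𝓞 K)) :=
      Ideal.span_singleton_mul_le_iff.2 h
    rw [← Ideal.dvd_iff_le, mul_comm (Ideal.span {X}),
      mul_dvd_mul_iff_left (nonZeroDivisors.coe_ne_zero _), Ideal.dvd_span_singleton] at this
    exact this
  · intro h j hj
    rw [mul_comm X j]
    exact Ideal.mul_mem_mul hj h

attribute [local irreducible] repOf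

/-- Numerators of the totally positive elements of trace `m` of the inverse different. -/
abbrev TracePoint (δ : K) (m : ℕ) : Type _ :=
  {X : 𝓞 K // Algebra.trace ℚ K ((X : K) / δ) = m ∧
    ∀ w : InfinitePlace K, 0 < remb w ((X : K) / δ)}

/-- Such a point with an ideal containing it and a root of unity. -/
abbrev DivPair (δ : K) (m : ℕ) : Type _ :=
  {q : TracePoint δ m × ((Ideal (𝓞 K))⁰ × Units.torsion K) //
    q.1.1 ∈ (q.2.1 : Ideal (𝓞 K))}

variable (m : ℕ)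

theorem pairVal_eq (q : DivPair δ m) :
    (repOf q.1.2).2.1 * ((q.1.1.1 : K) / (δ * (repOf q.1.2).2.1)) = (q.1.1.1 : K) / δ := by
  rw [mul_comm δ, ← div_div, mul_div_assoc', mul_div_assoc',
    mul_div_cancel_left₀ _ (Rep.ne_zero _ (repOf q.1.2).2)]

include hδ in
theorem exists_pairs_equiv :
    ∃ e : DivPair δ m ≃ Σ C : ClassGroup (𝓞 K), {y : PosPairs (repIdeal K C) //
        level (repIdeal K C) y = m},
      ∀ q, normR (repIdeal K (e q).1) * ((|Algebra.norm ℚ ((e q).2.1.1.2 : K)| : ℚ) : ℝ) =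
        ((|Algebra.norm ℚ (q.1.1.1 : K)| / |Algebra.norm ℚ δ| /
          Ideal.absNorm (q.1.2.1 : Ideal (𝓞 K)) : ℚ) : ℝ) := by
  have hpos : ∀ q : DivPair δ m, ∀ w : InfinitePlace K,
      0 < remb w (repOf q.1.2).2.1 *
        remb w ((q.1.1.1 : K) / (δ * (repOf q.1.2).2.1)) := fun q w => by
    rw [← map_mul, pairVal_eq]
    exact q.1.1.2.2 w
  obtain ⟨f, hf⟩ : ∃ f : DivPair δ m → Σ C : ClassGroup (𝓞 K),
      {y : PosPairs (repIdeal K C) // level (repIdeal K C) y = m}, ∀ q, f q =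
      ⟨(repOf q.1.2).1, ⟨⟨((repOf q.1.2).2, ⟨_, (mem_dual_iff hδ q.1.2 q.1.1.1).2 q.2⟩), hpos q⟩,
        Nat.cast_injective (R := ℚ) (by
          rw [(level_spec _ _).1]
          show Algebra.trace ℚ K (_ * _) = _
          rw [pairVal_eq]
          exact q.1.1.2.1)⟩⟩ := ⟨_, fun _ => rfl⟩
  have hbij : Function.Bijective f := by
    refine ⟨fun q q' h => ?_, ?_⟩
    · rw [hf, hf] at h
      have h1 : repOf q.1.2 = repOf q'.1.2 := congrArg (fun z : Σ C : ClassGroup (𝓞 K),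
        {y : PosPairs (repIdeal K C) // level (repIdeal K C) y = m} =>
          (⟨z.1, z.2.1.1.1⟩ : Σ C : ClassGroup (𝓞 K), Rep (repIdeal K C))) h
      have h2 : (repOf q.1.2).2.1 * ((q.1.1.1 : K) / (δ * (repOf q.1.2).2.1)) =
          (repOf q'.1.2).2.1 * ((q'.1.1.1 : K) / (δ * (repOf q'.1.2).2.1)) :=
        congrArg (fun z : Σ C : ClassGroup (𝓞 K),
          {y : PosPairs (repIdeal K C) // level (repIdeal K C) y = m} =>
            z.2.1.1.1.1 * (z.2.1.1.2 : K)) h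
      rw [pairVal_eq, pairVal_eq, div_left_inj' hδ.1] at h2
      have h3 := repOf_bijective.1 h1
      exact Subtype.ext (Prod.ext (Subtype.ext (RingOfIntegers.ext h2)) h3)
    · rintro ⟨C, ⟨⟨⟨c, ν⟩, hy⟩, hlev⟩⟩
      obtain ⟨p, hp⟩ := repOf_bijective.2 ⟨C, c⟩
      obtain ⟨x, hx, hxc⟩ := mem_repIdeal.1 c.2.1
      obtain ⟨u, hu⟩ := (mem_dual_repIdeal hδ).1 ν.2 x hx
      obtain ⟨rfl, hc⟩ := Sigma.mk.inj_iff.1 hp
      obtain rfl := eq_of_heq hc
      have hX : (u : K) / δ = (repOf p).2.1 * (ν : K) := by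
        rw [hu, hxc, mul_div_assoc, div_self hδ.1, mul_one, mul_comm]
      have hν : (u : K) / (δ * (repOf p).2.1) = (ν : K) := by
        rw [← div_div, hX, mul_div_cancel_left₀ _ (Rep.ne_zero _ (repOf p).2)]
      refine ⟨⟨(⟨u, ?_, fun w => ?_⟩, p), ?_⟩, ?_⟩
      · rw [hX, ← hlev, (level_spec _ _).1]
      · rw [hX, map_mul]
        exact hy w
      · refine (mem_dual_iff hδ p u).1 ?_
        rw [hν]
        exact ν.2
      · rw [hf]
        exact congrArg (Sigma.mk _) (Subtype.ext (Subtype.ext (Prod.ext rfl (Subtype.ext hν))))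
  refine ⟨Equiv.ofBijective f hbij, fun q => ?_⟩
  rw [Equiv.ofBijective_apply, hf]
  obtain ⟨x, hx, hs⟩ := repOf_spec q.1.2
  show normR (repIdeal K (repOf q.1.2).1) *
    ((|Algebra.norm ℚ ((q.1.1.1 : K) / (δ * (repOf q.1.2).2.1))| : ℚ) : ℝ) = _
  rw [normR, ← Rat.cast_mul, absNorm_repIdeal, ← hx]
  congr 1
  have hn : |Algebra.norm ℚ (x : K)| = (Ideal.absNorm (repInt K (repOf q.1.2).1 : Ideal (𝓞 K)) : ℚ) *
      (Ideal.absNorm (q.1.2.1 : Ideal (𝓞 K)) : ℚ) := by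
    rw [← Nat.cast_mul, ← map_mul, ← hs, Ideal.absNorm_span_singleton, ← Algebra.coe_norm_int,
      ← Int.cast_abs, Nat.cast_natAbs]
  have hJ : (Ideal.absNorm (repInt K (repOf q.1.2).1 : Ideal (𝓞 K)) : ℚ) ≠ 0 :=
    Nat.cast_ne_zero.2 (Ideal.absNorm_ne_zero_of_nonZeroDivisors _)
  have hb : (Ideal.absNorm (q.1.2.1 : Ideal (𝓞 K)) : ℚ) ≠ 0 :=
    Nat.cast_ne_zero.2 (Ideal.absNorm_ne_zero_of_nonZeroDivisors _)
  have hd : |Algebra.norm ℚ δ| ≠ 0 := abs_ne_zero.2 (Algebra.norm_ne_zero_iff.2 hδ.1)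
  have hne : δ * (x : K) ≠ 0 :=
    mul_ne_zero hδ.1 (hx.symm ▸ Rep.ne_zero _ (repOf q.1.2).2)
  have hdiv : Algebra.norm ℚ ((q.1.1.1 : K) / (δ * (x : K))) =
      Algebra.norm ℚ (q.1.1.1 : K) / Algebra.norm ℚ (δ * (x : K)) := by
    rw [eq_div_iff (Algebra.norm_ne_zero_iff.2 hne), ← map_mul, div_mul_cancel₀ _ hne]
  rw [hdiv, map_mul, abs_div, abs_mul, hn]
  field_simp

include hδ in
/-- **The coefficients summed over the classes.** -/
theorem sum_traceSum (k : ℕ)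
    (hfin : ∀ C : ClassGroup (𝓞 K), {y : PosPairs (repIdeal K C) |
      level (repIdeal K C) y = m}.Finite) :
    Finite (TracePoint δ m) ∧
    ∑ C : ClassGroup (𝓞 K), FractionalIdeal.absNorm (repIdeal K C : FractionalIdeal (𝓞 K)⁰ K) ^
        (k - 1) * traceSum (repIdeal K C) k m =
      Units.torsionOrder K * ∑' X : TracePoint δ m,
        ∑' b : {b : (Ideal (𝓞 K))⁰ // X.1 ∈ (b : Ideal (𝓞 K))},
          (|Algebra.norm ℚ (X.1 : K)| / |Algebra.norm ℚ δ| /
            Ideal.absNorm (b.1 : Ideal (𝓞 K))) ^ (k - 1) := by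
  obtain ⟨e, he⟩ := exists_pairs_equiv hδ m
  haveI : ∀ C : ClassGroup (𝓞 K), Finite {y : PosPairs (repIdeal K C) //
      level (repIdeal K C) y = m} := fun C => (hfin C).to_subtype
  haveI : Finite (DivPair δ m) := Finite.of_equiv _ e.symm
  haveI hX : Finite (TracePoint δ m) :=
    Finite.of_injective (fun X => (⟨(X, (1, 1)), by simp⟩ : DivPair δ m)) fun X Y h => by
      simpa using h
  refine ⟨hX, ?_⟩
  obtain ⟨g, hg⟩ : ∃ g : DivPair δ m → ℚ, ∀ q, g q = (|Algebra.norm ℚ (q.1.1.1 : K)| /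
      |Algebra.norm ℚ δ| / Ideal.absNorm (q.1.2.1 : Ideal (𝓞 K))) ^ (k - 1) := ⟨_, fun _ => rfl⟩
  haveI := fun C : ClassGroup (𝓞 K) =>
    Fintype.ofFinite {y : PosPairs (repIdeal K C) // level (repIdeal K C) y = m}
  haveI := Fintype.ofFinite (DivPair δ m)
  have h1 : ∑ C : ClassGroup (𝓞 K), FractionalIdeal.absNorm
      (repIdeal K C : FractionalIdeal (𝓞 K)⁰ K) ^ (k - 1) * traceSum (repIdeal K C) k m =
        ∑' q, g q := by
    rw [← e.symm.tsum_eq g, tsum_fintype, Fintype.sum_sigma]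
    refine Finset.sum_congr rfl fun C _ => ?_
    rw [traceSum, ← tsum_mul_left, tsum_fintype]
    refine Finset.sum_congr rfl fun y _ => ?_
    rw [hg, ← mul_pow]
    congr 1
    have h := he (e.symm ⟨C, y⟩)
    rw [Equiv.apply_symm_apply, normR, ← Rat.cast_mul] at h
    exact Rat.cast_injective h
  rw [h1, ← tsum_mul_left]
  let S : TracePoint δ m → Type _ := fun X =>
    {b : (Ideal (𝓞 K))⁰ // X.1 ∈ (b : Ideal (𝓞 K))} × Units.torsion K
  let E : (Σ X : TracePoint δ m, S X) ≃ DivPair δ m :=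
    { toFun := fun z => ⟨(z.1, (z.2.1.1, z.2.2)), z.2.1.2⟩
      invFun := fun q => ⟨q.1.1, (⟨q.1.2.1, q.2⟩, q.1.2.2)⟩
      left_inv := fun z => rfl
      right_inv := fun q => rfl }
  haveI : Finite (Σ X : TracePoint δ m, S X) := Finite.of_equiv _ E.symm
  haveI := Fintype.ofFinite (TracePoint δ m)
  haveI : ∀ X : TracePoint δ m, Finite {b : (Ideal (𝓞 K))⁰ // X.1 ∈ (b : Ideal (𝓞 K))} :=
    fun X => Finite.of_injective (fun b => (⟨X, (b, 1)⟩ : Σ X : TracePoint δ m, S X))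
      fun b b' h => congrArg Prod.fst (eq_of_heq (Sigma.mk.inj_iff.1 h).2)
  haveI := fun X : TracePoint δ m =>
    Fintype.ofFinite {b : (Ideal (𝓞 K))⁰ // X.1 ∈ (b : Ideal (𝓞 K))}
  haveI := Fintype.ofFinite (Units.torsion K)
  letI : ∀ X : TracePoint δ m, Fintype (S X) := fun X =>
    inferInstanceAs (Fintype ({b : (Ideal (𝓞 K))⁰ // X.1 ∈ (b : Ideal (𝓞 K))} × Units.torsion K))
  rw [← E.tsum_eq g, tsum_fintype, Fintype.sum_sigma, tsum_fintype]
  refine Finset.sum_congr rfl fun X _ => ?_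
  rw [← tsum_mul_left, tsum_fintype]
  simp only [S, E, Equiv.coe_fn_mk, hg]
  rw [Fintype.sum_prod_type]
  refine Finset.sum_congr rfl fun b _ => ?_
  simp only [Finset.sum_const, Finset.card_univ, nsmul_eq_mul, Units.torsionOrder,
    Nat.card_eq_fintype_card]

end FA.SiegelKlingen

end
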