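import Fermat.Agent.SiegelKlingen.Lipschitz
import Mathlib.Analysis.Complex.UpperHalfPlane.MoebiusAction

/-!
# The diagonal Eisenstein series of an ideal

The pairs of an ideal, not both zero, modulo the free units: `(c, d)` with `c` a representative and
`d` arbitrary, or `c = 0` and `d` a representative. The modular group permutes them.
-/

set_option autoImplicit false
set_option linter.unusedSectionVars false
set_option linter.style.haveILetI false

noncomputable section

open NumberField InfinitePlace Module UpperHalfPlane Filter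
open Complex (I)
open scoped Real nonZeroDivisors Classical MatrixGroups

namespace FA.SiegelKlingen

open FA.HeckeFE

variable {K : Type*} [Field K] [NumberField K] [IsTotallyReal K]
variable (J : (FractionalIdeal (𝓞 K)⁰ K)ˣ)

/-- Pairs of the ideal, not both zero. -/
abbrev Pairs : Type _ := {p : K × K // p.1 ∈ (J : Set K) ∧ p.2 ∈ (J : Set K) ∧ p ≠ 0}

/-- The pairs modulo the free units. -/
abbrev Orb : Type _ := (Rep J × ↥(J : Set K)) ⊕ Rep J

/-- The representative pair. -/
def repPair : Orb J → K × K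
  | Sum.inl (c, d) => (c.1, d.1)
  | Sum.inr d => (0, d.1)

theorem repPair_mem (x : Orb J) :
    (repPair J x).1 ∈ (J : Set K) ∧ (repPair J x).2 ∈ (J : Set K) ∧ repPair J x ≠ 0 := by
  rcases x with ⟨c, d⟩ | d
  · exact ⟨c.2.1, d.2, fun h => Rep.ne_zero J c (congrArg Prod.fst h)⟩
  · exact ⟨zero_mem_ideal J, d.2.1, fun h => Rep.ne_zero J d (congrArg Prod.snd h)⟩

/-- The unit of an exponent vector, in the field. -/
def unitVal (m : RestPlace K → ℤ) : K := ((unitPow m : 𝓞 K) : K)

theorem unitVal_ne_zero (m : RestPlace K → ℤ) : unitVal (K := K) m ≠ 0 := Units.coe_ne_zero _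

theorem unitVal_add (m m' : RestPlace K → ℤ) :
    unitVal (K := K) (m + m') = unitVal m * unitVal m' := by
  rw [unitVal, unitVal, unitVal, ← map_mul, ← Units.val_mul]
  congr 2
  simp [unitPow, zpow_add, Finset.prod_mul_distrib]

theorem unitVal_mul_mem (m : RestPlace K → ℤ) {x : K} (hx : x ∈ (J : Set K)) :
    unitVal m * x ∈ (J : Set K) :=
  (unitPerm J (unitPow m) ⟨x, hx⟩).2

/-- Multiplying a representative pair by a unit. -/
def pairMap (q : Orb J × (RestPlace K → ℤ)) : Pairs J :=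
  ⟨(unitVal q.2 * (repPair J q.1).1, unitVal q.2 * (repPair J q.1).2),
    unitVal_mul_mem J _ (repPair_mem J q.1).1, unitVal_mul_mem J _ (repPair_mem J q.1).2.1,
    fun h => (repPair_mem J q.1).2.2 (Prod.ext
      ((mul_eq_zero.1 (congrArg Prod.fst h)).resolve_left (unitVal_ne_zero _))
      ((mul_eq_zero.1 (congrArg Prod.snd h)).resolve_left (unitVal_ne_zero _)))⟩

theorem pairMap_bijective : Function.Bijective (pairMap J) := by
  constructor
  · rintro ⟨x, m⟩ ⟨y, m'⟩ h
    have h1 : unitVal m * (repPair J x).1 = unitVal m' * (repPair J y).1 :=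
      congrArg (fun p : Pairs J => p.1.1) h
    have h2 : unitVal m * (repPair J x).2 = unitVal m' * (repPair J y).2 :=
      congrArg (fun p : Pairs J => p.1.2) h
    rcases x with ⟨c, d⟩ | d <;> rcases y with ⟨c', d'⟩ | d'
    · have e := (unfoldMap_bijective J).1 (a₁ := (c, m)) (a₂ := (c', m')) (Subtype.ext h1)
      simp only [Prod.mk.injEq] at e
      obtain ⟨rfl, rfl⟩ := e
      obtain rfl : d = d' := Subtype.ext (mul_left_cancel₀ (unitVal_ne_zero _) h2)
      rfl
    · exact absurd ((mul_eq_zero.1 (h1.trans (mul_zero _))).resolve_left (unitVal_ne_zero _))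
        (Rep.ne_zero J c)
    · exact absurd ((mul_eq_zero.1 (h1.symm.trans (mul_zero _))).resolve_left (unitVal_ne_zero _))
        (Rep.ne_zero J c')
    · have e := (unfoldMap_bijective J).1 (a₁ := (d, m)) (a₂ := (d', m')) (Subtype.ext h2)
      simp only [Prod.mk.injEq] at e
      obtain ⟨rfl, rfl⟩ := e
      rfl
  · rintro ⟨⟨c, d⟩, hc, hd, hne⟩
    by_cases hc0 : c = 0
    · subst hc0
      obtain ⟨⟨a, m⟩, h⟩ := (unfoldMap_bijective J).2
        ⟨d, hd, fun h => hne (Prod.ext rfl h)⟩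
      exact ⟨(Sum.inr a, m), Subtype.ext (Prod.ext (mul_zero _) (congrArg Subtype.val h))⟩
    · obtain ⟨⟨a, m⟩, h⟩ := (unfoldMap_bijective J).2 ⟨c, hc, hc0⟩
      refine ⟨(Sum.inl (a, (unitPerm J (unitPow m)).symm ⟨d, hd⟩), m),
        Subtype.ext (Prod.ext (congrArg Subtype.val h) ?_)⟩
      exact congrArg Subtype.val ((unitPerm J (unitPow m)).apply_symm_apply ⟨d, hd⟩)

/-- The orbits. -/
def pairEquiv : Orb J × (RestPlace K → ℤ) ≃ Pairs J := Equiv.ofBijective _ (pairMap_bijective J)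

/-- A unimodular matrix permutes the pairs. -/
def pairAct (g : SL(2, ℤ)) (p : Pairs J) : Pairs J :=
  ⟨(p.1.1 * (g 0 0 : K) + p.1.2 * (g 1 0 : K), p.1.1 * (g 0 1 : K) + p.1.2 * (g 1 1 : K)), by
    have hz : ∀ (x : K) (i : ℤ), x ∈ (J : Set K) → x * (i : K) ∈ (J : Set K) := fun x i hx => by
      rw [mul_comm, ← zsmul_eq_mul]
      exact ((J : FractionalIdeal (𝓞 K)⁰ K) : Submodule (𝓞 K) K).toAddSubgroup.zsmul_mem hx i
    have ha : ∀ x y : K, x ∈ (J : Set K) → y ∈ (J : Set K) → x + y ∈ (J : Set K) := fun x y =>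
      ((J : FractionalIdeal (𝓞 K)⁰ K) : Submodule (𝓞 K) K).add_mem
    refine ⟨ha _ _ (hz _ _ p.2.1) (hz _ _ p.2.2.1), ha _ _ (hz _ _ p.2.1) (hz _ _ p.2.2.1),
      fun h => p.2.2.2 ?_⟩
    have hdet : (g 0 0 : K) * (g 1 1 : K) - (g 0 1 : K) * (g 1 0 : K) = 1 := by
      have h' : g 0 0 * g 1 1 - g 0 1 * g 1 0 = 1 := by
        rw [← Matrix.det_fin_two g.1]
        exact g.2
      exact_mod_cast h'
    have h1 : p.1.1 * (g 0 0 : K) + p.1.2 * (g 1 0 : K) = 0 := congrArg Prod.fst h
    have h2 : p.1.1 * (g 0 1 : K) + p.1.2 * (g 1 1 : K) = 0 := congrArg Prod.snd h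
    refine Prod.ext ?_ ?_
    · show p.1.1 = 0
      linear_combination (g 1 1 : K) * h1 - (g 1 0 : K) * h2 - p.1.1 * hdet
    · show p.1.2 = 0
      linear_combination (g 0 0 : K) * h2 - (g 0 1 : K) * h1 - p.1.2 * hdet⟩

theorem pairAct_mul (g h : SL(2, ℤ)) (p : Pairs J) :
    pairAct J h (pairAct J g p) = pairAct J (g * h) p := by
  refine Subtype.ext (Prod.ext ?_ ?_) <;>
    simp [pairAct, Matrix.mul_apply, Fin.sum_univ_two] <;> ring

theorem pairAct_one (p : Pairs J) : pairAct J 1 p = p :=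
  Subtype.ext (Prod.ext (by simp [pairAct]) (by simp [pairAct]))

/-- The induced permutation of the orbits. -/
def orbAct (g : SL(2, ℤ)) (x : Orb J) : Orb J :=
  ((pairEquiv J).symm (pairAct J g (pairEquiv J (x, 0)))).1

theorem pairEquiv_eq (x : Orb J) (m : RestPlace K → ℤ) :
    (pairEquiv J (x, m)).1 = (unitVal m * (repPair J x).1, unitVal m * (repPair J x).2) := rfl

theorem unitVal_zero : unitVal (K := K) 0 = 1 := by simp [unitVal, unitPow]

theorem orbAct_shift (g : SL(2, ℤ)) (x : Orb J) (m : RestPlace K → ℤ) :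
    ((pairEquiv J).symm (pairAct J g (pairEquiv J (x, m)))).1 = orbAct J g x := by
  obtain ⟨⟨y, m'⟩, hy⟩ : ∃ q, q = (pairEquiv J).symm (pairAct J g (pairEquiv J (x, 0))) := ⟨_, rfl⟩
  have hy' : pairEquiv J (y, m') = pairAct J g (pairEquiv J (x, 0)) := by
    rw [hy, Equiv.apply_symm_apply]
  have h : pairAct J g (pairEquiv J (x, m)) = pairEquiv J (y, m + m') := by
    refine Subtype.ext ?_
    have e1 := congrArg (fun p : Pairs J => p.1.1) hy'
    have e2 := congrArg (fun p : Pairs J => p.1.2) hy'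
    simp only [pairAct, pairEquiv_eq, unitVal_zero, one_mul] at e1 e2
    rw [pairEquiv_eq, unitVal_add, mul_assoc, mul_assoc, e1, e2]
    simp only [pairAct, pairEquiv_eq]
    exact Prod.ext (by ring) (by ring)
  rw [h, Equiv.symm_apply_apply, orbAct, ← hy]

theorem orbAct_mul (g h : SL(2, ℤ)) (x : Orb J) :
    orbAct J h (orbAct J g x) = orbAct J (g * h) x := by
  obtain ⟨⟨y, m⟩, hy⟩ : ∃ q, q = (pairEquiv J).symm (pairAct J g (pairEquiv J (x, 0))) := ⟨_, rfl⟩
  rw [show orbAct J g x = y from (congrArg Prod.fst hy).symm, ← orbAct_shift J h y m, hy,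
    Equiv.apply_symm_apply, pairAct_mul]
  rfl

theorem orbAct_one (x : Orb J) : orbAct J 1 x = x := by
  rw [orbAct, pairAct_one, Equiv.symm_apply_apply]

/-- The permutation of the orbits. -/
def orbPerm (g : SL(2, ℤ)) : Orb J ≃ Orb J where
  toFun := orbAct J g
  invFun := orbAct J g⁻¹
  left_inv x := by rw [orbAct_mul, mul_inv_cancel, orbAct_one]
  right_inv x := by rw [orbAct_mul, inv_mul_cancel, orbAct_one]

/-- Multiplication by a unit does not change a term. -/
theorem eisTerm_unit {k : ℕ} (hk : Even k) (z : ℂ) (m : RestPlace K → ℤ) (c d : K) :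
    eisTerm k z (unitVal m * c) (unitVal m * d) = eisTerm k z c d := by
  rw [eisTerm, eisTerm, inv_inj]
  have h : ∀ w : InfinitePlace K, ((remb w (unitVal m * c) : ℂ) * z +
      (remb w (unitVal m * d) : ℂ)) ^ k =
        ((|remb w (unitVal m)| : ℝ) : ℂ) ^ k * ((remb w c : ℂ) * z + (remb w d : ℂ)) ^ k :=
    fun w => by
      rw [← Complex.ofReal_pow, hk.pow_abs, Complex.ofReal_pow, ← mul_pow, map_mul, map_mul]
      push_cast
      ring
  simp only [h, Finset.prod_mul_distrib, Finset.prod_pow, ← Complex.ofReal_prod, prod_abs_remb]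
  rw [show |Algebra.norm ℚ (unitVal (K := K) m)| = 1 from unit_norm (unitPow m)]
  simp

/-- **The Eisenstein series.** -/
def eisSum (k : ℕ) (z : ℂ) : ℂ := ∑' x : Orb J, eisTerm k z (repPair J x).1 (repPair J x).2

theorem eisSum_smul {k : ℕ} (hk : Even k) (g : SL(2, ℤ)) (τ : ℍ) :
    eisSum J k ((g • τ : ℍ) : ℂ) =
      denom g τ ^ (k * finrank ℚ K) * eisSum J k (τ : ℂ) := by
  obtain ⟨den, hden⟩ : ∃ den : ℂ, den = (g 1 0 : ℂ) * τ + (g 1 1 : ℂ) := ⟨_, rfl⟩
  have hd : denom g τ = den := by rw [ModularGroup.denom_apply, hden]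
  have hden0 : den ≠ 0 := hd ▸ denom_ne_zero _ _
  rw [hd, eisSum, eisSum, ← (orbPerm J g).tsum_eq fun x : Orb J =>
    eisTerm k (τ : ℂ) (repPair J x).1 (repPair J x).2, ← tsum_mul_left]
  refine tsum_congr fun x => ?_
  obtain ⟨⟨y, m⟩, hy⟩ : ∃ q, q = (pairEquiv J).symm (pairAct J g (pairEquiv J (x, 0))) := ⟨_, rfl⟩
  have hy' : pairEquiv J (y, m) = pairAct J g (pairEquiv J (x, 0)) := by
    rw [hy, Equiv.apply_symm_apply]
  rw [show orbPerm J g x = y from (congrArg Prod.fst hy).symm,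
    ← eisTerm_unit hk (τ : ℂ) m (repPair J y).1 (repPair J y).2]
  have e1 := congrArg (fun p : Pairs J => p.1.1) hy'
  have e2 := congrArg (fun p : Pairs J => p.1.2) hy'
  simp only [pairAct, pairEquiv_eq, unitVal_zero, one_mul] at e1 e2
  rw [e1, e2, eisTerm, eisTerm, ← inv_inj, mul_inv, inv_inv, inv_inv, ← card_places,
    pow_mul, ← Finset.card_univ, ← Finset.prod_const, ← Finset.prod_inv_distrib,
    ← Finset.prod_mul_distrib]
  refine Finset.prod_congr rfl fun w _ => ?_
  rw [← inv_pow, ← mul_pow]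
  congr 1
  rw [UpperHalfPlane.specialLinearGroup_apply]
  simp only [algebraMap_int_eq, eq_intCast, Complex.ofReal_intCast, map_add, map_mul, map_intCast,
    Complex.ofReal_add, Complex.ofReal_mul]
  rw [← hden]
  field_simp
  rw [hden]
  ring

end FA.SiegelKlingen

end
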