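import Fermat.Agent.SiegelKlingen.Lipschitz
import Mathlib.Analysis.Fourier.Inversion
import Mathlib.Analysis.Fourier.FourierTransformDeriv

/-!
# Hecke's kernel in one variable

The Fourier transform of `(t + i)^(-2) (t² + 1)^(-s)` is `O ((1 + |ξ|)^(-3))` uniformly for
`0 ≤ s ≤ 1`, is `O (s)` at `0` and tends to `-4 π² ξ₊ exp (-2 π ξ₊)` as `s → 0`.
-/

set_option autoImplicit false
set_option linter.style.haveILetI false

noncomputable section

open MeasureTheory Filter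
open Complex (I)
open scoped Real Topology FourierTransform

namespace FA.SiegelKlingen

/-- `(t + i)^(-2) (t² + 1)^(-s)`. -/
def heckeKernel (s t : ℝ) : ℂ := (((t : ℂ) + I) ^ 2)⁻¹ * (((t ^ 2 + 1) ^ (-s) : ℝ) : ℂ)

theorem add_I_ne_zero (t : ℝ) : (t : ℂ) + I ≠ 0 := fun h => by
  have := congrArg Complex.im h
  simp at this

theorem normSq_add_I (t : ℝ) : Complex.normSq ((t : ℂ) + I) = t ^ 2 + 1 := by
  rw [Complex.normSq_apply]
  simp
  ring

theorem norm_heckeKernel (s t : ℝ) :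
    ‖heckeKernel s t‖ = (t ^ 2 + 1)⁻¹ * (t ^ 2 + 1) ^ (-s) := by
  rw [heckeKernel, norm_mul, norm_inv, norm_pow, ← Complex.normSq_eq_norm_sq, normSq_add_I,
    Complex.norm_real, Real.norm_of_nonneg (Real.rpow_nonneg (by positivity) _)]

theorem rpow_neg_le_one {s : ℝ} (hs : 0 ≤ s) (t : ℝ) : (t ^ 2 + 1) ^ (-s) ≤ 1 :=
  Real.rpow_le_one_of_one_le_of_nonpos (by nlinarith [sq_nonneg t]) (by linarith)

theorem norm_heckeKernel_le {s : ℝ} (hs : 0 ≤ s) (t : ℝ) :
    ‖heckeKernel s t‖ ≤ (1 + t ^ 2)⁻¹ := by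
  rw [norm_heckeKernel, add_comm (1 : ℝ)]
  exact mul_le_of_le_one_right (by positivity) (rpow_neg_le_one hs t)

theorem continuous_heckeKernel (s : ℝ) : Continuous (heckeKernel s) := by
  unfold heckeKernel
  refine ((Continuous.pow (by fun_prop) 2).inv₀ fun t => pow_ne_zero 2 (add_I_ne_zero t)).mul
    (Complex.continuous_ofReal.comp ?_)
  exact Continuous.rpow_const (by fun_prop) fun t => Or.inl (by positivity)

/-- The logarithmic derivative. -/
def logD (s t : ℝ) : ℂ := -2 / ((t : ℂ) + I) - ((2 * s * t / (t ^ 2 + 1) : ℝ) : ℂ)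

/-- Its derivative. -/
def logD' (s t : ℝ) : ℂ :=
  2 / ((t : ℂ) + I) ^ 2 - ((2 * s * (1 - t ^ 2) / (t ^ 2 + 1) ^ 2 : ℝ) : ℂ)

/-- Its second derivative. -/
def logD'' (s t : ℝ) : ℂ :=
  -4 / ((t : ℂ) + I) ^ 3 - ((4 * s * t * (t ^ 2 - 3) / (t ^ 2 + 1) ^ 3 : ℝ) : ℂ)

theorem hasDerivAt_heckeKernel (s t : ℝ) :
    HasDerivAt (heckeKernel s) (heckeKernel s t * logD s t) t := by
  have hne := add_I_ne_zero t
  have h1 : HasDerivAt (fun x : ℝ => (((x : ℂ) + I) ^ 2)⁻¹)
      (-(2 * ((t : ℂ) + I)) / (((t : ℂ) + I) ^ 2) ^ 2) t := by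
    refine (((hasDerivAt_id t).ofReal_comp.add_const I).pow 2).inv
      (pow_ne_zero 2 hne) |>.congr_deriv ?_
    simp
  have h2 : HasDerivAt (fun x : ℝ => (((x ^ 2 + 1) ^ (-s) : ℝ) : ℂ))
      (((2 * t * (-s) * (t ^ 2 + 1) ^ (-s - 1) : ℝ)) : ℂ) t := by
    refine (HasDerivAt.ofReal_comp ?_)
    simpa using ((hasDerivAt_pow 2 t).add_const 1).rpow_const (p := -s) (Or.inl (by positivity))
  refine (h1.mul h2).congr_deriv ?_
  rw [heckeKernel, logD, Real.rpow_sub_one (by positivity)]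
  push_cast
  field_simp
  ring

theorem hasDerivAt_logD (s t : ℝ) : HasDerivAt (logD s) (logD' s t) t := by
  have hne := add_I_ne_zero t
  have h1 : HasDerivAt (fun x : ℝ => -2 / ((x : ℂ) + I)) (2 / ((t : ℂ) + I) ^ 2) t := by
    refine ((hasDerivAt_const t (-2 : ℂ)).div ((hasDerivAt_id t).ofReal_comp.add_const I)
      hne).congr_deriv ?_
    simp
  have h2 : HasDerivAt (fun x : ℝ => 2 * s * x / (x ^ 2 + 1))
      (2 * s * (1 - t ^ 2) / (t ^ 2 + 1) ^ 2) t := by
    refine (((hasDerivAt_id t).const_mul (2 * s)).div ((hasDerivAt_pow 2 t).add_const 1)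
      (by positivity)).congr_deriv ?_
    simp
    ring
  exact h1.sub h2.ofReal_comp

theorem hasDerivAt_logD' (s t : ℝ) : HasDerivAt (logD' s) (logD'' s t) t := by
  have hne := add_I_ne_zero t
  have h1 : HasDerivAt (fun x : ℝ => 2 / ((x : ℂ) + I) ^ 2) (-4 / ((t : ℂ) + I) ^ 3) t := by
    refine ((hasDerivAt_const t (2 : ℂ)).div (((hasDerivAt_id t).ofReal_comp.add_const I).pow 2)
      (pow_ne_zero 2 hne)).congr_deriv ?_
    simp
    field_simp
    ring
  have h2 : HasDerivAt (fun x : ℝ => 2 * s * (1 - x ^ 2) / (x ^ 2 + 1) ^ 2)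
      (4 * s * t * (t ^ 2 - 3) / (t ^ 2 + 1) ^ 3) t := by
    refine ((((hasDerivAt_pow 2 t).const_sub 1).const_mul (2 * s)).div
      (((hasDerivAt_pow 2 t).add_const 1).pow 2) (pow_ne_zero 2 (by positivity))).congr_deriv ?_
    simp
    field_simp
    ring
  exact h1.sub h2.ofReal_comp

theorem one_le_norm_add_I (t : ℝ) : 1 ≤ ‖(t : ℂ) + I‖ := by
  have := Complex.abs_im_le_norm ((t : ℂ) + I)
  simpa using this

theorem norm_logD_le {s : ℝ} (hs : 0 ≤ s) (hs1 : s ≤ 1) (t : ℝ) :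
    ‖logD s t‖ ≤ 4 ∧ ‖logD' s t‖ ≤ 4 ∧ ‖logD'' s t‖ ≤ 16 := by
  have hn := one_le_norm_add_I t
  have e1 : ∀ (c : ℂ) (m : ℕ), ‖c / ((t : ℂ) + I) ^ m‖ ≤ ‖c‖ := fun c m => by
    rw [norm_div, norm_pow]
    exact div_le_self (norm_nonneg c) (one_le_pow₀ hn)
  have q1 : |2 * s * t / (t ^ 2 + 1)| ≤ 2 := by
    rw [abs_div, abs_of_pos (by positivity : (0 : ℝ) < t ^ 2 + 1), div_le_iff₀ (by positivity),
      abs_mul, abs_of_nonneg (by positivity : (0 : ℝ) ≤ 2 * s)]
    nlinarith [abs_nonneg t, sq_abs t, mul_le_mul_of_nonneg_right hs1 (abs_nonneg t)]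
  have q2 : |2 * s * (1 - t ^ 2) / (t ^ 2 + 1) ^ 2| ≤ 2 := by
    rw [abs_div, abs_of_pos (by positivity : (0 : ℝ) < (t ^ 2 + 1) ^ 2),
      div_le_iff₀ (by positivity), abs_mul, abs_of_nonneg (by positivity : (0 : ℝ) ≤ 2 * s)]
    have h3 : |1 - t ^ 2| ≤ t ^ 2 + 1 := abs_le.2 ⟨by linarith, by nlinarith [sq_nonneg t]⟩
    nlinarith [mul_le_mul_of_nonneg_right hs1 (abs_nonneg (1 - t ^ 2)), sq_nonneg t]
  have q3 : |4 * s * t * (t ^ 2 - 3) / (t ^ 2 + 1) ^ 3| ≤ 12 := by
    rw [abs_div, abs_of_pos (by positivity : (0 : ℝ) < (t ^ 2 + 1) ^ 3),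
      div_le_iff₀ (by positivity), abs_mul, abs_mul, abs_of_nonneg (by positivity : (0 : ℝ) ≤ 4 * s)]
    have h3 : |t ^ 2 - 3| ≤ 3 * (t ^ 2 + 1) := abs_le.2 ⟨by nlinarith [sq_nonneg t], by
      nlinarith [sq_nonneg t]⟩
    have h4 : |t| * |t ^ 2 - 3| ≤ (t ^ 2 + 1) * (3 * (t ^ 2 + 1)) :=
      mul_le_mul (by nlinarith [sq_abs t, sq_nonneg (|t| - 1)]) h3 (abs_nonneg _) (by positivity)
    have h5 : (t ^ 2 + 1) * (3 * (t ^ 2 + 1)) ≤ 3 * (t ^ 2 + 1) ^ 3 := by
      nlinarith [sq_nonneg t, mul_nonneg (sq_nonneg t) (sq_nonneg (t ^ 2 + 1))]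
    nlinarith [mul_le_mul_of_nonneg_right hs1 (mul_nonneg (abs_nonneg t) (abs_nonneg (t ^ 2 - 3)))]
  refine ⟨?_, ?_, ?_⟩
  · have := e1 (-2) 1
    rw [pow_one] at this
    refine (norm_sub_le _ _).trans ?_
    rw [Complex.norm_real, Real.norm_eq_abs]
    simp at this ⊢
    linarith
  · have := e1 2 2
    refine (norm_sub_le _ _).trans ?_
    rw [Complex.norm_real, Real.norm_eq_abs]
    simp at this
    simp
    linarith
  · have := e1 (-4) 3
    refine (norm_sub_le _ _).trans ?_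
    rw [Complex.norm_real, Real.norm_eq_abs]
    simp at this
    simp
    linarith

theorem integrable_of_le {f : ℝ → ℂ} {C : ℝ} (hf : Continuous f)
    (h : ∀ t, ‖f t‖ ≤ C * (1 + t ^ 2)⁻¹) : Integrable f :=
  (integrable_inv_one_add_sq.const_mul C).mono' hf.aestronglyMeasurable (Eventually.of_forall h)

theorem integrable_heckeKernel {s : ℝ} (hs : 0 ≤ s) : Integrable (heckeKernel s) :=
  integrable_of_le (C := 1) (continuous_heckeKernel s) fun t => by
    rw [one_mul]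
    exact norm_heckeKernel_le hs t

/-- **The Fourier transform decays uniformly.** -/
theorem exists_fourier_heckeKernel_le :
    ∃ C : ℝ, 0 ≤ C ∧ ∀ s : ℝ, 0 ≤ s → s ≤ 1 → ∀ ξ : ℝ,
      ‖𝓕 (heckeKernel s) ξ‖ ≤ C * ((1 + |ξ|) ^ 3)⁻¹ := by
  refine ⟨4 * (128 + 1) * π, by positivity, fun s hs hs1 ξ => ?_⟩
  obtain ⟨r1, hr1⟩ : ∃ f, f = fun t => heckeKernel s t * logD s t := ⟨_, rfl⟩
  obtain ⟨r2, hr2⟩ : ∃ f, f = fun t => heckeKernel s t * (logD s t ^ 2 + logD' s t) := ⟨_, rfl⟩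
  obtain ⟨r3, hr3⟩ : ∃ f, f = fun t =>
      heckeKernel s t * (logD s t ^ 3 + 3 * logD s t * logD' s t + logD'' s t) := ⟨_, rfl⟩
  have d0 : deriv (heckeKernel s) = r1 := by
    rw [hr1]
    exact funext fun t => (hasDerivAt_heckeKernel s t).deriv
  have H1 : ∀ t, HasDerivAt r1 (r2 t) t := fun t => by
    rw [hr1, hr2]
    exact ((hasDerivAt_heckeKernel s t).mul (hasDerivAt_logD s t)).congr_deriv (by ring)
  have H2 : ∀ t, HasDerivAt r2 (r3 t) t := fun t => by
    rw [hr2, hr3]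
    exact ((hasDerivAt_heckeKernel s t).mul
      (((hasDerivAt_logD s t).pow 2).add (hasDerivAt_logD' s t))).congr_deriv (by simp; ring)
  have d1 : deriv r1 = r2 := funext fun t => (H1 t).deriv
  have d2 : deriv r2 = r3 := funext fun t => (H2 t).deriv
  have b : ∀ t, ‖r1 t‖ ≤ 128 * (1 + t ^ 2)⁻¹ ∧ ‖r2 t‖ ≤ 128 * (1 + t ^ 2)⁻¹ ∧
      ‖r3 t‖ ≤ 128 * (1 + t ^ 2)⁻¹ := fun t => by
    obtain ⟨a1, a2, a3⟩ := norm_logD_le hs hs1 t
    have hk := norm_heckeKernel_le hs t
    have step : ∀ x : ℂ, ‖x‖ ≤ 128 → ‖heckeKernel s t * x‖ ≤ 128 * (1 + t ^ 2)⁻¹ := fun x hx => by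
      rw [norm_mul, mul_comm (128 : ℝ)]
      exact mul_le_mul hk hx (norm_nonneg _) (by positivity)
    rw [hr1, hr2, hr3]
    refine ⟨step _ (by linarith), step _ ?_, step _ ?_⟩
    · refine (norm_add_le _ _).trans ?_
      rw [norm_pow]
      nlinarith [norm_nonneg (logD s t)]
    · refine (norm_add_le _ _).trans ((add_le_add ((norm_add_le _ _)) le_rfl).trans ?_)
      rw [norm_pow, norm_mul, norm_mul, Complex.norm_ofNat]
      have := pow_le_pow_left₀ (norm_nonneg _) a1 3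
      have := mul_le_mul a1 a2 (norm_nonneg _) (by norm_num)
      nlinarith
  have hc1 : Continuous r1 := continuous_iff_continuousAt.2 fun t => (H1 t).continuousAt
  have hc2 : Continuous r2 := continuous_iff_continuousAt.2 fun t => (H2 t).continuousAt
  have hc3 : Continuous r3 := by
    rw [hr3]
    refine (continuous_heckeKernel s).mul ?_
    have c1 : Continuous (logD s) :=
      continuous_iff_continuousAt.2 fun t => (hasDerivAt_logD s t).continuousAt
    have c2 : Continuous (logD' s) :=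
      continuous_iff_continuousAt.2 fun t => (hasDerivAt_logD' s t).continuousAt
    have c3 : Continuous (logD'' s) := by
      unfold logD''
      refine (Continuous.div (by fun_prop) (by fun_prop)
        fun t => pow_ne_zero 3 (add_I_ne_zero t)).sub ?_
      exact Complex.continuous_ofReal.comp
        (Continuous.div (by fun_prop) (by fun_prop) fun t => by positivity)
    fun_prop
  have i1 := integrable_of_le hc1 fun t => (b t).1
  have i2 := integrable_of_le hc2 fun t => (b t).2.1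
  have i3 := integrable_of_le hc3 fun t => (b t).2.2
  have f1 := Real.fourier_deriv (integrable_heckeKernel hs)
    (fun t => (hasDerivAt_heckeKernel s t).differentiableAt) (d0 ▸ i1)
  have f2 := Real.fourier_deriv i1 (fun t => (H1 t).differentiableAt) (d1 ▸ i2)
  have f3 := Real.fourier_deriv i2 (fun t => (H2 t).differentiableAt) (d2 ▸ i3)
  rw [d0] at f1
  rw [d1, f1] at f2
  rw [d2, f2] at f3
  have hb : ∀ (g : ℝ → ℂ) (C : ℝ), Continuous g → (∀ t, ‖g t‖ ≤ C * (1 + t ^ 2)⁻¹) →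
      ‖𝓕 g ξ‖ ≤ C * π := fun g C hg h => by
    rw [Real.fourier_real_eq_integral_exp_smul]
    refine (norm_integral_le_integral_norm _).trans ((integral_mono_of_nonneg
      (Eventually.of_forall fun t => norm_nonneg _) (integrable_inv_one_add_sq.const_mul C)
      (Eventually.of_forall fun t => ?_)).trans (le_of_eq (by
        rw [integral_const_mul, integral_univ_inv_one_add_sq])))
    show ‖_ • _‖ ≤ _
    rw [norm_smul, Complex.norm_exp_ofReal_mul_I, one_mul]
    exact h t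
  have h0 := hb _ 1 (continuous_heckeKernel s) fun t => by
    rw [one_mul]
    exact norm_heckeKernel_le hs t
  have h3 := hb r3 128 hc3 fun t => (b t).2.2
  rw [congrFun f3 ξ] at h3
  simp only [norm_smul, norm_mul, Complex.norm_ofNat, Complex.norm_real, Complex.norm_I,
    Real.norm_eq_abs, abs_of_pos Real.pi_pos, mul_one] at h3
  rw [← div_eq_mul_inv, le_div_iff₀ (by positivity)]
  have hξ : (1 + |ξ|) ^ 3 ≤ 4 * (1 + |ξ| ^ 3) := by
    nlinarith [abs_nonneg ξ, mul_nonneg (add_nonneg zero_le_one (abs_nonneg ξ))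
      (sq_nonneg (|ξ| - 1))]
  have hξ3 : |ξ| ^ 3 ≤ (2 * π * |ξ|) ^ 3 := by
    refine pow_le_pow_left₀ (abs_nonneg ξ) ?_ 3
    exact le_mul_of_one_le_left (abs_nonneg ξ) (by linarith [Real.pi_gt_three])
  calc ‖𝓕 (heckeKernel s) ξ‖ * (1 + |ξ|) ^ 3
      ≤ ‖𝓕 (heckeKernel s) ξ‖ * (4 * (1 + (2 * π * |ξ|) ^ 3)) :=
        mul_le_mul_of_nonneg_left (hξ.trans (by linarith)) (norm_nonneg _)
    _ ≤ 4 * (128 + 1) * π := by nlinarith

/-- **The transform at `0` is `O (s)`.** -/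
theorem norm_fourier_heckeKernel_zero {s : ℝ} (hs : 0 ≤ s) :
    ‖𝓕 (heckeKernel s) 0‖ ≤ 2 * π * s := by
  obtain ⟨R, hR⟩ : ∃ R : ℝ → ℂ, ∀ t, R t =
      ((2 * s * t * (t ^ 2 + 1) ^ (-s) / (t ^ 2 + 1) : ℝ) : ℂ) / ((t : ℂ) + I) :=
    ⟨_, fun _ => rfl⟩
  have hRb : ∀ t, ‖R t‖ ≤ 2 * s * (1 + t ^ 2)⁻¹ := fun t => by
    have hp := Real.rpow_nonneg (by positivity : (0 : ℝ) ≤ t ^ 2 + 1) (-s)
    rw [hR, norm_div, Complex.norm_real, Real.norm_eq_abs, abs_div, abs_mul, abs_mul,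
      abs_of_nonneg (by positivity : (0 : ℝ) ≤ 2 * s), abs_of_nonneg hp,
      abs_of_pos (by positivity : (0 : ℝ) < t ^ 2 + 1), add_comm (1 : ℝ)]
    have h1 : |t| ≤ ‖(t : ℂ) + I‖ := by simpa using Complex.abs_re_le_norm ((t : ℂ) + I)
    rw [div_div, div_le_iff₀ (by have := one_le_norm_add_I t; positivity)]
    calc 2 * s * |t| * (t ^ 2 + 1) ^ (-s) ≤ 2 * s * ‖(t : ℂ) + I‖ * 1 :=
          mul_le_mul (mul_le_mul_of_nonneg_left h1 (by positivity)) (rpow_neg_le_one hs t) hp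
            (by positivity)
      _ = _ := by field_simp
  have hRc : Continuous R := by
    rw [funext hR]
    refine Continuous.div (Complex.continuous_ofReal.comp ?_) (by fun_prop) add_I_ne_zero
    exact Continuous.div (Continuous.mul (by fun_prop)
      (Continuous.rpow_const (by fun_prop) fun t => Or.inl (by positivity))) (by fun_prop)
      fun t => by positivity
  obtain ⟨Φ, hΦ⟩ : ∃ Φ : ℝ → ℂ,
      ∀ t, Φ t = -((((t ^ 2 + 1) ^ (-s) : ℝ) : ℂ) / ((t : ℂ) + I)) := ⟨_, fun _ => rfl⟩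
  have hd : ∀ t, HasDerivAt Φ (heckeKernel s t + R t) t := fun t => by
    rw [funext hΦ]
    have hne := add_I_ne_zero t
    have h2 : HasDerivAt (fun x : ℝ => (((x ^ 2 + 1) ^ (-s) : ℝ) : ℂ))
        (((2 * t * (-s) * (t ^ 2 + 1) ^ (-s - 1) : ℝ)) : ℂ) t := by
      refine (HasDerivAt.ofReal_comp ?_)
      simpa using ((hasDerivAt_pow 2 t).add_const 1).rpow_const (p := -s) (Or.inl (by positivity))
    refine (h2.div ((hasDerivAt_id t).ofReal_comp.add_const I) hne).neg.congr_deriv ?_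
    rw [hR, heckeKernel, Real.rpow_sub_one (by positivity)]
    simp
    field_simp
    ring
  have hlim : ∀ l : Filter ℝ, Tendsto (fun t => |t|) l atTop → Tendsto Φ l (𝓝 0) := fun l hl => by
    refine squeeze_zero_norm' ?_ hl.inv_tendsto_atTop
    filter_upwards [hl.eventually_gt_atTop 0] with t ht
    rw [hΦ, norm_neg, norm_div, Complex.norm_real,
      Real.norm_of_nonneg (Real.rpow_nonneg (by positivity) _), Pi.inv_apply, ← one_div]
    exact div_le_div₀ zero_le_one (rpow_neg_le_one hs t) ht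
      (by simpa using Complex.abs_re_le_norm ((t : ℂ) + I))
  have hRi := integrable_of_le hRc hRb
  have h0 := integral_of_hasDerivAt_of_tendsto hd ((integrable_heckeKernel hs).add hRi)
    (hlim _ tendsto_abs_atBot_atTop) (hlim _ tendsto_abs_atTop_atTop)
  rw [sub_zero, integral_add (integrable_heckeKernel hs) hRi, add_eq_zero_iff_eq_neg] at h0
  rw [Real.fourier_real_eq_integral_exp_smul]
  simp only [mul_zero, Complex.ofReal_zero, zero_mul, Complex.exp_zero, one_smul]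
  rw [h0, norm_neg]
  refine (norm_integral_le_integral_norm _).trans ?_
  refine (integral_mono_of_nonneg (Eventually.of_forall fun t => norm_nonneg _)
    (integrable_inv_one_add_sq.const_mul (2 * s)) (Eventually.of_forall hRb)).trans ?_
  rw [integral_const_mul, integral_univ_inv_one_add_sq]
  exact le_of_eq (by ring)

theorem tendsto_fourier_heckeKernel (ξ : ℝ) :
    Tendsto (fun s => 𝓕 (heckeKernel s) ξ) (𝓝[>] 0) (𝓝 (𝓕 (heckeKernel 0) ξ)) := by
  simp only [Real.fourier_real_eq_integral_exp_smul]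
  refine tendsto_integral_filter_of_dominated_convergence (fun t => (1 + t ^ 2)⁻¹) ?_ ?_
    integrable_inv_one_add_sq (Eventually.of_forall fun t => ?_)
  · exact Eventually.of_forall fun s =>
      ((by fun_prop : Continuous fun t : ℝ => Complex.exp (((-2 * π * t * ξ : ℝ) : ℂ) * I)).smul
        (continuous_heckeKernel s)).aestronglyMeasurable
  · filter_upwards [self_mem_nhdsWithin] with s hs
    refine Eventually.of_forall fun t => ?_
    rw [norm_smul, Complex.norm_exp_ofReal_mul_I, one_mul]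
    exact norm_heckeKernel_le (le_of_lt hs) t
  · refine Tendsto.const_smul ?_ _
    unfold heckeKernel
    refine Tendsto.const_mul _ ((Complex.continuous_ofReal.tendsto _).comp ?_)
    exact ((Real.continuousAt_const_rpow (by positivity)).tendsto.comp
      (tendsto_neg (0 : ℝ))).mono_left nhdsWithin_le_nhds

/-- **The transform at `s = 0`.** -/
theorem fourier_heckeKernel_limit (ξ : ℝ) :
    𝓕 (heckeKernel 0) ξ = -4 * (π : ℂ) ^ 2 * ramp 1 ((2 * π : ℝ) : ℂ) ξ := by
  obtain ⟨f, hf⟩ : ∃ f : ℝ → ℂ, f = ramp 1 ((2 * π : ℝ) : ℂ) := ⟨_, rfl⟩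
  have hfc : Continuous f := hf ▸ continuous_ramp _ _
  obtain ⟨C, hC0, hC⟩ := norm_ramp_le one_ne_zero (a := ((2 * π : ℝ) : ℂ)) (ε := 1)
    (by rw [Complex.ofReal_re]; linarith [Real.pi_gt_three])
  have hfi : Integrable f := by
    refine integrable_of_le (C := 2 * C) hfc fun t => ?_
    rw [hf]
    refine (hC t).trans ?_
    rw [mul_comm 2 C, mul_assoc]
    refine mul_le_mul_of_nonneg_left ?_ hC0
    rw [one_mul, ← div_eq_mul_inv, le_div_iff₀ (by positivity), Real.exp_neg,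
      inv_mul_le_iff₀ (Real.exp_pos _)]
    nlinarith [Real.quadratic_le_exp_of_nonneg (abs_nonneg t), sq_abs t, abs_nonneg t]
  have hFf : ∀ x : ℝ, 𝓕 f x = 1 / (2 * π + 2 * π * I * x) ^ 2 := fun x => by
    rw [Real.fourier_real_eq_integral_exp_smul, hf]
    have h := integral_ramp one_ne_zero (a := ((2 * π : ℝ) : ℂ))
      (by rw [Complex.ofReal_re]; positivity) x
    rw [Nat.factorial_one, Nat.cast_one] at h
    push_cast at h
    rw [← h]
    refine integral_congr_ae (Eventually.of_forall fun t => ?_)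
    simp only [smul_eq_mul]
    rw [mul_comm]
    push_cast
    ring_nf
  have hker : ∀ t : ℝ, heckeKernel 0 t = -4 * (π : ℂ) ^ 2 * 𝓕 f (-t) := fun t => by
    rw [heckeKernel, hFf]
    have hπ : (π : ℂ) ≠ 0 := Complex.ofReal_ne_zero.2 Real.pi_ne_zero
    have hne := add_I_ne_zero t
    have e : (2 * (π : ℂ) + 2 * π * I * ((-t : ℝ) : ℂ)) = -2 * π * I * ((t : ℂ) + I) := by
      push_cast
      linear_combination (2 * (π : ℂ)) * Complex.I_sq
    rw [e, neg_zero, Real.rpow_zero, Complex.ofReal_one, mul_one, mul_pow]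
    field_simp
    linear_combination (4 : ℂ) * Complex.I_sq
  have hFi : Integrable (𝓕 f) := by
    have e : 𝓕 f = fun x => (-4 * (π : ℂ) ^ 2)⁻¹ * heckeKernel 0 (-x) := funext fun x => by
      rw [hker, neg_neg, ← mul_assoc, inv_mul_cancel₀ (by simp [Real.pi_ne_zero]), one_mul]
    rw [e]
    exact ((integrable_heckeKernel le_rfl).comp_neg).const_mul _
  have hinv : ∫ t : ℝ, Complex.exp (((2 * π * t * ξ : ℝ) : ℂ) * I) • 𝓕 f t = f ξ := by
    have h := congrFun (hfc.fourierInv_fourier_eq hfi hFi) ξ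
    rw [Real.fourierInv_eq_fourier_neg, Real.fourier_real_eq_integral_exp_smul] at h
    rw [← h]
    congr 1
    funext t
    ring_nf
  rw [← hf, ← hinv, Real.fourier_real_eq_integral_exp_smul, ← integral_neg_eq_self,
    ← integral_const_mul]
  refine integral_congr_ae (Eventually.of_forall fun t => ?_)
  simp only [hker, neg_neg, smul_eq_mul]
  push_cast
  ring_nf

end FA.SiegelKlingen

end
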