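import Fermat.Agent.HeckeFE.Classes
import Mathlib.Analysis.PSeries

/-!
# Sums over an ideal of a totally real field

Representatives modulo units have all conjugates bounded below, and a sum of `∏ 1 / (1 + x_w²)` over
a translate of an ideal is bounded independently of the translate.
-/

set_option autoImplicit false
set_option linter.style.haveILetI false

noncomputable section

open NumberField InfinitePlace NumberField.mixedEmbedding Module Set Filter
open NumberField.Units.dirichletUnitTheorem (w₀)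
open scoped Real nonZeroDivisors Classical

namespace FA.SiegelKlingen

open FA.HeckeFE

variable {K : Type*} [Field K] [NumberField K] [IsTotallyReal K]

/-- The real embedding at a place. -/
def remb (w : InfinitePlace K) : K →+* ℝ := embedding_of_isReal (IsTotallyReal.isReal w)

omit [NumberField K] in
theorem abs_remb (w : InfinitePlace K) (x : K) : |remb w x| = w x :=
  norm_embedding_of_isReal _ x

omit [NumberField K] in
theorem remb_ne_zero (w : InfinitePlace K) {x : K} (hx : x ≠ 0) : remb w x ≠ 0 :=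
  (map_ne_zero _).2 hx

theorem prod_abs_remb (x : K) : ∏ w, |remb w x| = ((|Algebra.norm ℚ x| : ℚ) : ℝ) := by
  rw [← prod_eq_abs_norm x]
  exact Finset.prod_congr rfl fun w _ => by rw [IsTotallyReal.mult_eq, pow_one, abs_remb]

theorem card_places : Fintype.card (InfinitePlace K) = finrank ℚ K := by
  rw [← sum_mult_eq (K := K)]
  simp

theorem sum_remb (x : K) : ∑ w, remb w x = ((Algebra.trace ℚ K x : ℚ) : ℝ) := by
  have h1 : ((Algebra.trace ℚ K x : ℚ) : ℂ) = ∑ φ : K →+* ℂ, φ x := by
    rw [← eq_ratCast (algebraMap ℚ ℂ), trace_eq_sum_embeddings ℂ]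
    exact Fintype.sum_equiv (RingHom.equivRatAlgHom K ℂ).symm _ _ fun σ => rfl
  have h2 : ∑ φ : K →+* ℂ, φ x = ∑ w : InfinitePlace K, ((remb w x : ℝ) : ℂ) := by
    rw [← Finset.sum_fiberwise Finset.univ InfinitePlace.mk fun φ => φ x]
    refine Finset.sum_congr rfl fun w _ => ?_
    have h : (Finset.univ.filter fun φ : K →+* ℂ => InfinitePlace.mk φ = w) = {w.embedding} := by
      ext φ
      rw [Finset.mem_filter, Finset.mem_singleton]
      refine ⟨fun hφ => ?_, fun hφ => ⟨Finset.mem_univ _, by rw [hφ, mk_embedding]⟩⟩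
      rw [← hφ.2, embedding_mk_eq_of_isReal (IsTotallyReal.complexEmbedding_isReal φ)]
    rw [h, Finset.sum_singleton, remb, embedding_of_isReal_apply]
  rw [h2, ← Complex.ofReal_sum, ← Complex.ofReal_ratCast] at h1
  exact (Complex.ofReal_injective h1).symm

variable (I : (FractionalIdeal (𝓞 K)⁰ K)ˣ)

omit [IsTotallyReal K] in
theorem one_le_ratio_rep (a : Rep I) : 1 ≤ ratio I a.1 := by
  obtain ⟨e, he⟩ := exists_rep_equiv I
  rw [he, Nat.one_le_cast]
  exact Nat.pos_of_ne_zero (Ideal.absNorm_ne_zero_of_nonZeroDivisors _)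

omit [IsTotallyReal K] in
theorem normR_mul_ratio (x : K) : normR I * ratio I x = ((|Algebra.norm ℚ x| : ℚ) : ℝ) := by
  rw [ratio, mul_div_cancel₀ _ (normR_pos I).ne']

omit [IsTotallyReal K] in
theorem unit_norm (u : (𝓞 K)ˣ) : |Algebra.norm ℚ ((u : 𝓞 K) : K)| = 1 := Units.norm K u

omit [IsTotallyReal K] in
/-- Non-zero elements of an ideal have norm at least that of the ideal. -/
theorem normR_le_norm {x : K} (hx : x ∈ (I : Set K)) (hx0 : x ≠ 0) :
    normR I ≤ ((|Algebra.norm ℚ x| : ℚ) : ℝ) := by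
  obtain ⟨⟨a, m⟩, h⟩ := (unfoldMap_bijective I).2 ⟨x, hx, hx0⟩
  have e : x = ((unitPow m : 𝓞 K) : K) * a.1 := (congrArg Subtype.val h).symm
  rw [e, map_mul, abs_mul, unit_norm, one_mul, ← normR_mul_ratio I]
  exact le_mul_of_one_le_right (normR_pos I).le (one_le_ratio_rep I a)

/-- The representatives are balanced. -/
theorem exists_rep_lower_bound : ∃ δ : ℝ, 0 < δ ∧ ∀ (a : Rep I) (w : InfinitePlace K),
    δ ≤ |remb w a.1| := by
  obtain ⟨M, hM⟩ := isBounded_iff_forall_norm_le.1 (ZSpan.fundamentalDomain_isBounded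
    ((NumberField.Units.basisUnitLattice K).ofZLatticeBasis ℝ
      (NumberField.Units.unitLattice K)))
  obtain ⟨r, hr⟩ : ∃ r : ℝ, r = (finrank ℚ K : ℝ) := ⟨_, rfl⟩
  have hr0 : 0 < r := hr ▸ finrankR_pos
  refine ⟨Real.exp (Real.log (normR I) * r⁻¹ - r * |M|), Real.exp_pos _, fun a w => ?_⟩
  obtain ⟨x, hx⟩ : ∃ x : K, x = a.1 := ⟨_, rfl⟩
  have hx0 : x ≠ 0 := hx ▸ Rep.ne_zero I a
  rw [← hx, abs_remb, ← Real.le_log_iff_exp_le (pos_iff.2 hx0)]
  obtain ⟨L, hL⟩ : ∃ L : ℝ, L = Real.log (mixedEmbedding.norm (mixedEmbedding K x)) := ⟨_, rfl⟩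
  have hLge : Real.log (normR I) ≤ L := by
    rw [hL, mixedEmbedding.norm_eq_norm]
    exact Real.log_le_log (normR_pos I) (normR_le_norm I (hx ▸ a.2.1) hx0)
  have hb : ∀ v : {v : InfinitePlace K // v ≠ w₀}, |Real.log (v.1 x) - L * r⁻¹| ≤ |M| := fun v => by
    have h := (norm_le_pi_norm _ v).trans (hM _ (hx ▸ a.2.2.1))
    rw [logMap_apply, normAtPlace_apply, IsTotallyReal.mult_eq, Nat.cast_one, one_mul,
      Real.norm_eq_abs, ← hL, ← hr] at h
    exact h.trans (le_abs_self M)
  have hsum : ∑ v : InfinitePlace K, (Real.log (v x) - L * r⁻¹) = 0 := by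
    rw [Finset.sum_sub_distrib, Finset.sum_const, Finset.card_univ, card_places, nsmul_eq_mul,
      ← hr, mul_left_comm, mul_inv_cancel₀ hr0.ne', mul_one,
      ← Real.log_prod fun v _ => (pos_iff.2 hx0).ne', sub_eq_zero, hL,
      mixedEmbedding.norm_eq_norm, ← prod_abs_remb]
    simp only [abs_remb]
  have h1 : |Real.log (w x) - L * r⁻¹| ≤ r * |M| := by
    have hr1 : 1 ≤ r := hr ▸ Nat.one_le_cast.2 finrank_pos
    by_cases hw : w = w₀
    · subst hw
      rw [← Finset.add_sum_erase _ _ (Finset.mem_univ w₀), add_eq_zero_iff_eq_neg] at hsum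
      rw [hsum, abs_neg]
      refine (Finset.abs_sum_le_sum_abs _ _).trans ?_
      refine (Finset.sum_le_card_nsmul _ _ |M|
        fun v hv => hb ⟨v, Finset.ne_of_mem_erase hv⟩).trans ?_
      rw [nsmul_eq_mul, hr, ← card_places]
      exact mul_le_mul_of_nonneg_right
        (Nat.cast_le.2 ((Finset.card_le_univ _).trans le_rfl)) (abs_nonneg M)
    · exact (hb ⟨w, hw⟩).trans (le_mul_of_one_le_left (abs_nonneg M) hr1)
  have h2 := mul_le_mul_of_nonneg_right hLge (inv_nonneg.2 hr0.le)
  linarith [(abs_le.1 h1).1]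

/-- The weight `∏ 1 / (1 + t_w²)`. -/
def placeWeight (t : InfinitePlace K → ℝ) : ℝ := ∏ w, (1 + t w ^ 2)⁻¹

omit [IsTotallyReal K] in
theorem placeWeight_nonneg (t : InfinitePlace K → ℝ) : 0 ≤ placeWeight t :=
  Finset.prod_nonneg fun w _ => by positivity

theorem finite_small : {x : K | x ∈ (I : Set K) ∧ ∀ w : InfinitePlace K, w x < 1}.Finite := by
  have h := (summable_theta I (y := fun _ => (1 : ℝ)) fun _ => one_pos).tendsto_cofinite_zero
    |>.eventually (gt_mem_nhds (Real.exp_pos (-π * Fintype.card (InfinitePlace K))))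
  rw [Filter.eventually_cofinite] at h
  refine (h.image fun x : (I : Set K) => (x : K)).subset fun x hx => ?_
  refine ⟨⟨x, hx.1⟩, ?_, rfl⟩
  show ¬ _ < _
  rw [not_lt]
  refine Real.exp_le_exp.2 (mul_le_mul_of_nonpos_left ?_ (neg_nonpos.2 Real.pi_pos.le))
  rw [qform, ← Finset.card_univ, Finset.cast_card]
  refine Finset.sum_le_sum fun w _ => ?_
  rw [IsTotallyReal.mult_eq, Nat.cast_one, one_mul, one_mul]
  exact pow_le_one₀ (apply_nonneg w x) (hx.2 w).le

omit [IsTotallyReal K] in
theorem summable_floor_weight : Summable fun j : InfinitePlace K → ℤ =>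
    placeWeight fun w => (j w : ℝ) := by
  refine summable_pi_prod (f := fun k : ℤ => (1 + (k : ℝ) ^ 2)⁻¹) (fun k => by positivity) ?_
  refine Summable.of_norm_bounded_eventually (Real.summable_one_div_int_pow.2 one_lt_two) ?_
  filter_upwards [(Set.finite_singleton (0 : ℤ)).compl_mem_cofinite] with k hk
  have hk0 : (0 : ℝ) < (k : ℝ) ^ 2 := by
    have : (k : ℝ) ≠ 0 := Int.cast_ne_zero.2 hk
    positivity
  rw [Real.norm_of_nonneg (by positivity), one_div]
  exact inv_anti₀ hk0 (by linarith)

/-- **Boundedness over the translates.** -/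
theorem exists_translate_bound : ∃ C : ℝ, 0 ≤ C ∧ ∀ t : InfinitePlace K → ℝ,
    (Summable fun x : (I : Set K) => placeWeight fun w => t w + remb w (x : K)) ∧
      ∑' x : (I : Set K), placeWeight (fun w => t w + remb w (x : K)) ≤ C := by
  obtain ⟨B, hB⟩ : ∃ B : Finset K, ∀ x, x ∈ B ↔ x ∈ (I : Set K) ∧ ∀ w : InfinitePlace K, w x < 1 :=
    ⟨(finite_small I).toFinset, fun x => (finite_small I).mem_toFinset⟩
  obtain ⟨S, hS⟩ : ∃ S : ℝ, S = ∑' j : InfinitePlace K → ℤ, placeWeight fun w => (j w : ℝ) :=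
    ⟨_, rfl⟩
  have hS0 : 0 ≤ S := hS ▸ tsum_nonneg fun j => placeWeight_nonneg _
  refine ⟨3 ^ Fintype.card (InfinitePlace K) * B.card * S, by positivity, fun t => ?_⟩
  have hbd : ∀ s : Finset (I : Set K),
      ∑ x ∈ s, placeWeight (fun w => t w + remb w (x : K)) ≤
        3 ^ Fintype.card (InfinitePlace K) * B.card * S := fun s => by
    obtain ⟨g, hg⟩ : ∃ g : ↥(I : Set K) → InfinitePlace K → ℤ,
        ∀ x w, g x w = ⌊t w + remb w (x : K)⌋ := ⟨_, fun _ _ => rfl⟩
    have hfib : ∀ j, (s.filter fun x => g x = j).card ≤ B.card := fun j => by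
      rcases (s.filter fun x => g x = j).eq_empty_or_nonempty with h | ⟨x₀, h₀⟩
      · rw [h, Finset.card_empty]
        exact Nat.zero_le _
      refine Finset.card_le_card_of_injOn (fun x => (x : K) - (x₀ : K)) (fun x hx => ?_) ?_
      · rw [Finset.mem_coe, hB]
        refine ⟨((I : FractionalIdeal (𝓞 K)⁰ K) : Submodule (𝓞 K) K).sub_mem x.2 x₀.2, fun w => ?_⟩
        rw [← abs_remb, map_sub]
        have e : g x w = g x₀ w := by
          rw [(Finset.mem_filter.1 hx).2, (Finset.mem_filter.1 h₀).2]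
        rw [hg, hg] at e
        have := Int.abs_sub_lt_one_of_floor_eq_floor e
        rwa [add_sub_add_left_eq_sub] at this
      · intro x _ y _ h
        exact Subtype.ext (sub_left_injective h)
    have hterm : ∀ x : ↥(I : Set K), placeWeight (fun w => t w + remb w (x : K)) ≤
        3 ^ Fintype.card (InfinitePlace K) * placeWeight (fun w => (g x w : ℝ)) := fun x => by
      rw [placeWeight, placeWeight, ← Finset.card_univ, ← Finset.prod_const,
        ← Finset.prod_mul_distrib]
      refine Finset.prod_le_prod (fun w _ => by positivity) fun w _ => ?_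
      rw [hg, ← div_eq_mul_inv, le_div_iff₀ (by positivity), inv_mul_le_iff₀ (by positivity)]
      nlinarith [Int.floor_le (t w + remb w (x : K)), Int.lt_floor_add_one (t w + remb w (x : K)),
        sq_nonneg (t w + remb w (x : K)), sq_nonneg (2 * (t w + remb w (x : K)) -
          (⌊t w + remb w (x : K)⌋ : ℝ))]
    calc ∑ x ∈ s, placeWeight (fun w => t w + remb w (x : K))
        ≤ ∑ x ∈ s, 3 ^ Fintype.card (InfinitePlace K) * placeWeight (fun w => (g x w : ℝ)) :=
          Finset.sum_le_sum fun x _ => hterm x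
      _ = 3 ^ Fintype.card (InfinitePlace K) * ∑ j ∈ s.image g,
            ((s.filter fun x => g x = j).card : ℝ) * placeWeight fun w => (j w : ℝ) := by
          rw [← Finset.mul_sum]
          congr 1
          rw [← Finset.sum_fiberwise_of_maps_to (t := s.image g)
            fun x hx => Finset.mem_image_of_mem g hx]
          refine Finset.sum_congr rfl fun j _ => ?_
          rw [Finset.sum_congr rfl fun x hx => show placeWeight (fun w => (g x w : ℝ)) =
            placeWeight fun w => (j w : ℝ) by rw [(Finset.mem_filter.1 hx).2],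
            Finset.sum_const, nsmul_eq_mul]
      _ ≤ 3 ^ Fintype.card (InfinitePlace K) * ∑ j ∈ s.image g,
            (B.card : ℝ) * placeWeight fun w => (j w : ℝ) := by
          gcongr with j
          · exact placeWeight_nonneg _
          · exact hfib j
      _ ≤ _ := by
          rw [← Finset.mul_sum, mul_assoc, hS]
          gcongr
          exact summable_floor_weight.sum_le_tsum _ fun j _ => placeWeight_nonneg _
  exact ⟨summable_of_sum_le (fun x => placeWeight_nonneg _) hbd,
    Real.tsum_le_of_sum_le (fun x => placeWeight_nonneg _) hbd⟩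

end FA.SiegelKlingen

end
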