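import Fermat.Agent.SiegelKlingen.Lattice
import Fermat.Agent.PackingLP.Poisson
import Fermat.Agent.WeilExplicit.Laplace
import Mathlib.Analysis.Complex.UpperHalfPlane.Basic

/-!
# Lipschitz's formula for an ideal

Poisson summation applied to `∏ t_w^(k-1) exp (2 π i z_w t_w)` on an orthant turns the sum of
`∏ (c_w z + d_w)^(-k)` over an ideal into a series over the totally positive multiples of the dual.
-/

set_option autoImplicit false
set_option linter.unusedSectionVars false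
set_option linter.style.haveILetI false

noncomputable section

open NumberField InfinitePlace Module MeasureTheory Matrix UnitAddTorus
open UpperHalfPlane (coe_im)
open Complex (I)
open scoped Real nonZeroDivisors Classical Nat UpperHalfPlane

namespace FA.SiegelKlingen

open FA.HeckeFE
open FA.PackingLP (HasDecay radialWeight poisson_decay)

/-- `t ↦ t₊^j exp (-a t₊)`. -/
def ramp (j : ℕ) (a : ℂ) (r : ℝ) : ℂ :=
  ((max r 0 : ℝ) : ℂ) ^ j * Complex.exp (-a * ((max r 0 : ℝ) : ℂ))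

theorem ramp_of_nonneg (j : ℕ) (a : ℂ) {r : ℝ} (hr : 0 ≤ r) :
    ramp j a r = (r : ℂ) ^ j * Complex.exp (-a * r) := by
  rw [ramp, max_eq_left hr]

theorem ramp_of_nonpos {j : ℕ} (hj : j ≠ 0) (a : ℂ) {r : ℝ} (hr : r ≤ 0) : ramp j a r = 0 := by
  rw [ramp, max_eq_right hr, Complex.ofReal_zero, zero_pow hj, zero_mul]

theorem continuous_ramp (j : ℕ) (a : ℂ) : Continuous (ramp j a) := by
  unfold ramp
  fun_prop

/-- `(1 + P r) ^ m` against an exponential. -/
theorem pow_mul_exp_le {ε P : ℝ} (hε : 0 < ε) (hP : 0 < P) (m : ℕ) :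
    ∃ C : ℝ, ∀ r : ℝ, 0 ≤ r → (1 + P * r) ^ m * Real.exp (-(ε * r)) ≤ C := by
  refine ⟨m ! * (P / ε) ^ m * Real.exp (ε / P), fun r hr => ?_⟩
  have h := Real.pow_div_factorial_le_exp (x := ε * (r + 1 / P)) (by positivity) m
  rw [div_le_iff₀ (by positivity)] at h
  rw [show 1 + P * r = (P / ε) * (ε * (r + 1 / P)) by field_simp; ring, mul_pow]
  calc (P / ε) ^ m * (ε * (r + 1 / P)) ^ m * Real.exp (-(ε * r))
      ≤ (P / ε) ^ m * (Real.exp (ε * (r + 1 / P)) * m !) * Real.exp (-(ε * r)) := by gcongr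
    _ = _ := by
        rw [show ε * (r + 1 / P) = ε * r + ε / P by ring, Real.exp_add, Real.exp_neg]
        field_simp

theorem norm_ramp_le {j : ℕ} (hj : j ≠ 0) {a : ℂ} {ε : ℝ} (ha : ε < a.re) :
    ∃ C : ℝ, 0 ≤ C ∧ ∀ r : ℝ, ‖ramp j a r‖ ≤ C * Real.exp (-(ε * |r|)) := by
  obtain ⟨C, hC⟩ := pow_mul_exp_le (sub_pos.2 ha) one_pos j
  refine ⟨max C 0, le_max_right _ _, fun r => ?_⟩
  rcases le_total r 0 with hr | hr
  · rw [ramp_of_nonpos hj a hr, norm_zero]
    positivity
  · rw [ramp_of_nonneg j a hr, WeilExplicit.norm_pow_mul_cexp j a hr, abs_of_nonneg hr,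
      show -a.re * r = -((a.re - ε) * r) + -(ε * r) by ring, Real.exp_add, ← mul_assoc]
    refine mul_le_mul_of_nonneg_right (le_trans ?_ ((hC r hr).trans (le_max_left _ _)))
      (Real.exp_pos _).le
    gcongr
    linarith

theorem integral_ramp {j : ℕ} (hj : j ≠ 0) {a : ℂ} (ha : 0 < a.re) (ξ : ℝ) :
    ∫ r : ℝ, ramp j a r * Complex.exp (-(2 * π * I) * ξ * r) =
      (j ! : ℂ) / (a + 2 * π * I * ξ) ^ (j + 1) := by
  rw [← setIntegral_eq_integral_of_forall_compl_eq_zero (s := Set.Ioi 0)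
    (f := fun r => ramp j a r * Complex.exp (-(2 * π * I) * ξ * r)) fun r hr => by
      rw [ramp_of_nonpos hj a (not_lt.1 hr), zero_mul],
    ← WeilExplicit.integral_pow_mul_cexp j (a := a + 2 * π * I * ξ) (by simpa using ha)]
  refine setIntegral_congr_fun measurableSet_Ioi fun r hr => ?_
  rw [ramp_of_nonneg j a (le_of_lt hr), mul_assoc, ← Complex.exp_add]
  ring_nf

theorem integral_ramp_sign {j : ℕ} (hj : j ≠ 0) {a : ℂ} (ha : 0 < a.re) {s : ℝ}
    (hs : s = 1 ∨ s = -1) (ξ : ℝ) :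
    ∫ r : ℝ, ramp j a (s * r) * Complex.exp (-(2 * π * I) * ξ * r) =
      (j ! : ℂ) / (a + 2 * π * I * (s * ξ : ℝ)) ^ (j + 1) := by
  rcases hs with rfl | rfl
  · simp only [one_mul]
    exact integral_ramp hj ha ξ
  · rw [← integral_neg_eq_self, ← integral_ramp hj ha (-1 * ξ)]
    refine integral_congr_ae (Filter.Eventually.of_forall fun r => ?_)
    simp only [neg_one_mul, neg_neg]
    push_cast
    ring_nf

variable {K : Type*} [Field K] [NumberField K] [IsTotallyReal K]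

/-- `∏ (c_w z + d_w) ^ (-k)`. -/
def eisTerm (k : ℕ) (z : ℂ) (c d : K) : ℂ :=
  (∏ w : InfinitePlace K, ((remb w c : ℂ) * z + (remb w d : ℂ)) ^ k)⁻¹

/-- The size of a term. -/
theorem norm_eisTerm_le {k : ℕ} (hk : 2 ≤ k) {z : ℂ} (hz : 0 < z.im) {δ : ℝ} (hδ : 0 < δ) {c : K}
    (hc : ∀ w, δ ≤ |remb w c|) (d : K) :
    ‖eisTerm k z c d‖ ≤
      ((((|Algebra.norm ℚ c| : ℚ) : ℝ) * z.im ^ finrank ℚ K) ^ (k - 2) *
        min 1 ((δ * z.im) ^ 2) ^ finrank ℚ K)⁻¹ *
          placeWeight fun w => remb w c * z.re + remb w d := by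
  obtain ⟨μ, hμ⟩ : ∃ μ, μ = min 1 ((δ * z.im) ^ 2) := ⟨_, rfl⟩
  have hμ0 : 0 < μ := hμ ▸ lt_min one_pos (by positivity)
  rw [← hμ, eisTerm, norm_inv, norm_prod, placeWeight, Finset.prod_inv_distrib, ← mul_inv,
    ← prod_abs_remb, ← card_places, ← Finset.card_univ, ← Finset.prod_const, ← Finset.prod_const,
    ← Finset.prod_mul_distrib, ← Finset.prod_pow, ← Finset.prod_mul_distrib,
    ← Finset.prod_mul_distrib]
  have hpos : ∀ w, 0 < |remb w c| := fun w => hδ.trans_le (hc w)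
  refine inv_anti₀ (Finset.prod_pos fun w _ => by have := hpos w; positivity)
    (Finset.prod_le_prod (fun w _ => by positivity) fun w _ => ?_)
  have hre : ((remb w c : ℂ) * z + (remb w d : ℂ)).re = remb w c * z.re + remb w d := by simp
  have him : ((remb w c : ℂ) * z + (remb w d : ℂ)).im = remb w c * z.im := by simp
  obtain ⟨u, hu⟩ : ∃ u : ℂ, u = (remb w c : ℂ) * z + (remb w d : ℂ) := ⟨_, rfl⟩
  rw [← hu] at hre him ⊢
  rw [norm_pow, ← hre]
  have h1 : |remb w c| * z.im ≤ ‖u‖ := by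
    rw [← abs_of_pos hz, ← abs_mul, ← him]
    exact Complex.abs_im_le_norm u
  have h2 : μ * (1 + u.re ^ 2) ≤ ‖u‖ ^ 2 := by
    have hb : μ ≤ u.im ^ 2 := by
      rw [him, ← sq_abs (_ * _), abs_mul, abs_of_pos hz]
      exact (hμ ▸ min_le_right _ _).trans (by gcongr; exact hc w)
    rw [← Complex.normSq_eq_norm_sq, Complex.normSq_apply]
    nlinarith [mul_le_mul_of_nonneg_right (hμ ▸ min_le_left 1 _ : μ ≤ 1) (sq_nonneg u.re)]
  calc (|remb w c| * z.im) ^ (k - 2) * μ * (1 + u.re ^ 2)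
      = (|remb w c| * z.im) ^ (k - 2) * (μ * (1 + u.re ^ 2)) := by ring
    _ ≤ ‖u‖ ^ (k - 2) * ‖u‖ ^ 2 := by gcongr
    _ = ‖u‖ ^ k := by rw [← pow_add, Nat.sub_add_cancel hk]

/-- The coefficient at `ν`: `|N ν| ^ (k - 1)` when `c ν` is totally positive. -/
def coef (k : ℕ) (c ν : K) : ℚ :=
  if ∀ w : InfinitePlace K, 0 < remb w c * remb w ν then |Algebra.norm ℚ ν| ^ (k - 1) else 0

/-- The common factor of the coefficients. -/
def factor (J : (FractionalIdeal (𝓞 K)⁰ K)ˣ) (k : ℕ) : ℂ :=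
  (-(2 * π * I)) ^ (k * finrank ℚ K) /
    (((k - 1)! : ℂ) ^ finrank ℚ K * ((normR J * √|((discr K : ℤ) : ℝ)| : ℝ) : ℂ))

variable (J : (FractionalIdeal (𝓞 K)⁰ K)ˣ)

/-- A basis indexed by `Fin n` and the places indexed likewise. -/
theorem exists_fin_data : ∃ (n : ℕ) (b : Basis (Fin n) ℚ K) (_ : Fin n ≃ InfinitePlace K),
    (∀ x, x ∈ (J : Set K) ↔ x ∈ Submodule.span ℤ (Set.range b)) ∧
    (∀ x, x ∈ (dualIdeal J : Set K) ↔ x ∈ Submodule.span ℤ (Set.range b.traceDual)) ∧
    |((Algebra.discr ℚ b : ℚ) : ℝ)| = normR J ^ 2 * |((discr K : ℤ) : ℝ)| := by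
  have hcard : Fintype.card (Free.ChooseBasisIndex ℤ J) = finrank ℚ K :=
    (Module.finrank_eq_card_basis (basisOfFractionalIdeal K J)).symm
  obtain ⟨e, -⟩ : ∃ e : Free.ChooseBasisIndex ℤ J ≃ Fin (finrank ℚ K), True :=
    ⟨Fintype.equivFinOfCardEq hcard, trivial⟩
  obtain ⟨b, hb⟩ : ∃ b, b = (basisOfFractionalIdeal K J).reindex e := ⟨_, rfl⟩
  have hspan : ∀ x, x ∈ (J : Set K) ↔ x ∈ Submodule.span ℤ (Set.range b) := fun x => by
    rw [hb, Basis.range_reindex, mem_span_basisOfFractionalIdeal]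
  refine ⟨finrank ℚ K, b, (Fintype.equivFinOfCardEq card_places).symm, hspan, fun x => ?_, ?_⟩
  · rw [← Submodule.traceDual_span_of_basis ℤ ((J : FractionalIdeal (𝓞 K)⁰ K) :
      Submodule (𝓞 K) K) b (Submodule.ext fun z => hspan z), SetLike.mem_coe, coe_dualIdeal,
      Submodule.restrictScalars_mem, ← FractionalIdeal.coe_dual ℤ ℚ J.ne_zero]
    rfl
  · rw [← abs_discr_basis J, hb, Basis.coe_reindex, Algebra.discr_reindex]

/-- **Lipschitz's formula.** -/
theorem lipschitz_ideal {k : ℕ} (hk : Even k) (hk2 : 2 ≤ k) {c : K} (hc : c ≠ 0) (τ : ℍ) :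
    Summable (fun d : ↥(J : Set K) => eisTerm k τ c d) ∧
    HasSum (fun ν : ↥(dualIdeal J : Set K) => (coef k c ν : ℂ) *
      Complex.exp (2 * π * I * τ * ((Algebra.trace ℚ K (c * ν) : ℚ) : ℂ)))
      ((factor J k)⁻¹ * ∑' d : ↥(J : Set K), eisTerm k τ c d) := by
  obtain ⟨n, b, e, hI, hI', hdisc⟩ := exists_fin_data J
  have hn : finrank ℚ K = n := by rw [Module.finrank_eq_card_basis b, Fintype.card_fin]
  obtain ⟨δ, hδ, hcδ⟩ : ∃ δ, 0 < δ ∧ ∀ w, δ ≤ |remb w c| := by
    have hne : (Finset.univ : Finset (InfinitePlace K)).Nonempty := Finset.univ_nonempty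
    exact ⟨Finset.univ.inf' hne fun w => |remb w c|,
      (Finset.lt_inf'_iff hne).2 fun w _ => abs_pos.2 (remb_ne_zero w hc),
      fun w => Finset.inf'_le _ (Finset.mem_univ w)⟩
  have hT : Summable fun d : ↥(J : Set K) => eisTerm k τ c d := by
    obtain ⟨C, -, hC⟩ := exists_translate_bound J
    exact Summable.of_norm_bounded ((hC fun w => remb w c * (τ : ℂ).re).1.mul_left _)
      fun d => norm_eisTerm_le hk2 τ.im_pos hδ hcδ d
  refine ⟨hT, ?_⟩
  obtain ⟨M, hM⟩ : ∃ M : Matrix (Fin n) (Fin n) ℝ,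
      M = Matrix.of fun j i => remb (e j) (b.traceDual i) := ⟨_, rfl⟩
  obtain ⟨N, hNdef⟩ : ∃ N : Matrix (Fin n) (Fin n) ℝ, N = Matrix.of fun j i => remb (e j) (b i) :=
    ⟨_, rfl⟩
  have htr : ∀ x y : K, ∑ j, remb (e j) x * remb (e j) y =
      ((Algebra.trace ℚ K (x * y) : ℚ) : ℝ) := fun x y => by
    rw [← sum_remb, ← e.sum_comp fun w => remb w (x * y)]
    simp only [map_mul]
  have hNM : Nᵀ * M = 1 := by
    ext i l
    rw [Matrix.mul_apply, Matrix.one_apply, hM, hNdef]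
    simp only [Matrix.transpose_apply, Matrix.of_apply]
    rw [htr, mul_comm, b.trace_traceDual_mul l i]
    by_cases h : i = l <;> simp [h]
  have hdetN : |N.det| = normR J * √|((discr K : ℤ) : ℝ)| := by
    have e1 : Nᵀ * N = (Algebra.traceMatrix ℚ b).map (algebraMap ℚ ℝ) := by
      ext i l
      rw [Matrix.mul_apply, hNdef]
      simp only [Matrix.transpose_apply, Matrix.of_apply, Matrix.map_apply,
        Algebra.traceMatrix_apply, Algebra.traceForm_apply, eq_ratCast]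
      exact htr _ _
    have e2 := congrArg Matrix.det e1
    rw [det_mul, det_transpose, ← RingHom.mapMatrix_apply, ← RingHom.map_det, eq_ratCast,
      ← Algebra.discr_def] at e2
    rw [← Real.sqrt_mul_self_eq_abs N.det, e2, ← abs_of_nonneg
      (e2 ▸ mul_self_nonneg N.det : (0 : ℝ) ≤ ((Algebra.discr ℚ b : ℚ) : ℝ)), hdisc,
      Real.sqrt_mul (sq_nonneg _), Real.sqrt_sq (normR_pos J).le]
  have hdetM : M.det ≠ 0 := fun h => by
    have := congrArg Matrix.det hNM
    simp [h] at this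
  have hdetMN : |M.det|⁻¹ = |N.det| := by
    refine inv_eq_of_mul_eq_one_left ?_
    rw [← abs_mul, ← det_transpose N, ← det_mul, hNM, det_one, abs_one]
  obtain ⟨s, hs, hsc⟩ : ∃ s : Fin n → ℝ, (∀ j, s j = 1 ∨ s j = -1) ∧
      ∀ j, s j * remb (e j) c = |remb (e j) c| := by
    refine ⟨fun j => if 0 < remb (e j) c then 1 else -1, fun j => ?_, fun j => ?_⟩ <;> simp only
    · split_ifs <;> simp
    · split_ifs with h
      · rw [one_mul, abs_of_pos h]
      · rw [neg_one_mul, abs_of_nonpos (not_lt.1 h)]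
  have hss : ∀ j, s j * s j = 1 := fun j => by rcases hs j with h | h <;> simp [h]
  obtain ⟨a, ha⟩ : ∃ a : Fin n → ℂ,
      ∀ j, a j = -(2 * π * I) * ((|remb (e j) c| : ℝ) : ℂ) * τ := ⟨_, fun _ => rfl⟩
  have hare : ∀ j, (a j).re = 2 * π * |remb (e j) c| * τ.im := fun j => by
    rw [ha, ← coe_im]
    simp
  have hε : 0 < π * δ * τ.im := by
    have := τ.im_pos
    positivity
  have hεre : ∀ j, π * δ * τ.im < (a j).re := fun j => by
    have h1 : π * δ * τ.im ≤ π * |remb (e j) c| * τ.im :=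
      mul_le_mul_of_nonneg_right (mul_le_mul_of_nonneg_left (hcδ _) Real.pi_pos.le) τ.im_pos.le
    rw [hare]
    linarith
  have hk1 : k - 1 ≠ 0 := by omega
  obtain ⟨H, hH⟩ : ∃ H : (Fin n → ℝ) → ℂ,
      ∀ x, H x = ∏ j, ramp (k - 1) (a j) (s j * (M *ᵥ x) j) := ⟨_, fun _ => rfl⟩
  have hHc : Continuous H := by
    rw [funext hH]
    refine continuous_finsetProd _ fun j _ => (continuous_ramp _ _).comp ?_
    unfold Matrix.mulVec dotProduct
    fun_prop
  have hHd : HasDecay H := by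
    choose C hC0 hC using fun j => norm_ramp_le hk1 (hεre j)
    obtain ⟨P, hP⟩ : ∃ P : ℝ, P = (n + 1) * (1 + ∑ j, ∑ i, |N j i|) := ⟨_, rfl⟩
    have hP0 : 0 < P := hP ▸ by positivity
    obtain ⟨D, hD⟩ := pow_mul_exp_le hε hP0 (2 * n)
    refine ⟨(∏ j, C j) * D, fun x => ?_⟩
    obtain ⟨u, hu⟩ : ∃ u, u = M *ᵥ x := ⟨_, rfl⟩
    obtain ⟨S, hS⟩ : ∃ S : ℝ, S = ∑ j, |u j| := ⟨_, rfl⟩
    have hS0 : 0 ≤ S := hS ▸ Finset.sum_nonneg fun j _ => abs_nonneg _
    have hxb : ∀ i, |x i| ≤ (∑ j, ∑ l, |N j l|) * S := fun i => by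
      have e : x = Nᵀ *ᵥ u := by rw [hu, Matrix.mulVec_mulVec, hNM, Matrix.one_mulVec]
      rw [e, hS, Finset.mul_sum]
      simp only [Matrix.mulVec, dotProduct, Matrix.transpose_apply]
      refine (Finset.abs_sum_le_sum_abs _ _).trans (Finset.sum_le_sum fun j _ => ?_)
      rw [abs_mul]
      refine mul_le_mul_of_nonneg_right ?_ (abs_nonneg _)
      exact (Finset.single_le_sum (f := fun l => |N j l|) (fun l _ => abs_nonneg _)
        (Finset.mem_univ i)).trans (Finset.single_le_sum (f := fun j => ∑ l, |N j l|)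
          (fun j _ => Finset.sum_nonneg fun l _ => abs_nonneg _) (Finset.mem_univ j))
    have hsq : 1 + ∑ i, x i ^ 2 ≤ (1 + P * S) ^ 2 := by
      have h1 : ∑ i, x i ^ 2 ≤ n * ((∑ j, ∑ l, |N j l|) * S) ^ 2 := by
        refine (Finset.sum_le_sum fun i _ => ?_).trans (le_of_eq (by
          rw [Finset.sum_const, Finset.card_univ, Fintype.card_fin, nsmul_eq_mul]))
        rw [← sq_abs]
        exact pow_le_pow_left₀ (abs_nonneg _) (hxb i) 2
      have h2 : (n : ℝ) * ((∑ j, ∑ l, |N j l|) * S) ^ 2 ≤ (P * S) ^ 2 := by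
        rw [hP, mul_pow, mul_pow, mul_pow, ← mul_assoc]
        refine mul_le_mul_of_nonneg_right (mul_le_mul ?_ ?_ (sq_nonneg _) (sq_nonneg _))
          (sq_nonneg S)
        · nlinarith [sq_nonneg (n : ℝ), Nat.cast_nonneg (α := ℝ) n]
        · exact pow_le_pow_left₀ (by positivity) (by linarith) 2
      nlinarith [mul_nonneg hP0.le hS0]
    have hnorm : ‖H x‖ ≤ (∏ j, C j) * Real.exp (-(π * δ * τ.im * S)) := by
      rw [hH, norm_prod, hS, Finset.mul_sum, ← Finset.sum_neg_distrib, Real.exp_sum,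
        ← Finset.prod_mul_distrib, ← hu]
      refine Finset.prod_le_prod (fun j _ => norm_nonneg _) fun j _ => ?_
      refine (hC j _).trans (le_of_eq ?_)
      rw [abs_mul, show |s j| = 1 by rcases hs j with h | h <;> simp [h], one_mul]
    refine hnorm.trans ?_
    rw [mul_assoc (∏ j, C j)]
    refine mul_le_mul_of_nonneg_left ?_ (Finset.prod_nonneg fun j _ => hC0 j)
    have hpos : 0 < (1 + ∑ i, x i ^ 2) ^ n := by positivity
    rw [radialWeight, ← div_eq_mul_inv, le_div_iff₀ hpos, mul_comm]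
    refine le_trans ?_ (hD S hS0)
    rw [pow_mul (1 + P * S)]
    exact mul_le_mul_of_nonneg_right (pow_le_pow_left₀ (by positivity) hsq n) (Real.exp_pos _).le
  obtain ⟨EI, hEI⟩ : ∃ EI : (Fin n → ℤ) ≃ (J : Set K), EI = latticeEquiv b hI := ⟨_, rfl⟩
  obtain ⟨EJ, hEJ⟩ : ∃ EJ : (Fin n → ℤ) ≃ (dualIdeal J : Set K),
      EJ = latticeEquiv b.traceDual hI' := ⟨_, rfl⟩
  have hNint : ∀ (m : Fin n → ℤ) j, (N *ᵥ ofInt m) j = remb (e j) (EI m : K) := fun m j => by
    rw [hEI, coe_latticeEquiv, hNdef, map_sum]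
    simp only [Matrix.mulVec, dotProduct, Matrix.of_apply, ofInt, zsmul_eq_mul, map_mul,
      map_intCast]
    exact Finset.sum_congr rfl fun i _ => mul_comm _ _
  have hMint : ∀ (v : Fin n → ℤ) j, (M *ᵥ ofInt v) j = remb (e j) (EJ v : K) := fun v j => by
    rw [hEJ, coe_latticeEquiv, hM, map_sum]
    simp only [Matrix.mulVec, dotProduct, Matrix.of_apply, ofInt, zsmul_eq_mul, map_mul,
      map_intCast]
    exact Finset.sum_congr rfl fun i _ => mul_comm _ _
  have hcoef : ∀ m : Fin n → ℤ, ∫ x : Fin n → ℝ, mFourier (-m) (toTorus x) * H x =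
      (factor J k)⁻¹ * eisTerm k τ c (-(EI m : K)) := fun m => by
    obtain ⟨g, hgdef⟩ : ∃ g : (Fin n → ℝ) → ℂ, ∀ u, g u = ∏ j,
        ramp (k - 1) (a j) (s j * u j) *
          Complex.exp (-(2 * π * I) * ((N *ᵥ ofInt m) j : ℝ) * u j) :=
      ⟨_, fun _ => rfl⟩
    have hg : ∀ x, mFourier (-m) (toTorus x) * H x = g (M *ᵥ x) := fun x => by
      have hlin : ∑ i, (N *ᵥ ofInt m) i * (M *ᵥ x) i = ∑ i, (m i : ℝ) * x i := by
        show (N *ᵥ ofInt m) ⬝ᵥ (M *ᵥ x) = ofInt m ⬝ᵥ x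
        rw [← Matrix.vecMul_transpose, ← Matrix.dotProduct_mulVec, Matrix.mulVec_mulVec, hNM,
          Matrix.one_mulVec]
      rw [hgdef, hH, Finset.prod_mul_distrib, ← Complex.exp_sum, mul_comm, mFourier_toTorus]
      congr 2
      have hlin' := congrArg (fun r : ℝ => (r : ℂ)) hlin
      push_cast at hlin'
      simp only [Pi.neg_apply, Int.cast_neg, neg_mul, mul_assoc, Finset.sum_neg_distrib,
        ← Finset.mul_sum, hlin']
      ring
    have hmeas : Measurable fun x : Fin n → ℝ => M *ᵥ x := by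
      unfold Matrix.mulVec dotProduct; fun_prop
    have hmap := Real.map_matrix_volume_pi_eq_smul_volume_pi hdetM
    have hcont : Continuous g := by
      rw [funext hgdef]
      exact continuous_finsetProd _ fun j _ =>
        ((continuous_ramp _ _).comp (by fun_prop)).mul (by fun_prop)
    simp only [hg]
    rw [← integral_map hmeas.aemeasurable hcont.aestronglyMeasurable,
      show (fun x => M *ᵥ x) = ⇑(Matrix.toLin' M) from rfl, hmap, integral_smul_measure,
      ENNReal.toReal_ofReal (abs_nonneg _), abs_inv, hdetMN, funext hgdef,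
      MeasureTheory.integral_fintype_prod_volume_eq_prod
        (f := fun j r => ramp (k - 1) (a j) (s j * r) *
          Complex.exp (-(2 * π * I) * ((N *ᵥ ofInt m) j : ℝ) * r)),
      Finset.prod_congr rfl fun j _ => integral_ramp_sign hk1 (hε.trans (hεre j)) (hs j) _,
      Complex.real_smul, hdetN, factor, hn, inv_div, eisTerm,
      ← e.prod_comp fun w => ((remb w c : ℂ) * τ + (remb w (-(EI m : K)) : ℂ)) ^ k,
      Nat.sub_add_cancel (one_le_two.trans hk2)]
    have hfac : ∀ j, a j + 2 * π * I * ((s j * (N *ᵥ ofInt m) j : ℝ) : ℂ) =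
        -(2 * π * I) * (s j : ℂ) *
          ((remb (e j) c : ℂ) * τ + (remb (e j) (-(EI m : K)) : ℂ)) := fun j => by
      rw [ha, ← hsc j, hNint, map_neg]
      push_cast
      ring
    have hsk : ∀ j, ((s j : ℝ) : ℂ) ^ k = 1 := fun j => by
      rcases hs j with h | h <;> simp [h, hk.neg_one_pow]
    simp only [hfac, mul_pow, hsk, mul_one, div_eq_mul_inv, Finset.prod_mul_distrib,
      Finset.prod_const, Finset.card_univ, Fintype.card_fin, mul_inv, ← pow_mul, inv_pow,
      Finset.prod_inv_distrib]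
    ring
  have hcs : Summable fun m : Fin n → ℤ => (factor J k)⁻¹ * eisTerm k τ c (-(EI m : K)) := by
    refine Summable.mul_left _ ?_
    refine (hT.comp_injective (i := fun m => EI (-m))
      (EI.injective.comp neg_injective)).congr fun m => ?_
    simp only [Function.comp_apply, hEI, coe_latticeEquiv, Pi.neg_apply, neg_smul,
      Finset.sum_neg_distrib]
  have hpois := poisson_decay hHc hHd hcoef hcs 0
  simp only [zero_add, mFourier_toTorus] at hpois
  have hval : ∀ v : Fin n → ℤ, H (ofInt v) = (coef k c (EJ v : K) : ℂ) *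
      Complex.exp (2 * π * I * τ * ((Algebra.trace ℚ K (c * (EJ v : K)) : ℚ) : ℂ)) := fun v => by
    obtain ⟨ν, hν⟩ : ∃ ν : K, ν = EJ v := ⟨_, rfl⟩
    rw [hH, coef, ← hν]
    by_cases hp : ∀ w : InfinitePlace K, 0 < remb w c * remb w ν
    · have hsν : ∀ j, s j * remb (e j) ν = |remb (e j) ν| := fun j => by
        have h := hp (e j)
        rcases hs j with h' | h' <;> have h'' := hsc j <;> rw [h'] at h'' ⊢
        · rw [one_mul] at h'' ⊢
          rw [abs_of_pos ((pos_iff_pos_of_mul_pos h).1 (lt_of_le_of_ne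
            (h''.symm ▸ abs_nonneg _) (remb_ne_zero _ hc).symm))]
        · rw [neg_one_mul] at h'' ⊢
          have hneg : remb (e j) c < 0 := lt_of_le_of_ne
            (neg_nonneg.1 (h''.symm ▸ abs_nonneg _)) (remb_ne_zero _ hc)
          rw [abs_of_neg (neg_of_mul_pos_right h hneg.le)]
      rw [if_pos hp, Rat.cast_pow, ← Complex.ofReal_ratCast, ← prod_abs_remb,
        ← Complex.ofReal_ratCast (Algebra.trace ℚ K (c * ν)), ← sum_remb,
        ← e.prod_comp fun w => |remb w ν|, ← e.sum_comp fun w => remb w (c * ν),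
        Complex.ofReal_prod, ← Finset.prod_pow, Complex.ofReal_sum, Finset.mul_sum,
        Complex.exp_sum, ← Finset.prod_mul_distrib]
      refine Finset.prod_congr rfl fun j _ => ?_
      rw [hMint, ← hν, hsν, ramp_of_nonneg _ _ (abs_nonneg _), ha, map_mul]
      congr 2
      have habs : |remb (e j) c| * |remb (e j) ν| = remb (e j) c * remb (e j) ν := by
        rw [← abs_mul, abs_of_pos (hp _)]
      rw [show -(-(2 * π * I) * ((|remb (e j) c| : ℝ) : ℂ) * τ) *
          ((|remb (e j) ν| : ℝ) : ℂ) = 2 * π * I * τ *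
            ((|remb (e j) c| * |remb (e j) ν| : ℝ) : ℂ) by push_cast; ring, habs]
    · rw [if_neg hp, Rat.cast_zero, zero_mul]
      push Not at hp
      obtain ⟨w, hw⟩ := hp
      refine Finset.prod_eq_zero (Finset.mem_univ (e.symm w)) ?_
      rw [hMint, ← hν, ramp_of_nonpos hk1]
      rw [Equiv.apply_symm_apply]
      have h1 := hsc (e.symm w)
      rw [Equiv.apply_symm_apply] at h1
      have hcw := abs_pos.2 (remb_ne_zero w hc)
      by_contra hcon
      rw [not_le] at hcon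
      have h3 := mul_pos hcw hcon
      rw [← h1] at h3
      nlinarith [hss (e.symm w), h3]
  have hsummH : Summable fun v : Fin n → ℤ => H (ofInt v) := by
    obtain ⟨C, -, hC⟩ := hHd.bound
    exact Summable.of_norm_bounded (FA.PackingLP.summable_prodWeight.mul_left C) fun v => hC _
  refine (EJ.hasSum_iff.1 ?_)
  have h := hsummH.hasSum.congr_fun fun v => (hval v).symm
  convert h using 1
  · rfl
  rw [hpois, ← tsum_mul_left, ← ((Equiv.neg (Fin n → ℤ)).trans EI).tsum_eq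
    fun d : ↥(J : Set K) => (factor J k)⁻¹ * eisTerm k τ c d]
  refine tsum_congr fun m => ?_
  have hneg : ((EI (-m) : K)) = -(EI m : K) := by
    rw [hEI, coe_latticeEquiv, coe_latticeEquiv, ← Finset.sum_neg_distrib]
    exact Finset.sum_congr rfl fun i _ => by rw [Pi.neg_apply, neg_smul]
  show _ * _ = _
  rw [show ((Equiv.neg (Fin n → ℤ)).trans EI) m = EI (-m) from rfl, hneg]
  simp

end FA.SiegelKlingen

end
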