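import Fermat.Agent.SiegelKlingen.DivisorSum
import Fermat.Agent.ThreeTorsion.ClassCount

/-!
# Totally positive elements of trace one of the inverse different of a quadratic field

They are the `(b + √D) / (2 √D)`, `b² < D`, `b ≡ D (mod 2)`, and the ideals containing the
numerator correspond to the divisors of `(D - b²) / 4`.
-/

set_option autoImplicit false
set_option linter.unusedSectionVars false
set_option linter.style.haveILetI false

noncomputable section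

open NumberField InfinitePlace Module
open scoped nonZeroDivisors Classical ArithmeticFunction.sigma

namespace FA.SiegelKlingen

open FA.ThreeTorsion

variable {K : Type} [Field K] [NumberField K] (Q : QData (𝓞 K))

/-- The generator of the different. -/
def rootD : K := ((Q.sqrtD : 𝓞 K) : K)

theorem disc_ne_zero_of_qdata : Q.disc ≠ 0 := Q.disc_eq_discr ▸ discr_ne_zero K

theorem rootD_sq : rootD Q * rootD Q = (Q.disc : K) := by
  rw [rootD, ← map_mul, Q.sqrtD_sq, map_intCast]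

theorem rootD_ne_zero : rootD Q ≠ 0 := fun h => by
  have h2 := rootD_sq Q
  rw [h, zero_mul, eq_comm, Int.cast_eq_zero] at h2
  exact disc_ne_zero_of_qdata Q h2

/-- The trace of `z / √D`. -/
theorem trace_div_rootD (z : 𝓞 K) : Algebra.trace ℚ K ((z : K) / rootD Q) = Q.oc z := by
  have hD : (Q.disc : ℚ) ≠ 0 := Int.cast_ne_zero.2 (disc_ne_zero_of_qdata Q)
  have e : (z : K) / rootD Q = (Q.disc : ℚ)⁻¹ • (((z * Q.sqrtD : 𝓞 K)) : K) := by
    rw [Rat.smul_def, Rat.cast_inv, Rat.cast_intCast, div_eq_iff (rootD_ne_zero Q),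
      show (((z * Q.sqrtD : 𝓞 K)) : K) = (z : K) * rootD Q from map_mul (algebraMap (𝓞 K) K) _ _,
      mul_assoc, mul_assoc, rootD_sq]
    have : (Q.disc : K) ≠ 0 := Int.cast_ne_zero.2 (disc_ne_zero_of_qdata Q)
    field_simp
  have htr : ∀ x : 𝓞 K, Algebra.trace ℤ (𝓞 K) x = 2 * Q.rc x + Q.t * Q.oc x := fun x => by
    rw [Algebra.trace_eq_matrix_trace Q.b, Matrix.trace_fin_two,
      Algebra.leftMulMatrix_eq_repr_mul, Algebra.leftMulMatrix_eq_repr_mul, Q.h0, mul_one]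
    show Q.rc x + Q.oc (x * Q.omega) = _
    rw [(Q.mul_coeff x Q.omega).2, Q.rc_omega, Q.oc_omega]
    ring
  have hs : Q.rc Q.sqrtD = -Q.t ∧ Q.oc Q.sqrtD = 2 :=
    Q.coeff_of_eq (by rw [QData.sqrtD]; push_cast; ring)
  rw [e, map_smul, ← Algebra.coe_trace_int, htr, (Q.mul_coeff z Q.sqrtD).1,
    (Q.mul_coeff z Q.sqrtD).2, hs.1, hs.2, smul_eq_mul, eq_comm, eq_inv_mul_iff_mul_eq₀ hD,
    QData.disc]
  push_cast
  ring

/-- `√D` generates the different. -/
theorem isDifferentGen_rootD : IsDifferentGen (rootD Q) := by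
  refine ⟨rootD_ne_zero Q, fun x => ⟨fun h => ?_, ?_⟩⟩
  · obtain ⟨o, ho⟩ := h 1
    obtain ⟨o', ho'⟩ := h Q.omega
    rw [show ((1 : 𝓞 K) : K) = 1 from map_one (algebraMap (𝓞 K) K), mul_one] at ho
    obtain ⟨U, hU⟩ : ∃ U : 𝓞 K, U = ((o' - Q.t * o : ℤ) : 𝓞 K) + (o : 𝓞 K) * Q.omega := ⟨_, rfl⟩
    refine ⟨U, ?_⟩
    obtain ⟨y, hy⟩ : ∃ y : K, y = x - (U : K) / rootD Q := ⟨_, rfl⟩
    have hUc := Q.coeff_of_eq hU
    have h1 : Algebra.trace ℚ K y = 0 := by
      rw [hy, map_sub, ho, trace_div_rootD, hUc.2, sub_self]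
    have h2 : Algebra.trace ℚ K (y * (Q.omega : K)) = 0 := by
      have e : (U : K) / rootD Q * (Q.omega : K) = ((U * Q.omega : 𝓞 K) : K) / rootD Q := by
        rw [show ((U * Q.omega : 𝓞 K) : K) = (U : K) * (Q.omega : K) from
          map_mul (algebraMap (𝓞 K) K) _ _]
        ring
      rw [hy, sub_mul, map_sub, ho', e, trace_div_rootD, (Q.mul_coeff U Q.omega).2, hUc.1, hUc.2,
        Q.rc_omega, Q.oc_omega]
      push_cast
      ring
    have hall : ∀ z : 𝓞 K, Algebra.trace ℚ K (y * (z : K)) = 0 := fun z => by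
      have hz : (z : K) = (Q.rc z : K) + (Q.oc z : K) * (Q.omega : K) := by
        have := congrArg (algebraMap (𝓞 K) K) (Q.expand z)
        simpa using this
      rw [hz, mul_add, map_add, mul_left_comm, ← zsmul_eq_mul, mul_comm y, ← zsmul_eq_mul,
        map_zsmul, map_zsmul, h1, h2, smul_zero, smul_zero, add_zero]
    have hy0 : y = 0 := by
      by_contra hne
      obtain ⟨a, b, hb, hab⟩ := IsFractionRing.div_surjective (A := 𝓞 K) y
      have ha : a ≠ 0 := fun h => hne (by rw [← hab, h, map_zero, zero_div])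
      have hn : Q.nrm a ≠ 0 := by
        rw [← Q.norm_eq_nrm]
        exact Algebra.norm_ne_zero_iff.2 ha
      have e : y * ((b * Q.conj a : 𝓞 K) : K) = (Q.nrm a : K) := by
        have hbK : algebraMap (𝓞 K) K b ≠ 0 :=
          RingOfIntegers.coe_ne_zero_iff.2 (nonZeroDivisors.ne_zero hb)
        rw [← hab, show ((b * Q.conj a : 𝓞 K) : K) =
          algebraMap (𝓞 K) K b * algebraMap (𝓞 K) K (Q.conj a) from map_mul _ _ _,
          ← map_intCast (algebraMap (𝓞 K) K), Q.nrm_eq, map_mul]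
        field_simp
      have h := hall (b * Q.conj a)
      rw [e, ← mul_one (Q.nrm a : K), ← zsmul_eq_mul, map_zsmul, ← map_one (algebraMap ℚ K),
        Algebra.trace_algebraMap, smul_eq_zero] at h
      rcases h with h | h
      · exact hn h
      · rw [nsmul_eq_mul, mul_one, Nat.cast_eq_zero] at h
        exact (finrank_pos (R := ℚ) (M := K)).ne' h
    rw [hy, sub_eq_zero] at hy0
    rw [hy0, div_mul_cancel₀ _ (rootD_ne_zero Q)]
  · rintro ⟨u, hu⟩ y
    refine ⟨Q.oc (u * y), ?_⟩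
    rw [← trace_div_rootD]
    congr 1
    rw [show ((u * y : 𝓞 K) : K) = (u : K) * (y : K) from map_mul (algebraMap (𝓞 K) K) _ _, hu]
    have := rootD_ne_zero Q
    field_simp

theorem abs_norm_rootD : |Algebra.norm ℚ (rootD Q)| = |(Q.disc : ℚ)| := by
  rw [rootD, ← Algebra.coe_norm_int, Q.norm_eq_nrm, Q.nrm_sqrtD, Int.cast_neg, abs_neg]

/-- The key identity `y (1 - y) = - N X / D`. -/
theorem mul_one_sub {X : 𝓞 K} (hX : Q.oc X = 1) :
    (X : K) / rootD Q * (1 - (X : K) / rootD Q) = ((-Q.nrm X / Q.disc : ℚ) : K) := by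
  have h1 : (X : K) - (Q.conj X : K) = rootD Q := by
    rw [rootD, ← map_sub]
    congr 1
    rw [Q.conj_apply, QData.sqrtD, hX]
    conv_lhs => arg 1; rw [Q.expand X, hX]
    push_cast
    ring
  have h2 : (X : K) * (Q.conj X : K) = (Q.nrm X : K) := by
    rw [← map_mul, ← Q.nrm_eq, map_intCast]
  have hD : (Q.disc : K) ≠ 0 := Int.cast_ne_zero.2 (disc_ne_zero_of_qdata Q)
  have hr := rootD_ne_zero Q
  push_cast
  field_simp
  linear_combination (-(X : K) * (Q.disc : K)) * h1 - (Q.disc : K) * h2 +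
    (Q.nrm X : K) * rootD_sq Q

variable [IsTotallyReal K]

/-- Total positivity is `N X < 0`. -/
theorem pos_iff_nrm_neg (hK : finrank ℚ K = 2) (hD : 0 < Q.disc) {X : 𝓞 K} (hX : Q.oc X = 1) :
    (∀ w : InfinitePlace K, 0 < remb w ((X : K) / rootD Q)) ↔ Q.nrm X < 0 := by
  have hD' : (0 : ℝ) < (Q.disc : ℝ) := Int.cast_pos.2 hD
  have key : ∀ w : InfinitePlace K, remb w ((X : K) / rootD Q) *
      (1 - remb w ((X : K) / rootD Q)) = -(Q.nrm X : ℝ) / (Q.disc : ℝ) := fun w => by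
    rw [← map_one (remb w), ← map_sub, ← map_mul, mul_one_sub Q hX, map_ratCast]
    push_cast
    rfl
  constructor
  · intro h
    obtain ⟨u, v, huv⟩ := Fintype.exists_pair_of_one_lt_card
      (by rw [card_places, hK]; norm_num : 1 < Fintype.card (InfinitePlace K))
    have hsum : ∑ w, remb w ((X : K) / rootD Q) = 1 := by
      rw [sum_remb, trace_div_rootD, hX]
      simp
    have hlt : remb u ((X : K) / rootD Q) < 1 :=
      hsum ▸ Finset.single_lt_sum huv.symm (Finset.mem_univ u) (Finset.mem_univ v) (h v)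
        fun w _ _ => (h w).le
    have hp := mul_pos (h u) (sub_pos.2 hlt)
    rw [key, lt_div_iff₀ hD', zero_mul, neg_pos] at hp
    exact_mod_cast hp
  · intro h w
    have hp : 0 < remb w ((X : K) / rootD Q) * (1 - remb w ((X : K) / rootD Q)) := by
      rw [key]
      exact div_pos (neg_pos.2 (Int.cast_lt_zero.2 h)) hD'
    nlinarith [sq_nonneg (remb w ((X : K) / rootD Q))]

/-- The range of `b`. -/
def bRange (D : ℤ) : Finset ℤ :=
  (Finset.Icc (-D) D).filter fun b => b * b < D ∧ (2 : ℤ) ∣ b - D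

theorem mem_bRange {D b : ℤ} : b ∈ bRange D ↔ b * b < D ∧ (2 : ℤ) ∣ b - D := by
  rw [bRange, Finset.mem_filter, Finset.mem_Icc, and_iff_right_iff_imp]
  rintro ⟨h, -⟩
  constructor <;> nlinarith [sq_nonneg (b + 1), sq_nonneg (b - 1)]

theorem two_dvd_t_sub_disc : (2 : ℤ) ∣ Q.t - Q.disc := by
  rw [QData.disc]
  rcases Int.even_or_odd Q.t with ⟨j, hj⟩ | ⟨j, hj⟩ <;> rw [hj]
  · exact ⟨j - 2 * j ^ 2 - 2 * Q.n, by ring⟩
  · exact ⟨-2 * j ^ 2 - j - 2 * Q.n, by ring⟩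

theorem four_nrm {X : 𝓞 K} (hX : Q.oc X = 1) :
    4 * Q.nrm X = (2 * Q.rc X + Q.t) * (2 * Q.rc X + Q.t) - Q.disc := by
  rw [QData.nrm, QData.disc, hX]
  ring

/-- **The points of trace one.** -/
theorem exists_tracePoint_equiv (hK : finrank ℚ K = 2) (hD : 0 < Q.disc) :
    ∃ e : TracePoint (rootD Q) 1 ≃ ↥(bRange Q.disc), ∀ X,
      Q.oc X.1 = 1 ∧ (e X : ℤ) = 2 * Q.rc X.1 + Q.t := by
  have hoc : ∀ X : TracePoint (rootD Q) 1, Q.oc X.1 = 1 := fun X => by
    have h := X.2.1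
    rw [trace_div_rootD] at h
    simp only [Nat.cast_one] at h
    exact_mod_cast h
  have hmem : ∀ X : TracePoint (rootD Q) 1, 2 * Q.rc X.1 + Q.t ∈ bRange Q.disc := fun X => by
    refine mem_bRange.2 ⟨?_, ?_⟩
    · linarith [four_nrm Q (hoc X), (pos_iff_nrm_neg Q hK hD (hoc X)).1 X.2.2]
    · obtain ⟨j, hj⟩ := two_dvd_t_sub_disc Q
      exact ⟨Q.rc X.1 + j, by linear_combination hj⟩
  refine ⟨Equiv.ofBijective (fun X => ⟨_, hmem X⟩) ⟨fun X Y h => ?_, ?_⟩, fun X => ⟨hoc X, rfl⟩⟩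
  · have h' := congrArg Subtype.val h
    simp only at h'
    exact Subtype.ext (Q.ext' (by linarith) (by rw [hoc, hoc]))
  · rintro ⟨b, hb⟩
    obtain ⟨hb1, j, hj⟩ := mem_bRange.1 hb
    obtain ⟨i, hi⟩ := two_dvd_t_sub_disc Q
    obtain ⟨X, hX⟩ : ∃ X : 𝓞 K, X = ((j - i : ℤ) : 𝓞 K) + ((1 : ℤ) : 𝓞 K) * Q.omega := ⟨_, rfl⟩
    obtain ⟨hr, ho⟩ := Q.coeff_of_eq hX
    have hb2 : 2 * Q.rc X + Q.t = b := by
      rw [hr]
      linear_combination hi - hj
    refine ⟨⟨X, ?_, (pos_iff_nrm_neg Q hK hD ho).2 ?_⟩, Subtype.ext hb2⟩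
    · rw [trace_div_rootD, ho]
      simp
    · have := four_nrm Q ho
      rw [hb2] at this
      linarith

/-- **The ideals containing a point are the divisors of its norm.** -/
theorem exists_divisor_equiv {X : 𝓞 K} (hX : Q.oc X = 1) (hn : Q.nrm X ≠ 0) :
    ∃ e : {b : (Ideal (𝓞 K))⁰ // X ∈ (b : Ideal (𝓞 K))} ≃ ↥((Q.nrm X).natAbs.divisors),
      ∀ b, (e b : ℕ) = Ideal.absNorm (b.1 : Ideal (𝓞 K)) := by
  have hmem : ∀ b : {b : (Ideal (𝓞 K))⁰ // X ∈ (b : Ideal (𝓞 K))},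
      Ideal.absNorm (b.1 : Ideal (𝓞 K)) ∈ (Q.nrm X).natAbs.divisors := fun b => by
    refine Nat.mem_divisors.2 ⟨?_, Int.natAbs_ne_zero.2 hn⟩
    rw [← Q.norm_eq_nrm, ← Ideal.absNorm_span_singleton]
    exact Ideal.absNorm_dvd_absNorm_of_le ((Ideal.span_singleton_le_iff_mem _).2 b.2)
  have hψ : ∀ e : ℕ, e ∣ (Q.nrm X).natAbs → ∃ ψ : 𝓞 K →+* ZMod e, Function.Surjective ψ ∧
      ψ X = 0 ∧ ∀ z, ψ z = 0 → ∃ a : ℤ, z = ((e : ℤ) * a : ℤ) + (Q.oc z : 𝓞 K) * X := by
    intro e he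
    obtain ⟨f, hf⟩ : ∃ f : 𝓞 K → ZMod e,
        ∀ z, f z = ((Q.rc z - Q.rc X * Q.oc z : ℤ) : ZMod e) := ⟨_, fun _ => rfl⟩
    have hN : ((Q.nrm X : ℤ) : ZMod e) = 0 :=
      (ZMod.intCast_zmod_eq_zero_iff_dvd _ _).2 (Int.natCast_dvd.2 he)
    let ψ : 𝓞 K →+* ZMod e :=
      { toFun := f
        map_one' := by
          have h := Q.coeff_of_eq (x := (1 : 𝓞 K)) (a := 1) (c := 0) (by simp)
          simp [hf, h.1, h.2]
        map_mul' := fun x y => by
          simp only [hf, (Q.mul_coeff x y).1, (Q.mul_coeff x y).2]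
          rw [QData.nrm, hX] at hN
          push_cast at hN ⊢
          linear_combination (-(Q.oc x : ZMod e) * Q.oc y) * hN
        map_zero' := by
          have h := Q.coeff_of_eq (x := (0 : 𝓞 K)) (a := 0) (c := 0) (by simp)
          simp [hf, h.1, h.2]
        map_add' := fun x y => by
          have h := Q.coeff_of_eq (x := x + y) (a := Q.rc x + Q.rc y) (c := Q.oc x + Q.oc y) (by
            conv_lhs => rw [Q.expand x, Q.expand y]
            push_cast
            ring)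
          simp only [hf, h.1, h.2]
          push_cast
          ring }
    refine ⟨ψ, fun v => ?_, ?_, fun z hz => ?_⟩
    · obtain ⟨a, rfl⟩ := ZMod.intCast_surjective v
      exact ⟨(a : 𝓞 K), by rw [map_intCast]⟩
    · show f X = 0
      simp [hf, hX]
    · have hz' : f z = 0 := hz
      rw [hf, ZMod.intCast_zmod_eq_zero_iff_dvd] at hz'
      obtain ⟨a, ha⟩ := hz'
      refine ⟨a, ?_⟩
      conv_lhs => rw [Q.expand z]
      conv_rhs => arg 2; rw [Q.expand X, hX]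
      rw [← ha]
      push_cast
      ring
  have hker : ∀ {e : ℕ} (ψ : 𝓞 K →+* ZMod e), Function.Surjective ψ →
      Ideal.absNorm (RingHom.ker ψ) = e := fun {e} ψ h => by
    rw [Ideal.absNorm_apply, Submodule.cardQuot_apply,
      Nat.card_congr (RingHom.quotientKerEquivOfSurjective h).toEquiv, Nat.card_zmod]
  refine ⟨Equiv.ofBijective (fun b => ⟨_, hmem b⟩) ⟨fun b b' h => ?_, ?_⟩, fun b => rfl⟩
  · have heq : Ideal.absNorm (b.1 : Ideal (𝓞 K)) = Ideal.absNorm (b'.1 : Ideal (𝓞 K)) :=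
      congrArg Subtype.val h
    obtain ⟨ψ, hψ1, -, hψ2⟩ := hψ _ (Nat.dvd_of_mem_divisors (hmem b))
    have hsub : ∀ c : {b : (Ideal (𝓞 K))⁰ // X ∈ (b : Ideal (𝓞 K))},
        Ideal.absNorm (c.1 : Ideal (𝓞 K)) = Ideal.absNorm (b.1 : Ideal (𝓞 K)) →
        RingHom.ker ψ = (c.1 : Ideal (𝓞 K)) := fun c hc => by
      have hle : RingHom.ker ψ ≤ (c.1 : Ideal (𝓞 K)) := fun z hz => by
        obtain ⟨a, ha⟩ := hψ2 z hz
        rw [ha, Int.cast_mul, Int.cast_natCast]
        refine add_mem (Ideal.mul_mem_right _ _ ?_) (Ideal.mul_mem_left _ _ c.2)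
        rw [← hc]
        exact Ideal.absNorm_mem _
      obtain ⟨d, hd⟩ := Ideal.dvd_iff_le.2 hle
      have h1 := congrArg Ideal.absNorm hd
      rw [hker ψ hψ1, map_mul, hc] at h1
      rw [hd, Ideal.absNorm_eq_one_iff.1 ((mul_eq_left₀
        (Ideal.absNorm_ne_zero_of_nonZeroDivisors b.1)).1 h1.symm), Ideal.mul_top]
    exact Subtype.ext (Subtype.ext ((hsub b rfl).symm.trans (hsub b' heq.symm)))
  · rintro ⟨e, he⟩
    obtain ⟨ψ, hψ1, hψX, -⟩ := hψ e (Nat.dvd_of_mem_divisors he)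
    have hne : RingHom.ker ψ ≠ 0 := fun h => by
      have h1 := hker ψ hψ1
      rw [h, Ideal.zero_eq_bot, Ideal.absNorm_bot] at h1
      exact (Nat.pos_of_mem_divisors he).ne h1
    exact ⟨⟨⟨_, mem_nonZeroDivisors_iff_ne_zero.2 hne⟩, RingHom.mem_ker.2 hψX⟩,
      Subtype.ext (hker ψ hψ1)⟩

/-- **The double sum is a sum of divisor sums.** -/
theorem tsum_tracePoint (hK : finrank ℚ K = 2) (hD : 0 < Q.disc) (j : ℕ) :
    ∑' X : TracePoint (rootD Q) 1, ∑' b : {b : (Ideal (𝓞 K))⁰ // X.1 ∈ (b : Ideal (𝓞 K))},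
        (|Algebra.norm ℚ (X.1 : K)| / |Algebra.norm ℚ (rootD Q)| /
          Ideal.absNorm (b.1 : Ideal (𝓞 K))) ^ j =
      (∑ b ∈ bRange Q.disc, (σ j ((Q.disc - b * b) / 4).toNat : ℚ)) / (Q.disc : ℚ) ^ j := by
  obtain ⟨e, he⟩ := exists_tracePoint_equiv Q hK hD
  rw [← e.symm.tsum_eq, tsum_fintype, Finset.sum_div,
    Finset.sum_coe_sort (f := fun b => (σ j ((Q.disc - b * b) / 4).toNat : ℚ) / (Q.disc : ℚ) ^ j)
      (bRange Q.disc) |>.symm]
  refine Finset.sum_congr rfl fun b _ => ?_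
  obtain ⟨X, rfl⟩ := e.surjective b
  rw [Equiv.symm_apply_apply]
  obtain ⟨ho, heX⟩ := he X
  have hneg := (pos_iff_nrm_neg Q hK hD ho).1 X.2.2
  obtain ⟨n, hn⟩ : ∃ n, n = (Q.nrm X.1).natAbs := ⟨_, rfl⟩
  have hnb : ((Q.disc - (e X : ℤ) * (e X : ℤ)) / 4).toNat = n := by
    rw [heX, show Q.disc - (2 * Q.rc X.1 + Q.t) * (2 * Q.rc X.1 + Q.t) = 4 * (-Q.nrm X.1) by
      linarith [four_nrm Q ho], Int.mul_ediv_cancel_left _ (by norm_num), hn]
    omega
  obtain ⟨E, hE⟩ := exists_divisor_equiv Q ho hneg.ne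
  rw [← E.symm.tsum_eq, tsum_fintype, hnb]
  have hN : |Algebra.norm ℚ (X.1 : K)| = (n : ℚ) := by
    rw [← Algebra.coe_norm_int, Q.norm_eq_nrm, hn, Nat.cast_natAbs, Int.cast_abs]
  have hEs : ∀ c, Ideal.absNorm ((E.symm c).1 : Ideal (𝓞 K)) = (c : ℕ) := fun c => by
    rw [← hE, Equiv.apply_symm_apply]
  simp only [hN, abs_norm_rootD, hEs]
  rw [Finset.sum_coe_sort (f := fun c : ℕ => ((n : ℚ) / |(Q.disc : ℚ)| / (c : ℚ)) ^ j), ← hn,
    ArithmeticFunction.sigma_apply, ← Nat.sum_div_divisors n fun c => c ^ j, Nat.cast_sum,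
    Finset.sum_div]
  refine Finset.sum_congr rfl fun c hc => ?_
  rw [Nat.cast_pow, Nat.cast_div (Nat.dvd_of_mem_divisors hc)
    (Nat.cast_ne_zero.2 (Nat.pos_of_mem_divisors hc).ne'),
    abs_of_pos (Int.cast_pos.2 hD : (0 : ℚ) < Q.disc), div_right_comm, div_pow]

end FA.SiegelKlingen

end
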